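/-
T1-K (helper7), (K-0): the twist `q ↦ c q` on Laurent series, and the `l`-th power map on Laurent
series in characteristic `l`.

* `tkrTw c : LaurentSeries R →+* LaurentSeries R`, `(tkrTw c f).coeff n = c ^ n * f.coeff n`
  (`c` a unit);
* `tkr_pow_char : f ^ l = qExpand S l (coeffMap (frobenius S l) f)` in characteristic `l`.
-/
import Mathlib
import Fermat.Prelude.Def_ModularCurve_X0
import Fermat.Prelude.Def_ModularCurve_LaurentCoeff
import Fermat.Prelude.Def_ModularCurve_X0ModL
import Fermat.Prelude.Thm_ModularCurve_coeffMap_qExpand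

set_option autoImplicit false
set_option linter.style.haveILetI false

namespace Fermat.Agent.T1

open ModularCurve HahnSeries

section Twist

variable {R S : Type*} [CommRing R] [CommRing S]

/-- the coefficients of a product, summed over any pair of partially well-ordered sets containing
the supports -/
theorem tkr_coeff_mul' {x y : LaurentSeries R} {a : ℤ} {s t : Set ℤ} (hs : s.IsPWO) (ht : t.IsPWO)
    (hxs : x.support ⊆ s) (hyt : y.support ⊆ t) :
    (x * y).coeff a = ∑ ij ∈ Finset.antidiagonal hs ht a, x.coeff ij.1 * y.coeff ij.2 := by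
  rw [HahnSeries.coeff_mul_left' hs hxs]
  refine Finset.sum_subset (fun ij hij => ?_) (fun ij hij hnot => ?_)
  · rw [Finset.mem_antidiagonal] at hij ⊢
    exact ⟨hij.1, hyt hij.2.1, hij.2.2⟩
  · rw [Finset.mem_antidiagonal] at hij hnot
    have : ij.2 ∉ y.support := fun h => hnot ⟨hij.1, h, hij.2.2⟩
    rw [HahnSeries.mem_support, not_not] at this
    rw [this, mul_zero]

/-- the underlying function of the twist `q ↦ c q` -/
noncomputable def tkrTwFun (c : Rˣ) (f : LaurentSeries R) : LaurentSeries R where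
  coeff n := ((c ^ n : Rˣ) : R) * f.coeff n
  isPWO_support' := f.isPWO_support.mono (fun n hn => by
    rw [Function.mem_support] at hn
    rw [HahnSeries.mem_support]
    intro h0
    exact hn (by rw [h0, mul_zero]))

@[simp]
theorem tkrTwFun_coeff (c : Rˣ) (f : LaurentSeries R) (n : ℤ) :
    (tkrTwFun c f).coeff n = ((c ^ n : Rˣ) : R) * f.coeff n := rfl

theorem tkrTwFun_support_le (c : Rˣ) (f : LaurentSeries R) :
    (tkrTwFun c f).support ⊆ f.support := by
  intro n hn
  rw [HahnSeries.mem_support] at hn ⊢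
  intro h0
  exact hn (by rw [tkrTwFun_coeff, h0, mul_zero])

theorem tkrTwFun_mul (c : Rˣ) (f g : LaurentSeries R) :
    tkrTwFun c (f * g) = tkrTwFun c f * tkrTwFun c g := by
  ext n
  rw [tkrTwFun_coeff, HahnSeries.coeff_mul,
    tkr_coeff_mul' f.isPWO_support g.isPWO_support (tkrTwFun_support_le c f)
      (tkrTwFun_support_le c g), Finset.mul_sum]
  refine Finset.sum_congr rfl (fun ij hij => ?_)
  rw [Finset.mem_antidiagonal] at hij
  rw [tkrTwFun_coeff, tkrTwFun_coeff, ← hij.2.2, zpow_add, Units.val_mul]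
  ring

/-- the twist `q ↦ c q` on Laurent series -/
noncomputable def tkrTw (c : Rˣ) : LaurentSeries R →+* LaurentSeries R where
  toFun := tkrTwFun c
  map_one' := by
    ext n
    rw [tkrTwFun_coeff, HahnSeries.coeff_one]
    split_ifs with h
    · rw [h, zpow_zero, Units.val_one, mul_one]
    · rw [mul_zero]
  map_mul' := tkrTwFun_mul c
  map_zero' := by
    ext n
    rw [tkrTwFun_coeff, HahnSeries.coeff_zero, mul_zero]
  map_add' f g := by
    ext n
    rw [tkrTwFun_coeff, HahnSeries.coeff_add, HahnSeries.coeff_add, tkrTwFun_coeff,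
      tkrTwFun_coeff, mul_add]

@[simp]
theorem tkrTw_coeff (c : Rˣ) (f : LaurentSeries R) (n : ℤ) :
    (tkrTw c f).coeff n = ((c ^ n : Rˣ) : R) * f.coeff n := rfl

@[simp]
theorem tkrTw_one_apply (f : LaurentSeries R) : tkrTw (1 : Rˣ) f = f := by
  ext n
  rw [tkrTw_coeff, one_zpow, Units.val_one, one_mul]

theorem tkrTw_mul_apply (c d : Rˣ) (f : LaurentSeries R) :
    tkrTw (c * d) f = tkrTw c (tkrTw d f) := by
  ext n
  rw [tkrTw_coeff, tkrTw_coeff, tkrTw_coeff, mul_zpow, Units.val_mul, mul_assoc]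

theorem tkrTw_single (c : Rˣ) (k : ℤ) (r : R) :
    tkrTw c (HahnSeries.single k r) = HahnSeries.single k (((c ^ k : Rˣ) : R) * r) := by
  ext n
  rw [tkrTw_coeff]
  rcases eq_or_ne n k with rfl | hn
  · rw [HahnSeries.coeff_single_same, HahnSeries.coeff_single_same]
  · rw [HahnSeries.coeff_single_of_ne hn, HahnSeries.coeff_single_of_ne hn, mul_zero]

theorem tkrTw_C (c : Rˣ) (r : R) : tkrTw c (HahnSeries.C r) = HahnSeries.C r := by
  have h : (HahnSeries.C r : LaurentSeries R) = HahnSeries.single 0 r := rfl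
  rw [h, tkrTw_single, zpow_zero, Units.val_one, one_mul]

/-- base change of the twist -/
theorem coeffMap_tkrTw (π : R →+* S) (c : Rˣ) (f : LaurentSeries R) :
    coeffMap π (tkrTw c f) = tkrTw (Units.map (π : R →* S) c) (coeffMap π f) := by
  ext n
  rw [coeffMap_coeff, tkrTw_coeff, tkrTw_coeff, coeffMap_coeff, map_mul, ← map_zpow]
  rfl

/-- the twist of `f(q^n)` -/
theorem tkrTw_qExpand (c : Rˣ) (n : ℕ) [NeZero n] (f : LaurentSeries R) :
    tkrTw c (qExpand R n f) = qExpand R n (tkrTw (c ^ n) f) := by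
  ext k
  by_cases hk : (n : ℤ) ∣ k
  · obtain ⟨m, rfl⟩ := hk
    rw [tkrTw_coeff, qExpand_coeff_mul, qExpand_coeff_mul, tkrTw_coeff, zpow_mul, zpow_natCast]
  · rw [tkrTw_coeff, qExpand_coeff_of_not_dvd n _ hk, qExpand_coeff_of_not_dvd n _ hk, mul_zero]

end Twist

section CharP

variable {S : Type*} [CommRing S]

/-- `q ↦ q^n` on power series inside Laurent series -/
theorem tkr_qExpand_ofPowerSeries (n : ℕ) [NeZero n] (g : PowerSeries S) :
    qExpand S n (HahnSeries.ofPowerSeries ℤ S g)
      = HahnSeries.ofPowerSeries ℤ S (g.expand n (NeZero.ne n)) := by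
  have hn : (0 : ℤ) < n := by exact_mod_cast Nat.pos_of_ne_zero (NeZero.ne n)
  ext k
  by_cases hk : (n : ℤ) ∣ k
  · obtain ⟨m, rfl⟩ := hk
    rw [qExpand_coeff_mul]
    rcases le_or_gt 0 m with hm | hm
    · lift m to ℕ using hm
      rw [HahnSeries.ofPowerSeries_apply_coeff,
        show (n : ℤ) * (m : ℤ) = ((n * m : ℕ) : ℤ) by push_cast; ring,
        HahnSeries.ofPowerSeries_apply_coeff, PowerSeries.coeff_expand_mul]
    · rw [ofPowerSeries_coeff_of_neg _ hm, ofPowerSeries_coeff_of_neg _ (by nlinarith)]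
  · rw [qExpand_coeff_of_not_dvd n _ hk]
    rcases le_or_gt 0 k with hk0 | hk0
    · lift k to ℕ using hk0
      rw [HahnSeries.ofPowerSeries_apply_coeff, PowerSeries.coeff_expand_of_not_dvd]
      intro h
      exact hk (by exact_mod_cast h)
    · rw [ofPowerSeries_coeff_of_neg _ hk0]

variable (l : ℕ) [hl : Fact l.Prime] [CharP S l]

/-- the `l`-th power map on Laurent series in characteristic `l`:
`(∑ aₙ qⁿ)^l = ∑ aₙ^l q^{ln}` -/
theorem tkr_pow_char (f : LaurentSeries S) :
    f ^ l = qExpand S l (coeffMap (frobenius S l) f) := by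
  haveI : NeZero l := ⟨hl.out.ne_zero⟩
  haveI : ExpChar S l := ExpChar.prime hl.out
  have hf := LaurentSeries.single_order_mul_powerSeriesPart f
  set g := f.powerSeriesPart with hg
  have hpow : g ^ l = (g.expand l (NeZero.ne l)).map (frobenius S l) :=
    (MvPowerSeries.map_frobenius_expand l (NeZero.ne l) (f := g)).symm
  rw [← hf, mul_pow, map_mul, map_mul, coeffMap_single, qExpand_single, coeffMap_ofPowerSeries,
    tkr_qExpand_ofPowerSeries, ← map_pow (HahnSeries.ofPowerSeries ℤ S), hpow,
    PowerSeries.map_expand, HahnSeries.single_pow, map_one, one_pow, nsmul_eq_mul]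

end CharP

end Fermat.Agent.T1
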