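/-
T1-K (helper7), (K-II): **Kronecker's congruence in functional form**, as a statement about Laurent
series.

If `z(q) = y(q^l) ∏_{b<l} y(ζ^b q^{1/l})` (written as `z(q^l) = y(q^{l²}) ∏_b y(ζ^b q)`) over a ring
`R`, and `π : R → S` is a ring homomorphism to a ring of characteristic `l` with `π ζ = 1`, then
`z̄ = ȳ(q^l) · Frob(ȳ)`, where `Frob` raises the coefficients to the `l`-th power
(`= Φ(ȳ) · Φ⁻¹(ȳ^l)`, `Φ = qExpand l`).
-/
import Fermat.Agent.Lib.T1.Kron.Twist

set_option autoImplicit false
set_option linter.style.haveILetI false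

namespace Fermat.Agent.T1

open ModularCurve HahnSeries

variable {R S : Type*} [CommRing R] [CommRing S]

/-- **the Kronecker congruence** -/
theorem tkr_congruence (π : R →+* S) (l : ℕ) [NeZero l] [Fact l.Prime] [CharP S l] (ζ : Rˣ)
    (hζ : π ζ = 1) (y z : LaurentSeries R)
    (h : qExpand R l z = qExpand R (l ^ 2) y * ∏ b ∈ Finset.range l, tkrTw (ζ ^ b) y) :
    coeffMap π z = qExpand S l (coeffMap π y) * coeffMap (frobenius S l) (coeffMap π y) := by
  apply qExpand_injective (R := S) l
  have hζ' : ∀ b : ℕ, Units.map (π : R →* S) (ζ ^ b) = 1 := by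
    intro b
    ext
    rw [map_pow, Units.val_pow_eq_pow_val, Units.coe_map, Units.val_one]
    show (π ζ) ^ b = 1
    rw [hζ, one_pow]
  have h1 := congrArg (coeffMap π) h
  rw [coeffMap_qExpand, map_mul, coeffMap_qExpand, map_prod] at h1
  rw [h1, map_mul, qExpand_qExpand, ← tkr_pow_char l (coeffMap π y),
    qExpand_congr (pow_two l) (coeffMap π y)]
  congr 1
  rw [Finset.prod_congr rfl (fun b _ => by rw [coeffMap_tkrTw, hζ' b, tkrTw_one_apply]),
    Finset.prod_const, Finset.card_range]

end Fermat.Agent.T1
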