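/-
T1-K (helper7), (K-I) part 2: explicit representatives of `Γ₀(N r) \ Γ₀(N)` for a prime `r ∤ N`:
`1` and `g₀ T^b` (`b < r`), `g₀ = (x y; N r)`, `r x - N y = 1`.
-/
import Mathlib

set_option autoImplicit false
set_option linter.unusedSectionVars false
set_option linter.style.haveILetI false

namespace Fermat.Agent.T1

open Matrix MatrixGroups CongruenceSubgroup ModularGroup

variable {N r : ℕ} {x y : ℤ}

/-- the matrix `(x y; N r)` of determinant `r x - N y = 1` -/
def tkrG0 (hxy : (r : ℤ) * x - N * y = 1) : SL(2, ℤ) :=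
  ⟨!![x, y; (N : ℤ), (r : ℤ)], by rw [Matrix.det_fin_two_of]; linarith⟩

/-- the representatives `1`, `g₀ T^b` -/
def tkrG (hxy : (r : ℤ) * x - N * y = 1) : Option (Fin r) → SL(2, ℤ)
  | none => 1
  | some b => tkrG0 hxy * T ^ ((b : ℕ) : ℤ)

theorem tkrG_none (hxy : (r : ℤ) * x - N * y = 1) : tkrG hxy none = 1 := rfl

theorem tkrG_some_coe (hxy : (r : ℤ) * x - N * y = 1) (b : Fin r) :
    ((tkrG hxy (some b) : SL(2, ℤ)) : Matrix (Fin 2) (Fin 2) ℤ)
      = !![x, x * (b : ℕ) + y; (N : ℤ), N * (b : ℕ) + r] := by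
  rw [tkrG, Matrix.SpecialLinearGroup.coe_mul, coe_T_zpow, tkrG0]
  ext i j
  fin_cases i <;> fin_cases j <;> simp [Matrix.mul_apply, Fin.sum_univ_two]

theorem tkrG_mem_Gamma0 (hxy : (r : ℤ) * x - N * y = 1) (s : Option (Fin r)) :
    tkrG hxy s ∈ Gamma0 N := by
  rw [Gamma0_mem]
  cases s with
  | none => simp [tkrG]
  | some b =>
    have := congrFun (congrFun (tkrG_some_coe hxy b) 1) 0
    rw [this]
    simp

/-- the lower left entry of `g_s γ` -/
theorem tkrG_mul_apply_one_zero (hxy : (r : ℤ) * x - N * y = 1) (b : Fin r) (γ : SL(2, ℤ)) :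
    (tkrG hxy (some b) * γ) 1 0 = N * γ 0 0 + (N * (b : ℕ) + r) * γ 1 0 := by
  rw [Matrix.SpecialLinearGroup.coe_mul, tkrG_some_coe]
  simp [Matrix.mul_apply, Fin.sum_univ_two]

/-- **the representatives cover `Γ₀(N)`** -/
theorem tkr_exists_mul_mem (hr : r.Prime) (hrN : ¬ r ∣ N) (hxy : (r : ℤ) * x - N * y = 1)
    {γ : SL(2, ℤ)} (hγ : γ ∈ Gamma0 N) : ∃ s, tkrG hxy s * γ ∈ Gamma0 (N * r) := by
  haveI : Fact r.Prime := ⟨hr⟩
  rw [Gamma0_mem, ZMod.intCast_zmod_eq_zero_iff_dvd] at hγ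
  obtain ⟨c', hc'⟩ := hγ
  by_cases hrc : (r : ℤ) ∣ c'
  · refine ⟨none, ?_⟩
    rw [tkrG_none, one_mul, Gamma0_mem, ZMod.intCast_zmod_eq_zero_iff_dvd, hc']
    obtain ⟨k, rfl⟩ := hrc
    exact ⟨k, by push_cast; ring⟩
  · -- solve `a + b' N c' ≡ 0 mod r`
    set w : ℤ := N * c' with hw
    have hrw : ¬ (r : ℤ) ∣ w := by
      intro h1
      rcases (Nat.prime_iff_prime_int.mp hr).dvd_or_dvd h1 with h2 | h2
      · exact hrN (by exact_mod_cast h2)
      · exact hrc h2
    have hNc : ((w : ℤ) : ZMod r) ≠ 0 := by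
      intro h0
      exact hrw ((ZMod.intCast_zmod_eq_zero_iff_dvd w r).mp h0)
    set b' : ZMod r := -((γ 0 0 : ℤ) : ZMod r) * ((w : ℤ) : ZMod r)⁻¹ with hb'
    refine ⟨some ⟨b'.val, ZMod.val_lt b'⟩, ?_⟩
    rw [Gamma0_mem, ZMod.intCast_zmod_eq_zero_iff_dvd, tkrG_mul_apply_one_zero, hc']
    have hdiv : (r : ℤ) ∣ γ 0 0 + (b'.val : ℤ) * w := by
      rw [← ZMod.intCast_zmod_eq_zero_iff_dvd]
      push_cast
      rw [ZMod.natCast_zmod_val, hb', mul_assoc, inv_mul_cancel₀ hNc]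
      ring
    obtain ⟨k, hk⟩ := hdiv
    refine ⟨k + c', ?_⟩
    have h1 : (N : ℤ) * γ 0 0 = N * (r * k - (b'.val : ℤ) * w) := by rw [← hk]; ring
    show (N : ℤ) * γ 0 0 + (N * ((b'.val : ℕ) : ℤ) + r) * (N * c') = ((N * r : ℕ) : ℤ) * (k + c')
    rw [h1, hw]
    push_cast
    ring

/-- **the representatives are pairwise inequivalent** -/
theorem tkr_eq_of_mul_inv_mem (hr : r.Prime) (hrN : ¬ r ∣ N) (hN : N ≠ 0)
    (hxy : (r : ℤ) * x - N * y = 1) {s t : Option (Fin r)}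
    (h : tkrG hxy s * (tkrG hxy t)⁻¹ ∈ Gamma0 (N * r)) : s = t := by
  have hNZ : (N : ℤ) ≠ 0 := by exact_mod_cast hN
  have hr1 : ¬ (r : ℤ) ∣ 1 := by
    intro h1
    have := Int.eq_one_of_dvd_one (by positivity) h1
    exact hr.one_lt.ne' (by exact_mod_cast this)
  rw [Gamma0_mem, ZMod.intCast_zmod_eq_zero_iff_dvd] at h
  cases s with
  | none =>
    cases t with
    | none => rfl
    | some b =>
      exfalso
      rw [tkrG_none, one_mul, Matrix.SpecialLinearGroup.SL2_inv_expl] at h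
      have h10 := congrFun (congrFun (tkrG_some_coe hxy b) 1) 0
      simp at h10
      simp [h10] at h
      obtain ⟨k, hk⟩ := h
      apply hr1
      refine ⟨k, ?_⟩
      have : (N : ℤ) * 1 = N * (r * k) := by push_cast at hk; linarith
      exact mul_left_cancel₀ hNZ this
  | some b =>
    cases t with
    | none =>
      exfalso
      rw [tkrG_none, inv_one, mul_one] at h
      have h10 := congrFun (congrFun (tkrG_some_coe hxy b) 1) 0
      simp at h10
      rw [h10] at h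
      obtain ⟨k, hk⟩ := h
      apply hr1
      refine ⟨k, ?_⟩
      have : (N : ℤ) * 1 = N * (r * k) := by push_cast at hk; linarith
      exact mul_left_cancel₀ hNZ this
    | some b' =>
      rw [tkrG_mul_apply_one_zero, Matrix.SpecialLinearGroup.SL2_inv_expl] at h
      have h10 := congrFun (congrFun (tkrG_some_coe hxy b') 1) 0
      have h11 := congrFun (congrFun (tkrG_some_coe hxy b') 1) 1
      simp at h10 h11
      simp [h10, h11] at h
      -- `N r ∣ N² (b' - b)`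
      have h2 : ((N : ℤ) * r) ∣ N * (N * ((b' : ℕ) - (b : ℕ))) := by
        obtain ⟨k, hk⟩ := h
        refine ⟨k, ?_⟩
        push_cast at hk ⊢
        linarith
      have h3 : (r : ℤ) ∣ N * (((b' : ℕ) : ℤ) - (b : ℕ)) := (mul_dvd_mul_iff_left hNZ).mp h2
      have h4 : (r : ℤ) ∣ ((b' : ℕ) : ℤ) - (b : ℕ) := by
        rcases (Nat.prime_iff_prime_int.mp hr).dvd_or_dvd h3 with h5 | h5
        · exact absurd (by exact_mod_cast h5) hrN
        · exact h5
      have h5 : ((b' : ℕ) : ℤ) - (b : ℕ) = 0 := by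
        apply Int.eq_zero_of_abs_lt_dvd h4
        have hb := b.2
        have hb' := b'.2
        rw [abs_lt]
        constructor <;> omega
      congr 1
      apply Fin.ext
      omega

end Fermat.Agent.T1
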