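/-
T1-K (helper7), (K-I) part 1: an induction principle for the function field of `X₀(N)` over `ℚ̄`, and
the `q_M`-expansions of the functions `j ∘ U`, `U` upper triangular, in terms of the twist.
-/
import Fermat.Agent.Lib.T1.Kron.Twist
import Fermat.Agent.Lib.S24.ModIso
import Fermat.Agent.Lib.S24.ModGalois

set_option autoImplicit false
set_option linter.unusedSectionVars false
set_option linter.style.haveILetI false

namespace Fermat.Agent.T1

open ModularCurve HahnSeries UpperHalfPlane Matrix MatrixGroups CongruenceSubgroup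
open Fermat.Agent.S24Lib
open Fermat.Agent.S22Lib (intGL)
open Fermat.Agent.ES (IsQLaurentable qLaurent)

local notation "Kbar" => AlgebraicClosure ℚ

/-- **induction principle** for `modularFunctionFieldBar N`: a subfield of `ℚ̄((q))` containing the
constants and the generators `j(q^d)`, `d ∣ N`, contains the function field of `X₀(N)` -/
theorem tkr_bar_le (N : ℕ) [NeZero N] (P : Subfield (LaurentSeries Kbar))
    (hc : ∀ c : Kbar, algebraMap Kbar (LaurentSeries Kbar) c ∈ P)
    (hg : ∀ (d : ℕ) [NeZero d], d ∣ N → coeffEmb Kbar (qExpand ℚ d jq) ∈ P)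
    {x : LaurentSeries Kbar} (hx : x ∈ modularFunctionFieldBar N) : x ∈ P := by
  rw [mem_laurentBaseChange_iff] at hx
  have hle : Subfield.closure (Set.range (algebraMap Kbar (LaurentSeries Kbar)) ∪
      (⇑(coeffEmb Kbar) '' (modularFunctionFieldFull N : Set (LaurentSeries ℚ)))) ≤ P := by
    rw [Subfield.closure_le]
    rintro y (⟨c, rfl⟩ | ⟨z, hz, rfl⟩)
    · exact hc c
    · show coeffEmb Kbar z ∈ P
      have hz' : z ∈ Subfield.closure (Set.range (algebraMap ℚ (LaurentSeries ℚ)) ∪
          divisorExpansions N) := hz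
      have hle2 : Subfield.closure (Set.range (algebraMap ℚ (LaurentSeries ℚ)) ∪
          divisorExpansions N) ≤ P.comap (coeffEmb Kbar) := by
        rw [Subfield.closure_le]
        rintro y (⟨c, rfl⟩ | ⟨d, hne, hd, rfl⟩)
        · show coeffEmb Kbar (algebraMap ℚ _ c) ∈ P
          rw [eq_ratCast, map_ratCast]
          exact SubfieldClass.ratCast_mem P c
        · haveI := hne
          exact hg d hd
      exact hle2 hz'
  exact hle hx

/-- the unit `exp(2πi b/d)` of `ℂ` -/
noncomputable def tkrExpUnit (b d : ℤ) : ℂˣ :=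
  Units.mk0 (Complex.exp (2 * Real.pi * Complex.I * b / d)) (Complex.exp_ne_zero _)

@[simp]
theorem tkrExpUnit_val (b d : ℤ) :
    ((tkrExpUnit b d : ℂˣ) : ℂ) = Complex.exp (2 * Real.pi * Complex.I * b / d) := rfl

theorem tkrExpUnit_mul (b k d : ℤ) : tkrExpUnit (b * k) d = tkrExpUnit b d ^ k := by
  apply Units.ext
  rw [Units.val_zpow_eq_zpow_val, tkrExpUnit_val, tkrExpUnit_val, ← Complex.exp_int_mul]
  congr 1
  push_cast
  ring

/-- the `q_M`-expansion of `j ∘ U`, `U = (a b; 0 d)`, `e d = M a`: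
`j(ζ q_M^e)`, `ζ = exp(2πi b/d)` -/
theorem tkr_qLaurent_upper (a b d : ℤ) (ha : 0 < a) (hd : 0 < d)
    (hdet : 0 < (!![a, b; 0, d] : Matrix (Fin 2) (Fin 2) ℤ).det)
    (M : ℕ) [NeZero M] (e : ℕ) [NeZero e] (he : (e : ℤ) * d = M * a) :
    qLaurent M (fun τ => jFun (intGL !![a, b; 0, d] hdet • τ))
      = qExpand ℂ e (tkrTw (tkrExpUnit b d) (jqModC ℂ)) := by
  ext m
  rw [(qLaurent_jFun_comp_upper a b d ha hd hdet M e he).2 m]
  split_ifs with hm
  · obtain ⟨k, rfl⟩ := hm
    have he0 : (e : ℤ) ≠ 0 := by exact_mod_cast NeZero.ne e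
    rw [qExpand_coeff_mul, tkrTw_coeff, Int.mul_ediv_cancel_left k he0,
      Units.val_zpow_eq_zpow_val, tkrExpUnit_val]
  · rw [qExpand_coeff_of_not_dvd e _ hm]

end Fermat.Agent.T1
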