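/-
T1-K (helper7), (K-I) part 3: inside the field `ModField M` of modular functions of level `M`, the
fixed field of `Γ₀(N)` (`N ∣ M`) is the function field of `X₀(N)`: every `Γ₀(N)`-invariant element
has the `q_M`-expansion of an element of `modularFunctionFieldBar N`.
-/
import Fermat.Agent.Lib.T1.Kron.Upper

set_option autoImplicit false
set_option linter.unusedSectionVars false
set_option linter.style.haveILetI false

namespace Fermat.Agent.T1

open ModularCurve HahnSeries UpperHalfPlane Matrix MatrixGroups CongruenceSubgroup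
open Fermat.Agent.S24Lib
open Fermat.Agent.S22Lib (intGL)
open Fermat.Agent.ES (IsQLaurentable qLaurent)

local notation "Kbar" => AlgebraicClosure ℚ

variable (N M : ℕ) [NeZero N] [NeZero M]

/-- the generators `j(dτ)`, `d ∣ N`, inside the field of modular functions of level `M` -/
def tkrGens (hNM : N ∣ M) : Set (ModField M) :=
  {x | ∃ (d : ℕ+) (hd : (d : ℕ) ∣ N), x = jGenL M (hd.trans hNM) 1}

/-- distinctness: `j(N·γτ) = j(Nτ)` identically forces `γ ∈ Γ₀(N)` (inside level `M`) -/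
theorem tkr_mem_Gamma0_of_jGenL_eq (hNM : N ∣ M) (γ : SL(2, ℤ))
    (h : jGenL M (d := pnatN N) hNM γ = jGenL M (d := pnatN N) hNM 1) : γ ∈ Gamma0 N := by
  have hN : 0 < N := Nat.pos_of_ne_zero (NeZero.ne N)
  have h1 : jGenR M (d := pnatN N) hNM γ = jGenR M (d := pnatN N) hNM 1 :=
    IsFractionRing.injective (modRing M) (ModField M) h
  have h2 : jGen (pnatN N) γ = jGen (pnatN N) 1 := congrArg Subtype.val h1
  have hdet : 0 < (!![(N : ℤ), 0; 0, 1] : Matrix (Fin 2) (Fin 2) ℤ).det := diagN_det_pos N hN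
  refine mem_Gamma0_of_jFun_comp_eq N hN hdet γ (fun τ => ?_)
  have h3 := congrFun h2 τ
  have hA : 0 < (diagMat ((pnatN N : ℕ+) : ℕ)).det := by
    rw [diagMat_det]; exact_mod_cast hN
  have e1 : jGen (pnatN N) γ τ = jMat (diagMat ((pnatN N : ℕ+) : ℕ)) hA (γ • τ) :=
    jMat_mul_SL _ hA γ τ
  have e2 : jGen (pnatN N) 1 τ = jMat (diagMat ((pnatN N : ℕ+) : ℕ)) hA ((1 : SL(2, ℤ)) • τ) :=
    jMat_mul_SL _ hA 1 τ
  rw [e1, e2, one_smul] at h3
  exact h3

/-- the field generated by the `j(dτ)`, `d ∣ N`, is the fixed field of `Γ₀(N)` in `ModField M` -/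
theorem tkr_adjoin_eq_fixedField (hNM : N ∣ M) :
    IntermediateField.adjoin Kbar (tkrGens N M hNM)
      = IntermediateField.fixedField ((Gamma0 N).map (modRep M)) := by
  refine adjoin_eq_fixedField_map (modRep M) (finite_range_modRep M) (Gamma0 N) (tkrGens N M hNM)
    ?_ ?_ ?_
  · rintro γ hγ _ ⟨d, hd, rfl⟩
    rw [modRep_jGenL, one_mul]
    have h0 : γ⁻¹ ∈ Gamma0 d := Gamma0_le_of_dvd hd (inv_mem hγ)
    have h1 := jGen_Gamma0_mul d h0 1
    rw [mul_one] at h1
    have h2 : jGenR M (hd.trans hNM) γ⁻¹ = jGenR M (hd.trans hNM) 1 := Subtype.ext h1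
    unfold jGenL
    rw [h2]
  · intro γ hγ
    have h1 := hγ _ ⟨pnatN N, pnatN_dvd N, rfl⟩
    rw [modRep_jGenL, one_mul] at h1
    have := tkr_mem_Gamma0_of_jGenL_eq N M hNM γ⁻¹ h1
    simpa using inv_mem this
  · rw [fixedField_modRep, IntermediateField.adjoin_le_iff, Set.singleton_subset_iff]
    rw [← jGenL_one_one]
    exact IntermediateField.subset_adjoin _ _ ⟨1, one_dvd N, rfl⟩

/-- **`Γ₀(N)`-invariant modular functions of level `M` come from `X₀(N)`** -/
theorem tkr_exists_of_fixed (hNM : N ∣ M) (Z : ModField M)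
    (hZ : ∀ γ ∈ Gamma0 N, modRep M γ Z = Z) :
    ∃ z ∈ modularFunctionFieldBar N, barQLHom M z = modFieldQL M Z := by
  have hmem : Z ∈ IntermediateField.adjoin Kbar (tkrGens N M hNM) := by
    rw [tkr_adjoin_eq_fixedField]
    rintro ⟨g, γ, hγ, rfl⟩
    exact hZ γ hγ
  set S1 : Subfield (LaurentSeries ℂ) := (modularFunctionFieldBar N).toSubfield.map (barQLHom M)
    with hS1
  have hy' : Z ∈ Subfield.closure (Set.range (algebraMap Kbar (ModField M)) ∪ tkrGens N M hNM) :=
    hmem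
  have hle : Subfield.closure (Set.range (algebraMap Kbar (ModField M)) ∪ tkrGens N M hNM)
      ≤ S1.comap (modFieldQL M) := by
    rw [Subfield.closure_le]
    rintro z (⟨c, rfl⟩ | ⟨d, hd, rfl⟩)
    · show modFieldQL M _ ∈ S1
      rw [modFieldQL_algebraMap_Kbar]
      exact ⟨algebraMap Kbar (LaurentSeries Kbar) c, (modularFunctionFieldBar N).algebraMap_mem c,
        barQLHom_algebraMap M c⟩
    · show modFieldQL M (jGenL M (hd.trans hNM) 1) ∈ S1
      rw [modFieldQL_jGenL_one]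
      refine ⟨coeffEmb Kbar (qExpand ℚ d jq), ?_, barQLHom_coeffEmb_jqd M d⟩
      exact coeffEmb_mem_laurentBaseChange Kbar (jqd_mem_full N hd)
  obtain ⟨z, hz, hzZ⟩ := hle hy'
  exact ⟨z, hz, hzZ⟩

end Fermat.Agent.T1
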