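/-
T1-K (helper7), (K-I) part 4: **existence of the functional Hecke operator** `T_r^fun`, `r ∤ N` prime:
for `y` in the function field of `X₀(N)` over `ℚ̄` there is `z` in the same field with
`z(q^r) = y(q^{r²}) ∏_{b<r} y(ζ^b q)`, i.e. `z(q) = y(q^r) ∏_b y(ζ^b q^{1/r})`.
-/
import Fermat.Agent.Lib.T1.Kron.Fixed
import Fermat.Agent.Lib.T1.Kron.Cosets
import Fermat.Prelude.Def_ModularCurve_HeckeOperator

set_option autoImplicit false
set_option linter.unusedSectionVars false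
set_option linter.style.haveILetI false

namespace Fermat.Agent.T1

open ModularCurve HahnSeries UpperHalfPlane Matrix MatrixGroups CongruenceSubgroup
open Fermat.Agent.S24Lib
open Fermat.Agent.S22Lib (intGL)
open Fermat.Agent.ES (IsQLaurentable qLaurent)

local notation "Kbar" => AlgebraicClosure ℚ

/-- a generic lifting subfield: the elements `y` of `K` for which there is `Y ∈ Ω` with
`A i Y = Φ i y` for all `i` -/
def tkrLiftSubfield {ι K Ω T : Type*} [Field K] [Field Ω] [Field T] (A : ι → Ω →+* T)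
    (Φ : ι → K →+* T) : Subfield K where
  carrier := {y | ∃ Y : Ω, ∀ i, A i Y = Φ i y}
  mul_mem' := by
    rintro a b ⟨Ya, ha⟩ ⟨Yb, hb⟩
    exact ⟨Ya * Yb, fun i => by rw [map_mul, map_mul, ha i, hb i]⟩
  one_mem' := ⟨1, fun i => by rw [map_one, map_one]⟩
  add_mem' := by
    rintro a b ⟨Ya, ha⟩ ⟨Yb, hb⟩
    exact ⟨Ya + Yb, fun i => by rw [map_add, map_add, ha i, hb i]⟩
  zero_mem' := ⟨0, fun i => by rw [map_zero, map_zero]⟩
  neg_mem' := by
    rintro a ⟨Ya, ha⟩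
    exact ⟨-Ya, fun i => by rw [map_neg, map_neg, ha i]⟩
  inv_mem' := by
    rintro a ⟨Ya, ha⟩
    exact ⟨Ya⁻¹, fun i => by rw [map_inv₀, map_inv₀, ha i]⟩

theorem mem_tkrLiftSubfield {ι K Ω T : Type*} [Field K] [Field Ω] [Field T] (A : ι → Ω →+* T)
    (Φ : ι → K →+* T) (y : K) : y ∈ tkrLiftSubfield A Φ ↔ ∃ Y : Ω, ∀ i, A i Y = Φ i y := Iff.rfl

section Main

variable (N r : ℕ) [NeZero N] [NeZero r] {x y : ℤ} (hxy : (r : ℤ) * x - N * y = 1)

/-- `r` as a positive natural number -/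
def tkrPNat : ℕ+ := ⟨r, Nat.pos_of_ne_zero (NeZero.ne r)⟩

theorem tkr_mul_dvd {d : ℕ+} (hd : (d : ℕ) ∣ N) : ((d * tkrPNat r : ℕ+) : ℕ) ∣ N * r := by
  rw [PNat.mul_coe]
  exact Nat.mul_dvd_mul hd (dvd_refl r)

/-- the `q_{Nr}`-expansion of `j(d r · g_b τ) = j((dτ + db)/r)` -/
theorem tkr_modFieldQL_jGenL_some {d : ℕ+} (hd : (d : ℕ) ∣ N) (b : Fin r) :
    modFieldQL (N * r) (jGenL (N * r) (tkr_mul_dvd N r hd) (tkrG hxy (some b)))
      = qExpand ℂ (N * d) (tkrTw (tkrExpUnit ((d : ℕ) * (b : ℕ)) r) (jqModC ℂ)) := by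
  obtain ⟨k, hk⟩ := hd
  have hd0 : (0 : ℤ) < (d : ℕ) := by exact_mod_cast d.pos
  have hr0 : (0 : ℤ) < (r : ℤ) := by exact_mod_cast Nat.pos_of_ne_zero (NeZero.ne r)
  have hU : 0 < (!![((d : ℕ) : ℤ), (d : ℕ) * (b : ℕ); 0, (r : ℤ)] :
      Matrix (Fin 2) (Fin 2) ℤ).det := by
    rw [Fermat.Agent.S22Lib.upper_det]; exact mul_pos hd0 hr0
  -- the auxiliary element of `SL(2, ℤ)`
  let ε : SL(2, ℤ) := ⟨!![(r : ℤ) * x, (d : ℕ) * y; (k : ℤ), 1], by
    rw [Matrix.det_fin_two_of]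
    have : (N : ℤ) = (d : ℕ) * k := by exact_mod_cast hk
    rw [this] at hxy
    linarith⟩
  have hmat : diagMat ((d * tkrPNat r : ℕ+) : ℕ)
      * ((tkrG hxy (some b) : SL(2, ℤ)) : Matrix (Fin 2) (Fin 2) ℤ)
      = (ε : Matrix (Fin 2) (Fin 2) ℤ) * !![((d : ℕ) : ℤ), (d : ℕ) * (b : ℕ); 0, (r : ℤ)] := by
    rw [tkrG_some_coe]
    have hN : (N : ℤ) = (d : ℕ) * k := by exact_mod_cast hk
    have hdr : ((tkrPNat r : ℕ+) : ℕ) = r := rfl
    ext i j
    fin_cases i <;> fin_cases j <;>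
      simp [diagMat, ε, hdr, Matrix.mul_apply, Fin.sum_univ_two, hN] <;> ring
  rw [jGenL, modFieldQL_algebraMap, modRingQL_apply]
  show qLaurent (N * r) (Fermat.Agent.S24Lib.jGen (d * tkrPNat r) (tkrG hxy (some b))) = _
  rw [Fermat.Agent.S24Lib.jGen, jMat_congr hmat _ (det_SL_mul_pos ε hU), jMat_SL_mul]
  have he : (((N * (d : ℕ) : ℕ)) : ℤ) * (r : ℤ) = ((N * r : ℕ) : ℤ) * ((d : ℕ) : ℤ) := by
    push_cast; ring
  haveI : NeZero (N * (d : ℕ)) := ⟨Nat.mul_ne_zero (NeZero.ne N) d.pos.ne'⟩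
  exact tkr_qLaurent_upper ((d : ℕ) : ℤ) ((d : ℕ) * (b : ℕ)) (r : ℤ) hd0 hr0 hU (N * r)
    (N * (d : ℕ)) he

/-- the expansions of the conjugates, as ring homomorphisms on `ModField (N r)` -/
noncomputable def tkrA (s : Option (Fin r)) : ModField (N * r) →+* LaurentSeries ℂ :=
  (modFieldQL (N * r)).comp
    ((modRep (N * r) (tkrG hxy s)⁻¹ : ModField (N * r) ≃ₐ[Kbar] ModField (N * r)) :
      ModField (N * r) →+* ModField (N * r))

theorem tkrA_apply (s : Option (Fin r)) (Y : ModField (N * r)) :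
    tkrA N r hxy s Y = modFieldQL (N * r) (modRep (N * r) (tkrG hxy s)⁻¹ Y) := rfl

theorem tkrA_none (Y : ModField (N * r)) : tkrA N r hxy none Y = modFieldQL (N * r) Y := by
  rw [tkrA_apply, tkrG_none, inv_one, map_one, AlgEquiv.one_apply]

/-- the expected expansions, as ring homomorphisms on `ℚ̄((q))` -/
noncomputable def tkrPhi : Option (Fin r) → LaurentSeries Kbar →+* LaurentSeries ℂ
  | none => (barQLHom (N * r)).comp (qExpand Kbar r)
  | some b => (qExpand ℂ N).comp ((tkrTw (tkrExpUnit 1 r ^ (b : ℕ))).comp (coeffMap iotaC))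

theorem tkrPhi_none (y : LaurentSeries Kbar) :
    tkrPhi N r none y = barQLHom (N * r) (qExpand Kbar r y) := rfl

theorem tkrPhi_some (b : Fin r) (y : LaurentSeries Kbar) :
    tkrPhi N r (some b) y
      = qExpand ℂ N (tkrTw (tkrExpUnit 1 r ^ (b : ℕ)) (coeffMap iotaC y)) := rfl

theorem tkr_coeffMap_coeffEmb_jqd (d : ℕ) [NeZero d] :
    coeffMap iotaC (coeffEmb Kbar (qExpand ℚ d jq)) = qExpand ℂ d (jqModC ℂ) := by
  rw [coeffEmb, coeffMap_coeffMap, coeffMap_qExpand]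
  have : jq = jqModC ℚ := rfl
  rw [this, coeffMap_jqModC]

/-- the generators lift -/
theorem tkr_lift_gen {d : ℕ+} (hd : (d : ℕ) ∣ N) (s : Option (Fin r)) :
    tkrA N r hxy s (jGenL (N * r) (tkr_mul_dvd N r hd) 1)
      = tkrPhi N r s (coeffEmb Kbar (qExpand ℚ d jq)) := by
  haveI : NeZero (d : ℕ) := ⟨d.pos.ne'⟩
  cases s with
  | none =>
    have h : ((d * tkrPNat r : ℕ+) : ℕ) = r * (d : ℕ) := by
      rw [PNat.mul_coe]; exact mul_comm _ _
    rw [tkrA_none, tkrPhi_none, modFieldQL_jGenL_one, barQLHom_apply, coeffMap_qExpand,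
      tkr_coeffMap_coeffEmb_jqd, qExpand_qExpand (d : ℕ) r (jqModC ℂ),
      qExpand_congr (R := ℂ) h (jqModC ℂ)]
  | some b =>
    rw [tkrA_apply, modRep_jGenL, inv_inv, one_mul, tkr_modFieldQL_jGenL_some N r hxy hd,
      tkrPhi_some, tkr_coeffMap_coeffEmb_jqd, tkrTw_qExpand, qExpand_qExpand]
    congr 2
    rw [← pow_mul, ← zpow_natCast, ← tkrExpUnit_mul]
    congr 2
    push_cast
    ring

/-- the constants lift -/
theorem tkr_lift_const (c : Kbar) (s : Option (Fin r)) :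
    tkrA N r hxy s (algebraMap Kbar (ModField (N * r)) c)
      = tkrPhi N r s (algebraMap Kbar (LaurentSeries Kbar) c) := by
  rw [tkrA_apply, AlgEquiv.commutes, modFieldQL_algebraMap_Kbar]
  cases s with
  | none => rw [tkrPhi_none, algebraMap_laurentSeries_eq_single, qExpand_single, mul_zero,
      ← algebraMap_laurentSeries_eq_single, barQLHom_algebraMap]
  | some b =>
    rw [tkrPhi_some, algebraMap_laurentSeries_eq_single, coeffMap_single]
    have h : (HahnSeries.single (0 : ℤ) (iotaC c) : LaurentSeries ℂ) = HahnSeries.C (iotaC c) :=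
      rfl
    rw [h, tkrTw_C, qExpand_C]

/-- **every element of the function field of `X₀(N)` lifts** -/
theorem tkr_exists_lift {y : LaurentSeries Kbar} (hy : y ∈ modularFunctionFieldBar N) :
    ∃ Y : ModField (N * r), ∀ s, tkrA N r hxy s Y = tkrPhi N r s y := by
  rw [← mem_tkrLiftSubfield]
  refine tkr_bar_le N _ (fun c => ?_) (fun d _ hd => ?_) hy
  · exact ⟨algebraMap Kbar (ModField (N * r)) c, fun s => tkr_lift_const N r hxy c s⟩
  · have hd' : (((⟨d, Nat.pos_of_ne_zero (NeZero.ne d)⟩ : ℕ+) : ℕ)) ∣ N := hd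
    exact ⟨jGenL (N * r) (tkr_mul_dvd N r hd') 1, fun s => tkr_lift_gen N r hxy hd' s⟩

/-- `f(q) ↦ f(q^r)` maps the function field of `X₀(N)` into that of `X₀(N r)` -/
theorem tkr_qExpand_mem {y : LaurentSeries Kbar} (hy : y ∈ modularFunctionFieldBar N) :
    qExpand Kbar r y ∈ modularFunctionFieldBar (N * r) :=
  (heckeBetaBar Kbar N r ⟨y, hy⟩).2

/-- the lift `Y` of `y(q^r)` is `Γ₀(N r)`-invariant -/
theorem tkr_lift_fixed {y : LaurentSeries Kbar} (hy : y ∈ modularFunctionFieldBar N)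
    {Y : ModField (N * r)} (hY : modFieldQL (N * r) Y = barQLHom (N * r) (qExpand Kbar r y))
    {η : SL(2, ℤ)} (hη : η ∈ Gamma0 (N * r)) : modRep (N * r) η Y = Y := by
  have h1 : Y = ((modIso (N * r) ⟨qExpand Kbar r y, tkr_qExpand_mem N r hy⟩ : anField (N * r)) :
      ModField (N * r)) := by
    apply modFieldQL_injective (N * r)
    rw [modFieldQL_modIso, hY, barQLHom_apply]
  have h2 : Y ∈ anField (N * r) := by
    rw [h1]; exact SetLike.coe_mem _
  rw [anField_eq_fixedField] at h2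
  exact h2 ⟨modRep (N * r) η, η, hη, rfl⟩

include hxy in
/-- **existence of the functional Hecke operator**, complex form -/
theorem tkr_exists_hecke_aux (hr : r.Prime) (hrN : ¬ r ∣ N) {y : LaurentSeries Kbar}
    (hy : y ∈ modularFunctionFieldBar N) :
    ∃ z ∈ modularFunctionFieldBar N,
      barQLHom (N * r) z = ∏ s : Option (Fin r), tkrPhi N r s y := by
  classical
  obtain ⟨Y, hY⟩ := tkr_exists_lift N r hxy hy
  have hY0 : modFieldQL (N * r) Y = barQLHom (N * r) (qExpand Kbar r y) := by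
    rw [← tkrA_none N r hxy, hY none, tkrPhi_none]
  have hYfix : ∀ η ∈ Gamma0 (N * r), modRep (N * r) η Y = Y :=
    fun η hη => tkr_lift_fixed N r hy hY0 hη
  set Z : ModField (N * r) := ∏ s : Option (Fin r), modRep (N * r) (tkrG hxy s)⁻¹ Y with hZdef
  have hZ : ∀ γ ∈ Gamma0 N, modRep (N * r) γ Z = Z := by
    intro γ hγ
    have hex : ∀ s : Option (Fin r), ∃ t, tkrG hxy t * (γ * (tkrG hxy s)⁻¹) ∈ Gamma0 (N * r) :=
      fun s => tkr_exists_mul_mem hr hrN hxy
        ((Gamma0 N).mul_mem hγ ((Gamma0 N).inv_mem (tkrG_mem_Gamma0 hxy s)))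
    choose π hπ using hex
    have hinj : Function.Injective π := by
      intro s1 s2 h12
      apply tkr_eq_of_mul_inv_mem hr hrN (NeZero.ne N) hxy
      have h1 := hπ s1
      have h2 := hπ s2
      rw [h12] at h1
      have h3 := (Gamma0 (N * r)).mul_mem ((Gamma0 (N * r)).inv_mem h1) h2
      convert h3 using 1
      group
    have hbij : Function.Bijective π := Finite.injective_iff_bijective.mp hinj
    have hterm : ∀ s, modRep (N * r) γ (modRep (N * r) (tkrG hxy s)⁻¹ Y)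
        = modRep (N * r) (tkrG hxy (π s))⁻¹ Y := by
      intro s
      have e1 : γ * (tkrG hxy s)⁻¹
          = (tkrG hxy (π s))⁻¹ * (tkrG hxy (π s) * (γ * (tkrG hxy s)⁻¹)) := by group
      rw [← AlgEquiv.mul_apply, ← map_mul, e1, map_mul, AlgEquiv.mul_apply, hYfix _ (hπ s)]
    rw [hZdef, map_prod, Finset.prod_congr rfl (fun s _ => hterm s)]
    exact hbij.prod_comp (fun t => modRep (N * r) (tkrG hxy t)⁻¹ Y)
  obtain ⟨z, hz, hzZ⟩ := tkr_exists_of_fixed N (N * r) (dvd_mul_right N r) Z hZ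
  refine ⟨z, hz, ?_⟩
  rw [hzZ, hZdef, map_prod]
  exact Finset.prod_congr rfl (fun s _ => by rw [← tkrA_apply, hY s])

end Main

theorem tkr_coeffMap_injective {R S : Type*} [CommRing R] [CommRing S] {f : R →+* S}
    (hf : Function.Injective f) : Function.Injective (coeffMap f) := by
  intro a b hab
  ext k
  apply hf
  rw [← coeffMap_coeff, ← coeffMap_coeff, hab]

/-- a primitive `r`-th root of unity in `ℚ̄` mapping to `exp(2πi/r)` -/
theorem tkr_exists_zeta (r : ℕ) [NeZero r] :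
    ∃ ζ : Kbarˣ, IsPrimitiveRoot (ζ : Kbar) r ∧ Units.map (iotaC : Kbar →* ℂ) ζ = tkrExpUnit 1 r := by
  have hr0 : (0 : ℤ) < (r : ℤ) := by exact_mod_cast Nat.pos_of_ne_zero (NeZero.ne r)
  obtain ⟨a, ha⟩ := mem_kZero_iff.mp (exp_two_pi_mul_div_mem_kZero 1 (r : ℤ) hr0)
  have ha0 : a ≠ 0 := by
    rintro rfl
    rw [map_zero] at ha
    exact Complex.exp_ne_zero _ ha.symm
  have hexp : Complex.exp (2 * Real.pi * Complex.I * ((1 : ℤ) : ℂ) / ((r : ℤ) : ℂ))
      = Complex.exp (2 * Real.pi * Complex.I / (r : ℂ)) := by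
    congr 1
    push_cast
    ring
  refine ⟨Units.mk0 a ha0, ?_, ?_⟩
  · refine IsPrimitiveRoot.of_map_of_injective (f := iotaC) ?_ iotaC_injective
    show IsPrimitiveRoot (iotaC a) r
    rw [ha, hexp]
    exact Complex.isPrimitiveRoot_exp r (NeZero.ne r)
  · apply Units.ext
    show iotaC a = _
    rw [ha]
    rfl

/-- **EXISTENCE OF THE FUNCTIONAL HECKE OPERATOR** `T_r^fun`, `r ∤ N` prime: there is a primitive
`r`-th root of unity `ζ ∈ ℚ̄` such that for every `y` in the function field of `X₀(N)` over `ℚ̄`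
there is `z` in the same field with `z(q^r) = y(q^{r²}) ∏_{b<r} y(ζ^b q)`. -/
theorem tkr_exists_hecke_zeta (N r : ℕ) [NeZero N] [NeZero r] (hr : r.Prime) (hrN : ¬ r ∣ N) :
    ∃ ζ : Kbarˣ, IsPrimitiveRoot (ζ : Kbar) r ∧ ∀ y ∈ modularFunctionFieldBar N,
      ∃ z ∈ modularFunctionFieldBar N,
        qExpand Kbar r z = qExpand Kbar (r * r) y * ∏ b : Fin r, tkrTw (ζ ^ (b : ℕ)) y := by
  obtain ⟨ζ, hζ, hζC⟩ := tkr_exists_zeta r
  refine ⟨ζ, hζ, fun y hy => ?_⟩
  -- Bezout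
  have hcop : Nat.Coprime r N := (Nat.Prime.coprime_iff_not_dvd hr).mpr hrN
  have hbez := Nat.gcd_eq_gcd_ab r N
  rw [hcop] at hbez
  have hxy : (r : ℤ) * r.gcdA N - N * (-(r.gcdB N)) = 1 := by
    push_cast at hbez
    linarith
  obtain ⟨z, hz, hzP⟩ := tkr_exists_hecke_aux N r hxy hr hrN hy
  refine ⟨z, hz, ?_⟩
  apply tkr_coeffMap_injective iotaC_injective
  apply qExpand_injective (R := ℂ) N
  rw [Fintype.prod_option] at hzP
  simp only [tkrPhi_none, tkrPhi_some, barQLHom_apply] at hzP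
  rw [coeffMap_qExpand, qExpand_qExpand, hzP, map_mul, map_mul, map_prod, map_prod,
    coeffMap_qExpand, coeffMap_qExpand, ← qExpand_qExpand r N, ← qExpand_qExpand r r]
  congr 1
  refine Finset.prod_congr rfl (fun b _ => ?_)
  rw [coeffMap_tkrTw, map_pow, hζC]

end Fermat.Agent.T1
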