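/-
T1-K (helper7), (K-I) part 5: **the functional Hecke operator** `tkrHecke N r` on the function field of
`X₀(N)` over `ℚ̄` (`r ∤ N` prime), as a monoid-with-zero hom, characterised by its `q`-expansion
`(T y)(q^r) = y(q^{r²}) ∏_{b<r} y(ζ^b q)` (any primitive `r`-th root of unity `ζ`); uniqueness,
independence of `ζ`, Galois equivariance.
-/
import Fermat.Agent.Lib.T1.Kron.Exist
import Fermat.Prelude.Def_ModularCurve_ArithmeticGalois

set_option autoImplicit false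
set_option linter.unusedSectionVars false
set_option linter.style.haveILetI false

namespace Fermat.Agent.T1

open ModularCurve HahnSeries

local notation "Kbar" => AlgebraicClosure ℚ

/-- products over the powers of a primitive root of unity do not depend on the root -/
theorem tkr_prod_pow_eq {M R : Type*} [CommMonoid M] [CommRing R] [IsDomain R] {r : ℕ} [NeZero r]
    {ζ ζ' : Rˣ} (hζ : IsPrimitiveRoot (ζ : R) r) (hζ' : IsPrimitiveRoot (ζ' : R) r) (F : Rˣ → M) :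
    ∏ b : Fin r, F (ζ' ^ (b : ℕ)) = ∏ b : Fin r, F (ζ ^ (b : ℕ)) := by
  classical
  have key : ∀ {ξ : Rˣ}, IsPrimitiveRoot (ξ : R) r →
      ∏ b : Fin r, F (ξ ^ (b : ℕ))
        = ∏ x ∈ Finset.univ.image (fun b : Fin r => ξ ^ (b : ℕ)), F x := by
    intro ξ hξ
    rw [Finset.prod_image]
    intro a _ b _ hab
    exact Fin.ext ((IsPrimitiveRoot.coe_units_iff.mp hξ).pow_inj a.2 b.2 hab)
  have sub : ∀ {ξ ξ' : Rˣ}, IsPrimitiveRoot (ξ : R) r → IsPrimitiveRoot (ξ' : R) r →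
      Finset.univ.image (fun b : Fin r => ξ ^ (b : ℕ))
        ⊆ Finset.univ.image (fun b : Fin r => ξ' ^ (b : ℕ)) := by
    intro ξ ξ' hξ hξ' x hx
    obtain ⟨b, -, rfl⟩ := Finset.mem_image.mp hx
    have h1 : (((ξ ^ (b : ℕ) : Rˣ) : R)) ^ r = 1 := by
      rw [Units.val_pow_eq_pow_val, ← pow_mul, mul_comm, pow_mul, hξ.pow_eq_one, one_pow]
    obtain ⟨i, hi, hi'⟩ := hξ'.eq_pow_of_pow_eq_one h1
    refine Finset.mem_image.mpr ⟨⟨i, hi⟩, Finset.mem_univ _, ?_⟩
    apply Units.ext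
    rw [Units.val_pow_eq_pow_val]
    exact hi'
  rw [key hζ, key hζ', Finset.Subset.antisymm (sub hζ' hζ) (sub hζ hζ')]

/-- **existence of `T_r^fun y`** for an arbitrary primitive `r`-th root of unity -/
theorem tkr_exists_hecke (N r : ℕ) [NeZero N] [NeZero r] (hr : r.Prime) (hrN : ¬ r ∣ N)
    {ζ : Kbarˣ} (hζ : IsPrimitiveRoot (ζ : Kbar) r) {y : LaurentSeries Kbar}
    (hy : y ∈ modularFunctionFieldBar N) :
    ∃ z ∈ modularFunctionFieldBar N,
      qExpand Kbar r z = qExpand Kbar (r * r) y * ∏ b : Fin r, tkrTw (ζ ^ (b : ℕ)) y := by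
  obtain ⟨ζ₀, hζ₀, h⟩ := tkr_exists_hecke_zeta N r hr hrN
  obtain ⟨z, hz, hzy⟩ := h y hy
  refine ⟨z, hz, ?_⟩
  rw [hzy, tkr_prod_pow_eq hζ₀ hζ (fun c => tkrTw c y)]

/-- uniqueness of the solution of the defining equation -/
theorem tkr_hecke_unique (r : ℕ) [NeZero r] {ζ ζ' : Kbarˣ} (hζ : IsPrimitiveRoot (ζ : Kbar) r)
    (hζ' : IsPrimitiveRoot (ζ' : Kbar) r) {y z z' : LaurentSeries Kbar}
    (hz : qExpand Kbar r z = qExpand Kbar (r * r) y * ∏ b : Fin r, tkrTw (ζ ^ (b : ℕ)) y)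
    (hz' : qExpand Kbar r z' = qExpand Kbar (r * r) y * ∏ b : Fin r, tkrTw (ζ' ^ (b : ℕ)) y) :
    z = z' := by
  apply qExpand_injective (R := Kbar) r
  rw [hz, hz', tkr_prod_pow_eq hζ hζ' (fun c => tkrTw c y)]

section Def

variable (N r : ℕ) [NeZero N]

open Classical in
/-- the underlying function of `tkrHecke` (identity if `r` is not a prime not dividing `N`) -/
noncomputable def tkrHeckeFun (y : modularFunctionFieldBar N) : modularFunctionFieldBar N :=
  if h : r.Prime ∧ ¬ r ∣ N then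
    haveI : NeZero r := ⟨h.1.ne_zero⟩
    ⟨(tkr_exists_hecke N r h.1 h.2 (tkr_exists_zeta r).choose_spec.1 y.2).choose,
      (tkr_exists_hecke N r h.1 h.2 (tkr_exists_zeta r).choose_spec.1 y.2).choose_spec.1⟩
  else y

variable {N r}

theorem tkrHeckeFun_spec [NeZero r] (hr : r.Prime) (hrN : ¬ r ∣ N) {ζ : Kbarˣ}
    (hζ : IsPrimitiveRoot (ζ : Kbar) r) (y : modularFunctionFieldBar N) :
    qExpand Kbar r (tkrHeckeFun N r y : LaurentSeries Kbar)
      = qExpand Kbar (r * r) (y : LaurentSeries Kbar)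
        * ∏ b : Fin r, tkrTw (ζ ^ (b : ℕ)) (y : LaurentSeries Kbar) := by
  have h : r.Prime ∧ ¬ r ∣ N := ⟨hr, hrN⟩
  rw [tkrHeckeFun, dif_pos h]
  have hi : (⟨h.1.ne_zero⟩ : NeZero r) = ‹NeZero r› := Subsingleton.elim _ _
  have := (tkr_exists_hecke N r h.1 h.2 (tkr_exists_zeta r).choose_spec.1 y.2).choose_spec.2
  rw [this, tkr_prod_pow_eq (tkr_exists_zeta r).choose_spec.1 hζ (fun c => tkrTw c _)]

theorem tkrHeckeFun_eq_of_spec [NeZero r] (hr : r.Prime) (hrN : ¬ r ∣ N) {ζ : Kbarˣ}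
    (hζ : IsPrimitiveRoot (ζ : Kbar) r) (y z : modularFunctionFieldBar N)
    (hz : qExpand Kbar r (z : LaurentSeries Kbar) = qExpand Kbar (r * r) (y : LaurentSeries Kbar)
        * ∏ b : Fin r, tkrTw (ζ ^ (b : ℕ)) (y : LaurentSeries Kbar)) :
    tkrHeckeFun N r y = z :=
  Subtype.ext (tkr_hecke_unique r hζ hζ (tkrHeckeFun_spec hr hrN hζ y) hz)

theorem tkrHeckeFun_of_not (h : ¬ (r.Prime ∧ ¬ r ∣ N)) (y : modularFunctionFieldBar N) :
    tkrHeckeFun N r y = y := by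
  rw [tkrHeckeFun, dif_neg h]

variable (N r)

/-- **the functional Hecke operator** `T_r^fun` on the function field of `X₀(N)` over `ℚ̄`
(`r ∤ N` prime; the identity otherwise): multiplicative, `0 ↦ 0`. -/
noncomputable def tkrHecke : modularFunctionFieldBar N →*₀ modularFunctionFieldBar N where
  toFun := tkrHeckeFun N r
  map_zero' := by
    by_cases h : r.Prime ∧ ¬ r ∣ N
    · haveI : NeZero r := ⟨h.1.ne_zero⟩
      obtain ⟨ζ, hζ, -⟩ := tkr_exists_zeta r
      refine tkrHeckeFun_eq_of_spec h.1 h.2 hζ 0 0 ?_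
      simp
    · exact tkrHeckeFun_of_not h 0
  map_one' := by
    by_cases h : r.Prime ∧ ¬ r ∣ N
    · haveI : NeZero r := ⟨h.1.ne_zero⟩
      obtain ⟨ζ, hζ, -⟩ := tkr_exists_zeta r
      refine tkrHeckeFun_eq_of_spec h.1 h.2 hζ 1 1 ?_
      simp
    · exact tkrHeckeFun_of_not h 1
  map_mul' y y' := by
    by_cases h : r.Prime ∧ ¬ r ∣ N
    · haveI : NeZero r := ⟨h.1.ne_zero⟩
      obtain ⟨ζ, hζ, -⟩ := tkr_exists_zeta r
      refine tkrHeckeFun_eq_of_spec h.1 h.2 hζ (y * y') (tkrHeckeFun N r y * tkrHeckeFun N r y') ?_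
      push_cast
      rw [map_mul, map_mul, tkrHeckeFun_spec h.1 h.2 hζ y, tkrHeckeFun_spec h.1 h.2 hζ y']
      simp only [map_mul, Finset.prod_mul_distrib]
      ring
    · rw [tkrHeckeFun_of_not h, tkrHeckeFun_of_not h, tkrHeckeFun_of_not h]

variable {N r}

/-- the defining `q`-expansion identity `(T y)(q^r) = y(q^{r²}) ∏_{b<r} y(ζ^b q)` -/
theorem tkrHecke_spec [NeZero r] (hr : r.Prime) (hrN : ¬ r ∣ N) {ζ : Kbarˣ}
    (hζ : IsPrimitiveRoot (ζ : Kbar) r) (y : modularFunctionFieldBar N) :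
    qExpand Kbar r (tkrHecke N r y : LaurentSeries Kbar)
      = qExpand Kbar (r * r) (y : LaurentSeries Kbar)
        * ∏ b : Fin r, tkrTw (ζ ^ (b : ℕ)) (y : LaurentSeries Kbar) :=
  tkrHeckeFun_spec hr hrN hζ y

/-- the same with `Finset.range` and `r ^ 2` (the form consumed by `tkr_congruence`) -/
theorem tkrHecke_spec_range [NeZero r] (hr : r.Prime) (hrN : ¬ r ∣ N) {ζ : Kbarˣ}
    (hζ : IsPrimitiveRoot (ζ : Kbar) r) (y : modularFunctionFieldBar N) :
    qExpand Kbar r (tkrHecke N r y : LaurentSeries Kbar)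
      = qExpand Kbar (r ^ 2) (y : LaurentSeries Kbar)
        * ∏ b ∈ Finset.range r, tkrTw (ζ ^ b) (y : LaurentSeries Kbar) := by
  rw [tkrHecke_spec hr hrN hζ y, Finset.prod_range (fun b => tkrTw (ζ ^ b) (y : LaurentSeries Kbar)),
    qExpand_congr (sq r)]

theorem tkrHecke_eq_of_spec [NeZero r] (hr : r.Prime) (hrN : ¬ r ∣ N) {ζ : Kbarˣ}
    (hζ : IsPrimitiveRoot (ζ : Kbar) r) (y z : modularFunctionFieldBar N)
    (hz : qExpand Kbar r (z : LaurentSeries Kbar) = qExpand Kbar (r * r) (y : LaurentSeries Kbar)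
        * ∏ b : Fin r, tkrTw (ζ ^ (b : ℕ)) (y : LaurentSeries Kbar)) :
    tkrHecke N r y = z :=
  tkrHeckeFun_eq_of_spec hr hrN hζ y z hz

theorem tkrHecke_of_not (h : ¬ (r.Prime ∧ ¬ r ∣ N)) (y : modularFunctionFieldBar N) :
    tkrHecke N r y = y :=
  tkrHeckeFun_of_not h y

/-- **Galois equivariance**: `T_r^fun` commutes with the coefficientwise action of `G_ℚ`. -/
theorem tkrHecke_galois (σ : Kbar ≃ₐ[ℚ] Kbar) (y : modularFunctionFieldBar N) :
    arithmeticRingAut (modularFunctionFieldFull N) σ (tkrHecke N r y)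
      = tkrHecke N r (arithmeticRingAut (modularFunctionFieldFull N) σ y) := by
  by_cases h : r.Prime ∧ ¬ r ∣ N
  · haveI : NeZero r := ⟨h.1.ne_zero⟩
    obtain ⟨ζ, hζ, -⟩ := tkr_exists_zeta r
    have hσζ : IsPrimitiveRoot ((Units.map (σ : Kbar →* Kbar) ζ : Kbarˣ) : Kbar) r := by
      show IsPrimitiveRoot (σ (ζ : Kbar)) r
      exact hζ.map_of_injective σ.injective
    symm
    refine tkrHecke_eq_of_spec h.1 h.2 hσζ _ _ ?_
    rw [coe_arithmeticRingAut_apply, coe_arithmeticRingAut_apply, ← coeffMap_qExpand,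
      tkrHecke_spec h.1 h.2 hζ y, map_mul, map_prod, coeffMap_qExpand]
    congr 1
    refine Finset.prod_congr rfl (fun b _ => ?_)
    rw [coeffMap_tkrTw, map_pow]
    rfl
  · rw [tkrHecke_of_not h, tkrHecke_of_not h]

/-- `T_r^fun` on units -/
noncomputable def tkrHeckeUnits (N r : ℕ) [NeZero N] :
    (modularFunctionFieldBar N)ˣ →* (modularFunctionFieldBar N)ˣ :=
  Units.map (tkrHecke N r : modularFunctionFieldBar N →* modularFunctionFieldBar N)

@[simp]
theorem tkrHeckeUnits_coe (y : (modularFunctionFieldBar N)ˣ) :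
    ((tkrHeckeUnits N r y : (modularFunctionFieldBar N)ˣ) : modularFunctionFieldBar N)
      = tkrHecke N r (y : modularFunctionFieldBar N) := rfl

end Def

end Fermat.Agent.T1
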