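/-
T1-K (helper7), (K3) part 1: **the multiplicative operator `T̃_l` on ALL Laurent series** over a domain `R`
containing a primitive `l`-th root of unity `ζ`:  `(T̃ a)(q^l) = a(q^{l²}) ∏_{b<l} a(ζ^b q)`.
On the function field of `X₀(N)` it is the functional Hecke operator `tkrHecke N l`; it commutes with
injective base change, and satisfies the Kronecker congruence
`red (T̃ a) = ā(q^l) · Frob(ā)` for every reduction `π : R → S` with `char S = l`, `π ζ = 1`.
(Used to reduce `T_l y` for Gauss units `y = a / b` whose numerator and denominator are arbitrary integral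
Laurent series.)
-/
import Fermat.Agent.Lib.T1.Kron.Hecke
import Fermat.Agent.Lib.T1.Kron.Congruence

set_option autoImplicit false
set_option linter.unusedSectionVars false
set_option linter.style.haveILetI false

namespace Fermat.Agent.T1

open ModularCurve HahnSeries

local notation "Kbar" => AlgebraicClosure ℚ

section Tilde

variable {R : Type*} [CommRing R]

/-- a Laurent series supported on the multiples of `n` is of the form `g(q^n)` -/
theorem tkr_exists_qExpand_eq (n : ℕ) [NeZero n] (f : LaurentSeries R)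
    (hf : ∀ k : ℤ, ¬ (n : ℤ) ∣ k → f.coeff k = 0) : ∃ g, qExpand R n g = f := by
  have hn : (0 : ℤ) < n := by exact_mod_cast Nat.pos_of_ne_zero (NeZero.ne n)
  have hbdd : BddBelow (Function.support (fun k : ℤ => f.coeff ((n : ℤ) * k))) := by
    by_cases h0 : f = 0
    · refine ⟨0, fun k hk => ?_⟩
      rw [Function.mem_support, h0] at hk
      exact absurd rfl hk
    · refine ⟨min f.order 0, fun k hk => ?_⟩
      rw [Function.mem_support] at hk
      by_contra hlt
      rw [not_le] at hlt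
      apply hk
      apply HahnSeries.coeff_eq_zero_of_lt_order
      have hk0 : k < 0 := lt_of_lt_of_le hlt (min_le_right _ _)
      have hk1 : k < f.order := lt_of_lt_of_le hlt (min_le_left _ _)
      have : (n : ℤ) * k ≤ k := by nlinarith
      exact lt_of_le_of_lt this hk1
  refine ⟨HahnSeries.ofSuppBddBelow _ hbdd, ?_⟩
  ext k
  by_cases hk : (n : ℤ) ∣ k
  · obtain ⟨m, rfl⟩ := hk
    rw [qExpand_coeff_mul]
    rfl
  · rw [qExpand_coeff_of_not_dvd n _ hk, hf k hk]

variable [IsDomain R]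

/-- a Laurent series invariant under `q ↦ ζ q`, `ζ` a primitive `l`-th root of unity, is of the form
`g(q^l)` -/
theorem tkr_exists_qExpand_of_tw_fixed (l : ℕ) [NeZero l] {ζ : Rˣ}
    (hζ : IsPrimitiveRoot (ζ : R) l) (f : LaurentSeries R) (hf : tkrTw ζ f = f) :
    ∃ g, qExpand R l g = f := by
  apply tkr_exists_qExpand_eq l f
  intro k hk
  have h1 : (tkrTw ζ f).coeff k = f.coeff k := by rw [hf]
  rw [tkrTw_coeff] at h1
  have h2 : (((ζ ^ k : Rˣ) : R) - 1) * f.coeff k = 0 := by
    rw [sub_mul, h1, one_mul, sub_self]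
  rcases mul_eq_zero.mp h2 with h3 | h3
  · exfalso
    apply hk
    have h4 : ζ ^ k = 1 := by
      apply Units.ext
      rw [Units.val_one]
      exact sub_eq_zero.mp h3
    exact (IsPrimitiveRoot.coe_units_iff.mp hζ).zpow_eq_one_iff_dvd k |>.mp h4
  · exact h3

/-- the right hand side of the defining equation is invariant under `q ↦ ζ q` -/
theorem tkr_tw_rhs (l : ℕ) [NeZero l] {ζ : Rˣ} (hζ : IsPrimitiveRoot (ζ : R) l)
    (a : LaurentSeries R) :
    tkrTw ζ (qExpand R (l * l) a * ∏ b ∈ Finset.range l, tkrTw (ζ ^ b) a)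
      = qExpand R (l * l) a * ∏ b ∈ Finset.range l, tkrTw (ζ ^ b) a := by
  have hζl : ζ ^ l = 1 := by
    apply Units.ext
    rw [Units.val_pow_eq_pow_val, Units.val_one]
    exact hζ.pow_eq_one
  rw [map_mul, tkrTw_qExpand, pow_mul, hζl, one_pow, tkrTw_one_apply, map_prod]
  congr 1
  by_cases ha : a = 0
  · have hl : 0 < l := Nat.pos_of_ne_zero (NeZero.ne l)
    rw [Finset.prod_eq_zero (Finset.mem_range.mpr hl) (by rw [ha, map_zero, map_zero]),
      Finset.prod_eq_zero (Finset.mem_range.mpr hl) (by rw [ha, map_zero])]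
  · have hstep : ∀ b : ℕ, tkrTw ζ (tkrTw (ζ ^ b) a) = tkrTw (ζ ^ (b + 1)) a := by
      intro b
      rw [← tkrTw_mul_apply, pow_succ']
    rw [Finset.prod_congr rfl (fun b _ => hstep b)]
    have h1 := Finset.prod_range_succ' (fun b => tkrTw (ζ ^ b) a) l
    have h2 := Finset.prod_range_succ (fun b => tkrTw (ζ ^ b) a) l
    rw [h1] at h2
    simp only [hζl, pow_zero, tkrTw_one_apply] at h2
    exact mul_right_cancel₀ ha h2

theorem tkr_exists_tilde (l : ℕ) [NeZero l] {ζ : Rˣ} (hζ : IsPrimitiveRoot (ζ : R) l)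
    (a : LaurentSeries R) :
    ∃ z, qExpand R l z = qExpand R (l * l) a * ∏ b ∈ Finset.range l, tkrTw (ζ ^ b) a :=
  tkr_exists_qExpand_of_tw_fixed l hζ _ (tkr_tw_rhs l hζ a)

/-- **the operator `T̃_l`** on all Laurent series -/
noncomputable def tkrTilde (l : ℕ) [NeZero l] {ζ : Rˣ} (hζ : IsPrimitiveRoot (ζ : R) l)
    (a : LaurentSeries R) : LaurentSeries R :=
  (tkr_exists_tilde l hζ a).choose

theorem tkrTilde_spec (l : ℕ) [NeZero l] {ζ : Rˣ} (hζ : IsPrimitiveRoot (ζ : R) l)
    (a : LaurentSeries R) :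
    qExpand R l (tkrTilde l hζ a)
      = qExpand R (l * l) a * ∏ b ∈ Finset.range l, tkrTw (ζ ^ b) a :=
  (tkr_exists_tilde l hζ a).choose_spec

theorem tkrTilde_eq_of_spec (l : ℕ) [NeZero l] {ζ : Rˣ} (hζ : IsPrimitiveRoot (ζ : R) l)
    {a z : LaurentSeries R}
    (hz : qExpand R l z = qExpand R (l * l) a * ∏ b ∈ Finset.range l, tkrTw (ζ ^ b) a) :
    tkrTilde l hζ a = z :=
  qExpand_injective (R := R) l ((tkrTilde_spec l hζ a).trans hz.symm)

theorem tkrTilde_mul (l : ℕ) [NeZero l] {ζ : Rˣ} (hζ : IsPrimitiveRoot (ζ : R) l)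
    (a b : LaurentSeries R) :
    tkrTilde l hζ (a * b) = tkrTilde l hζ a * tkrTilde l hζ b := by
  apply tkrTilde_eq_of_spec
  rw [map_mul, tkrTilde_spec, tkrTilde_spec]
  simp only [map_mul, Finset.prod_mul_distrib]
  ring

theorem tkrTilde_one (l : ℕ) [NeZero l] {ζ : Rˣ} (hζ : IsPrimitiveRoot (ζ : R) l) :
    tkrTilde l hζ (1 : LaurentSeries R) = 1 := by
  apply tkrTilde_eq_of_spec
  simp

theorem tkrTilde_C (l : ℕ) [NeZero l] {ζ : Rˣ} (hζ : IsPrimitiveRoot (ζ : R) l) (c : R) :
    tkrTilde l hζ (HahnSeries.C c : LaurentSeries R) = HahnSeries.C (c ^ (l + 1)) := by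
  apply tkrTilde_eq_of_spec
  simp only [qExpand_C, tkrTw_C, Finset.prod_const, Finset.card_range]
  rw [← map_pow, ← map_mul, pow_succ']

/-- `T̃` commutes with injective base change -/
theorem coeffMap_tkrTilde {R' : Type*} [CommRing R'] [IsDomain R'] (f : R →+* R')
    (hf : Function.Injective f) (l : ℕ) [NeZero l] {ζ : Rˣ} (hζ : IsPrimitiveRoot (ζ : R) l)
    (a : LaurentSeries R) :
    coeffMap f (tkrTilde l hζ a)
      = tkrTilde l (ζ := Units.map (f : R →* R') ζ) (hζ.map_of_injective hf) (coeffMap f a) := by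
  symm
  apply tkrTilde_eq_of_spec
  rw [← coeffMap_qExpand, tkrTilde_spec, map_mul, map_prod, coeffMap_qExpand]
  congr 1
  refine Finset.prod_congr rfl (fun b _ => ?_)
  rw [coeffMap_tkrTw, map_pow]

/-- **the Kronecker congruence for `T̃`** -/
theorem tkr_congruence_tilde {S : Type*} [CommRing S] (π : R →+* S) (l : ℕ) [NeZero l]
    [Fact l.Prime] [CharP S l] {ζ : Rˣ} (hζ : IsPrimitiveRoot (ζ : R) l) (hπ : π ζ = 1)
    (a : LaurentSeries R) :
    coeffMap π (tkrTilde l hζ a)
      = qExpand S l (coeffMap π a) * coeffMap (frobenius S l) (coeffMap π a) := by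
  apply tkr_congruence π l ζ hπ a
  rw [tkrTilde_spec, qExpand_congr (sq l).symm]

end Tilde

/-- on the function field of `X₀(N)`, `T̃_l` is the functional Hecke operator -/
theorem tkrTilde_eq_tkrHecke {N l : ℕ} [NeZero N] [NeZero l] (hl : l.Prime) (hlN : ¬ l ∣ N)
    {ζ : Kbarˣ} (hζ : IsPrimitiveRoot (ζ : Kbar) l) (y : modularFunctionFieldBar N) :
    tkrTilde l hζ (y : LaurentSeries Kbar) = (tkrHecke N l y : LaurentSeries Kbar) := by
  apply tkrTilde_eq_of_spec
  rw [tkrHecke_spec_range hl hlN hζ y, qExpand_congr (sq l)]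

end Fermat.Agent.T1
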