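/-
T1-K (helper7), (K3) part 2: **Gauss representations** `f · b = a` of Laurent series over `ℚ̄` by integral
Laurent series over a valuation subring `A ⊂ ℚ̄`; the action of the decomposition group on `A((q))` and its
reduction; roots of unity in `A`.
-/
import Fermat.Agent.Lib.T1.Kron.Tilde
import Fermat.Prelude.Def_EllipticCurve_FrobeniusTrace
import Fermat.Prelude.Def_FLTPrelim_Ramification

set_option autoImplicit false
set_option linter.unusedSectionVars false
set_option linter.style.haveILetI false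

namespace Fermat.Agent.T1

open ModularCurve HahnSeries

local notation "Kbar" => AlgebraicClosure ℚ
local notation "GQ" => (AlgebraicClosure ℚ ≃ₐ[ℚ] AlgebraicClosure ℚ)

variable (A : ValuationSubring Kbar)

/-- `f · b = a` with `a, b ∈ A((q))` -/
def TkrRep (f : LaurentSeries Kbar) (a b : LaurentSeries ↥A) : Prop :=
  f * coeffMap A.subtype b = coeffMap A.subtype a

variable {A}

theorem tkr_inc_injective : Function.Injective (coeffMap A.subtype) :=
  tkr_coeffMap_injective A.subtype_injective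

theorem TkrRep.mul {f₁ f₂ : LaurentSeries Kbar} {a₁ b₁ a₂ b₂ : LaurentSeries ↥A}
    (h₁ : TkrRep A f₁ a₁ b₁) (h₂ : TkrRep A f₂ a₂ b₂) :
    TkrRep A (f₁ * f₂) (a₁ * a₂) (b₁ * b₂) := by
  unfold TkrRep at *
  rw [map_mul, map_mul, ← h₁, ← h₂]
  ring

theorem TkrRep.pow {f : LaurentSeries Kbar} {a b : LaurentSeries ↥A} (h : TkrRep A f a b) (n : ℕ) :
    TkrRep A (f ^ n) (a ^ n) (b ^ n) := by
  unfold TkrRep at *
  rw [map_pow, map_pow, ← h, mul_pow]

theorem TkrRep.inv {f : LaurentSeries Kbar} {a b : LaurentSeries ↥A} (h : TkrRep A f a b)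
    (hf : f ≠ 0) : TkrRep A f⁻¹ b a := by
  unfold TkrRep at *
  rw [← h, ← mul_assoc, inv_mul_cancel₀ hf, one_mul]

theorem TkrRep.ne_zero {f : LaurentSeries Kbar} {a b : LaurentSeries ↥A} (h : TkrRep A f a b)
    (ha : a ≠ 0) : f ≠ 0 := by
  rintro rfl
  unfold TkrRep at h
  rw [zero_mul] at h
  exact ha (tkr_inc_injective (by rw [← h, map_zero]))

/-! ### the action of the decomposition group on `A((q))` -/

/-- the coefficientwise action of the decomposition group on `A((q))` -/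
noncomputable def tkrActA (g : A.decompositionSubgroup ℚ) : LaurentSeries ↥A →+* LaurentSeries ↥A :=
  coeffMap (MulSemiringAction.toRingHom (A.decompositionSubgroup ℚ) ↥A g)

theorem tkr_inc_actA (g : A.decompositionSubgroup ℚ) (a : LaurentSeries ↥A) :
    coeffMap A.subtype (tkrActA g a)
      = coeffMap (((g : GQ) : Kbar ≃ₐ[ℚ] Kbar) : Kbar →+* Kbar) (coeffMap A.subtype a) := by
  rw [tkrActA, coeffMap_coeffMap, coeffMap_coeffMap]
  exact coeffMap_congr (RingHom.ext fun x => rfl) a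

theorem tkr_red_actA (g : A.decompositionSubgroup ℚ) (a : LaurentSeries ↥A) :
    coeffMap (IsLocalRing.residue ↥A) (tkrActA g a)
      = coeffMap (MulSemiringAction.toRingHom (A.decompositionSubgroup ℚ)
          (IsLocalRing.ResidueField ↥A) g) (coeffMap (IsLocalRing.residue ↥A) a) := by
  rw [tkrActA, coeffMap_coeffMap, coeffMap_coeffMap]
  exact coeffMap_congr (RingHom.ext fun x => IsLocalRing.ResidueField.residue_smul _ g x) a

theorem TkrRep.act {f : LaurentSeries Kbar} {a b : LaurentSeries ↥A} (h : TkrRep A f a b)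
    (g : A.decompositionSubgroup ℚ) :
    TkrRep A (coeffMap (((g : GQ) : Kbar ≃ₐ[ℚ] Kbar) : Kbar →+* Kbar) f) (tkrActA g a)
      (tkrActA g b) := by
  unfold TkrRep at *
  rw [tkr_inc_actA, tkr_inc_actA, ← h, map_mul]

/-! ### roots of unity, the residue characteristic -/

theorem tkr_mem_of_pow_eq_one {x : Kbar} {l : ℕ} (hl : l ≠ 0) (hx : x ^ l = 1) : x ∈ A := by
  rcases A.mem_or_inv_mem x with h | h
  · exact h
  · have h1 : x ^ (l - 1) * x = 1 := by
      rw [← pow_succ, Nat.sub_add_cancel (Nat.pos_of_ne_zero hl), hx]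
    have h2 : x = (x⁻¹) ^ (l - 1) := by
      rw [inv_pow]
      exact (inv_eq_of_mul_eq_one_right h1).symm
    rw [h2]
    exact pow_mem h _

/-- roots of unity of `ℚ̄` are units of `A` -/
theorem tkr_exists_unit_of_pow_eq_one {ζ : Kbarˣ} {l : ℕ} (hl : l ≠ 0) (hζ : ζ ^ l = 1) :
    ∃ u : (↥A)ˣ, Units.map (A.subtype : ↥A →* Kbar) u = ζ := by
  have h1 : ((ζ : Kbar)) ^ l = 1 := by
    rw [← Units.val_pow_eq_pow_val, hζ, Units.val_one]
  have h2 : ((ζ⁻¹ : Kbarˣ) : Kbar) ^ l = 1 := by
    rw [← Units.val_pow_eq_pow_val, inv_pow, hζ, inv_one, Units.val_one]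
  refine ⟨⟨⟨(ζ : Kbar), tkr_mem_of_pow_eq_one hl h1⟩, ⟨((ζ⁻¹ : Kbarˣ) : Kbar),
    tkr_mem_of_pow_eq_one hl h2⟩, Subtype.ext (by simp), Subtype.ext (by simp)⟩, ?_⟩
  apply Units.ext
  rfl

/-- the residue field of a valuation subring over `l` has characteristic `l` -/
theorem tkr_charP_residue {l : ℕ} (hl : l.Prime) (hA : A.LiesOverPrime l) :
    CharP (IsLocalRing.ResidueField ↥A) l := by
  have h0 : ((l : ℕ) : IsLocalRing.ResidueField ↥A) = 0 := by
    obtain ⟨hmem, hmax⟩ := (ValuationSubring.mem_nonunits_iff_exists_mem_maximalIdeal).mp hA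
    have : IsLocalRing.residue ↥A (⟨(l : Kbar), hmem⟩ : ↥A) = 0 :=
      (IsLocalRing.residue_eq_zero_iff _).mpr hmax
    have h2 : (⟨(l : Kbar), hmem⟩ : ↥A) = ((l : ℕ) : ↥A) := Subtype.ext (by simp)
    rw [h2, map_natCast] at this
    exact this
  have h1 : ringChar (IsLocalRing.ResidueField ↥A) = l := CharP.ringChar_of_prime_eq_zero hl h0
  rw [← h1]
  exact ringChar.charP _

/-- a root of unity of `l`-power order reduces to `1` in characteristic `l` -/
theorem tkr_residue_eq_one {l : ℕ} [Fact l.Prime] [CharP (IsLocalRing.ResidueField ↥A) l]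
    {u : (↥A)ˣ} (hu : u ^ l = 1) : IsLocalRing.residue ↥A (u : ↥A) = 1 := by
  set x := IsLocalRing.residue ↥A (u : ↥A) with hx
  have h1 : x ^ l = 1 := by
    rw [hx, ← map_pow, ← Units.val_pow_eq_pow_val, hu, Units.val_one, map_one]
  have h2 : (x - 1) ^ l = 0 := by
    rw [sub_pow_char, h1, one_pow, sub_self]
  exact sub_eq_zero.mp (pow_eq_zero_iff (Fact.out : l.Prime).ne_zero |>.mp h2)

/-! ### `T̃` and representations -/

theorem TkrRep.tilde {f : LaurentSeries Kbar} {a b : LaurentSeries ↥A} (h : TkrRep A f a b)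
    (l : ℕ) [NeZero l] {ζA : (↥A)ˣ} (hζA : IsPrimitiveRoot (ζA : ↥A) l)
    (hζ : IsPrimitiveRoot ((Units.map (A.subtype : ↥A →* Kbar) ζA : Kbarˣ) : Kbar) l) :
    TkrRep A (tkrTilde l hζ f) (tkrTilde l hζA a) (tkrTilde l hζA b) := by
  have e : ∀ x : LaurentSeries ↥A,
      coeffMap A.subtype (tkrTilde l hζA x) = tkrTilde l hζ (coeffMap A.subtype x) :=
    fun x => coeffMap_tkrTilde A.subtype A.subtype_injective l hζA x
  unfold TkrRep at *
  rw [e, e, ← tkrTilde_mul, h]

/-- the reduction of `T̃ a`: the Kronecker congruence -/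
theorem tkr_red_tilde (l : ℕ) [NeZero l] [Fact l.Prime] [CharP (IsLocalRing.ResidueField ↥A) l]
    {ζA : (↥A)ˣ} (hζA : IsPrimitiveRoot (ζA : ↥A) l) (a : LaurentSeries ↥A) :
    coeffMap (IsLocalRing.residue ↥A) (tkrTilde l hζA a)
      = qExpand (IsLocalRing.ResidueField ↥A) l (coeffMap (IsLocalRing.residue ↥A) a)
        * coeffMap (frobenius (IsLocalRing.ResidueField ↥A) l)
          (coeffMap (IsLocalRing.residue ↥A) a) := by
  apply tkr_congruence_tilde (IsLocalRing.residue ↥A) l hζA _ a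
  apply tkr_residue_eq_one
  apply Units.ext
  rw [Units.val_pow_eq_pow_val, Units.val_one]
  exact hζA.pow_eq_one

end Fermat.Agent.T1
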