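/-
T1-K (helper7), (K3) part 3: **ASSEMBLY** — the two element statements consumed by the Tate-module package:
for `y ∈ tWsub ℚ̄ N m` (`m | div y`), `l ∤ N` a prime, `A ⊂ ℚ̄` a valuation subring over `l`:
 (i)  `σ ∈ I_A`          ⟹ `σ y = y · t^m`;
 (ii) `σ` Frobenius at `A` ⟹ `σ² y · y^l = T_l(σ y) · t^m`   (Eichler–Shimura on functions).
Here from two explicit inputs: `TkrK12 N m A` (= K1 + K2: a Gauss unit of `tWsub` with reduction `1` is an
`m`-th power) and `TkrNormal N A` (Gauss normal form: every `y ≠ 0` is `c⁻¹ · a / b` with `a, b ∈ A((q))` primitive).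
-/
import Fermat.Agent.Lib.T1.Kron.Rep
import Fermat.Agent.Lib.T1.Defs

set_option autoImplicit false
set_option linter.unusedSectionVars false
set_option linter.style.haveILetI false

namespace Fermat.Agent.T1

open ModularCurve HahnSeries AlgebraicCurve

local notation "Kbar" => AlgebraicClosure ℚ
local notation "GQ" => (AlgebraicClosure ℚ ≃ₐ[ℚ] AlgebraicClosure ℚ)

/-- the coefficientwise Galois action on the units of the function field of `X₀(N)` -/
noncomputable def tkrSig (N : ℕ) (σ : GQ) :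
    (↥(modularFunctionFieldBar N))ˣ →* (↥(modularFunctionFieldBar N))ˣ :=
  Units.map ((arithmeticRingAut (modularFunctionFieldFull N) σ :
    ↥(modularFunctionFieldBar N) ≃+* ↥(modularFunctionFieldBar N)) :
      ↥(modularFunctionFieldBar N) →* ↥(modularFunctionFieldBar N))

@[simp]
theorem tkrSig_coe (N : ℕ) (σ : GQ) (y : (↥(modularFunctionFieldBar N))ˣ) :
    (((tkrSig N σ y : (↥(modularFunctionFieldBar N))ˣ) : ↥(modularFunctionFieldBar N)) :
      LaurentSeries Kbar) = coeffMap (σ : Kbar →+* Kbar)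
        (((y : (↥(modularFunctionFieldBar N))ˣ) : ↥(modularFunctionFieldBar N)) :
          LaurentSeries Kbar) := rfl

/-- the Galois action preserves `tWsub` -/
theorem tkrSig_mem_tWsub (N m : ℕ) (σ : GQ) {y : (↥(modularFunctionFieldBar N))ˣ}
    (hy : y ∈ tWsub Kbar N m) : tkrSig N σ y ∈ tWsub Kbar N m := by
  intro P
  set g := arithmeticGalois (modularFunctionFieldFull N) σ with hg
  have h1 : P = g • (g⁻¹ • P) := by rw [smul_inv_smul]
  have h2 : ((tkrSig N σ y : (↥(modularFunctionFieldBar N))ˣ) : ↥(modularFunctionFieldBar N))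
      = g • ((y : (↥(modularFunctionFieldBar N))ˣ) : ↥(modularFunctionFieldBar N)) := rfl
  rw [h1, h2, SemilinearAut.ord_smul]
  exact hy _

/-- `m`-th powers are in `tWsub` -/
theorem tkr_pow_mem_tWsub (N m : ℕ) (t : (↥(modularFunctionFieldBar N))ˣ) :
    t ^ m ∈ tWsub Kbar N m := by
  intro P
  rw [Units.val_pow_eq_pow_val, ← zpow_natCast, Place.ord_zpow]
  exact dvd_mul_right _ _

/-- constants as units of the function field -/
noncomputable def tkrConst (N : ℕ) : Kbarˣ →* (↥(modularFunctionFieldBar N))ˣ :=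
  Units.map ((algebraMap Kbar ↥(modularFunctionFieldBar N) : Kbar →+* _) : Kbar →* _)

@[simp]
theorem tkrConst_coe (N : ℕ) (c : Kbarˣ) :
    (((tkrConst N c : (↥(modularFunctionFieldBar N))ˣ) : ↥(modularFunctionFieldBar N)) :
      LaurentSeries Kbar) = algebraMap Kbar (LaurentSeries Kbar) (c : Kbar) := rfl

section K3

variable (N m : ℕ) (A : ValuationSubring Kbar)

/-- **(K1 + K2)** for the valuation subring `A`: an element of `tWsub` which is a Gauss unit with
reduction `1` is an `m`-th power. -/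
def TkrK12 : Prop :=
  ∀ Y : (↥(modularFunctionFieldBar N))ˣ, Y ∈ tWsub Kbar N m →
    (∃ a b : LaurentSeries ↥A,
      coeffMap (IsLocalRing.residue ↥A) a = coeffMap (IsLocalRing.residue ↥A) b ∧
      coeffMap (IsLocalRing.residue ↥A) b ≠ 0 ∧
      TkrRep A ((Y : ↥(modularFunctionFieldBar N)) : LaurentSeries Kbar) a b) →
    ∃ t : (↥(modularFunctionFieldBar N))ˣ, Y = t ^ m

/-- **Gauss normal form**: every `y ≠ 0` of the function field is, up to a constant, a quotient of two
primitive integral Laurent series. -/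
def TkrNormal : Prop :=
  ∀ y : (↥(modularFunctionFieldBar N))ˣ, ∃ c : Kbar, c ≠ 0 ∧ ∃ a b : LaurentSeries ↥A,
    coeffMap (IsLocalRing.residue ↥A) a ≠ 0 ∧ coeffMap (IsLocalRing.residue ↥A) b ≠ 0 ∧
    TkrRep A (algebraMap Kbar (LaurentSeries Kbar) c
      * ((y : ↥(modularFunctionFieldBar N)) : LaurentSeries Kbar)) a b

variable {N m A}

/-- the common core: constants are `m`-th powers -/
theorem tkr_K3_core (hK : TkrK12 N m A) (hm : m ≠ 0) {Y0 : (↥(modularFunctionFieldBar N))ˣ}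
    (hY0 : Y0 ∈ tWsub Kbar N m) {d : Kbar} (hd : d ≠ 0) {a b : LaurentSeries ↥A}
    (hred : coeffMap (IsLocalRing.residue ↥A) a = coeffMap (IsLocalRing.residue ↥A) b)
    (hb : coeffMap (IsLocalRing.residue ↥A) b ≠ 0)
    (hrep : TkrRep A (algebraMap Kbar (LaurentSeries Kbar) d
      * ((Y0 : ↥(modularFunctionFieldBar N)) : LaurentSeries Kbar)) a b) :
    ∃ t : (↥(modularFunctionFieldBar N))ˣ, Y0 = t ^ m := by
  obtain ⟨e, he⟩ := IsAlgClosed.exists_pow_nat_eq d (Nat.pos_of_ne_zero hm)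
  have he0 : e ≠ 0 := by
    rintro rfl
    rw [zero_pow hm] at he
    exact hd he.symm
  set E : (↥(modularFunctionFieldBar N))ˣ := tkrConst N (Units.mk0 e he0) with hE
  have hY' : E ^ m * Y0 ∈ tWsub Kbar N m :=
    (tWsub Kbar N m).mul_mem (tkr_pow_mem_tWsub N m E) hY0
  obtain ⟨t, ht⟩ := hK (E ^ m * Y0) hY' ⟨a, b, hred, hb, by
    have : (((E ^ m * Y0 : (↥(modularFunctionFieldBar N))ˣ) : ↥(modularFunctionFieldBar N)) :
        LaurentSeries Kbar) = algebraMap Kbar (LaurentSeries Kbar) d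
          * ((Y0 : ↥(modularFunctionFieldBar N)) : LaurentSeries Kbar) := by
      rw [Units.val_mul, Units.val_pow_eq_pow_val, MulMemClass.coe_mul, SubmonoidClass.coe_pow,
        hE, tkrConst_coe, Units.val_mk0, ← map_pow, he]
    rw [this]
    exact hrep⟩
  refine ⟨E⁻¹ * t, ?_⟩
  rw [mul_pow, ← ht, inv_pow, inv_mul_cancel_left]

/-- **K3 (i): inertia acts trivially modulo `m`-th powers** -/
theorem tkr_K3_inertia (hK : TkrK12 N m A) (hnorm : TkrNormal N A) (hm : m ≠ 0) {σ : GQ}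
    (hσ : σ ∈ A.inertiaSubgroupIn ℚ) {y : (↥(modularFunctionFieldBar N))ˣ}
    (hy : y ∈ tWsub Kbar N m) :
    ∃ t : (↥(modularFunctionFieldBar N))ˣ, tkrSig N σ y = y * t ^ m := by
  obtain ⟨g, hg, rfl⟩ := hσ
  have hgκ : MulSemiringAction.toRingHom (A.decompositionSubgroup ℚ)
      (IsLocalRing.ResidueField ↥A) g = RingHom.id _ := by
    ext x
    have := MonoidHom.mem_ker.mp hg
    have h2 := congrArg (fun e : RingAut (IsLocalRing.ResidueField ↥A) => e x) this
    exact h2
  obtain ⟨c, hc, a, b, ha, hb, hrep⟩ := hnorm y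
  change ∃ t : (↥(modularFunctionFieldBar N))ˣ, tkrSig N (g : GQ) y = y * t ^ m
  generalize hσdef : (g : GQ) = σ at *
  have hσc : (σ : Kbar →+* Kbar) c ≠ 0 := (map_ne_zero _).mpr hc
  have hrepσ := hrep.act g
  rw [hσdef, map_mul, coeffMap_algebraMap] at hrepσ
  have hy0 : ((y : ↥(modularFunctionFieldBar N)) : LaurentSeries Kbar) ≠ 0 := by
    simp
  have hcy0 : algebraMap Kbar (LaurentSeries Kbar) c
      * ((y : ↥(modularFunctionFieldBar N)) : LaurentSeries Kbar) ≠ 0 :=
    mul_ne_zero ((map_ne_zero _).mpr hc) hy0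
  have hrep' := hrepσ.mul (hrep.inv hcy0)
  have hY0 : tkrSig N σ y * y⁻¹ ∈ tWsub Kbar N m :=
    (tWsub Kbar N m).mul_mem (tkrSig_mem_tWsub N m σ hy) ((tWsub Kbar N m).inv_mem hy)
  have hd : (σ : Kbar →+* Kbar) c / c ≠ 0 := div_ne_zero hσc hc
  obtain ⟨t, ht⟩ := tkr_K3_core hK hm hY0 hd (a := tkrActA g a * b) (b := tkrActA g b * a)
    (by rw [map_mul, map_mul, tkr_red_actA, tkr_red_actA, hgκ, coeffMap_id, coeffMap_id,
      mul_comm])
    (by rw [map_mul, tkr_red_actA, hgκ, coeffMap_id]; exact mul_ne_zero hb ha)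
    (by
      convert hrep' using 1
      rw [Units.val_mul, MulMemClass.coe_mul, tkrSig_coe, Units.val_inv_eq_inv_val,
        map_div₀, mul_inv]
      have : (((y : ↥(modularFunctionFieldBar N))⁻¹ : ↥(modularFunctionFieldBar N)) :
          LaurentSeries Kbar) = ((y : ↥(modularFunctionFieldBar N)) : LaurentSeries Kbar)⁻¹ := rfl
      rw [this, div_eq_mul_inv]
      ring)
  refine ⟨t, ?_⟩
  rw [← ht, mul_comm (tkrSig N σ y), mul_inv_cancel_left]

/-- **K3 (ii): the Eichler–Shimura relation on functions** `σ²y · y^l = T_l(σ y) · t^m` for `σ` a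
Frobenius element at `A | l`, `l ∤ N`. -/
theorem tkr_K3_frob [NeZero N] (hK : TkrK12 N m A) (hnorm : TkrNormal N A) (hm : m ≠ 0) {l : ℕ}
    (hl : l.Prime) (hlN : ¬ l ∣ N) (hA : A.LiesOverPrime l) {σ : GQ} (hσ : A.IsFrobeniusAt σ l)
    {y : (↥(modularFunctionFieldBar N))ˣ} (hy : y ∈ tWsub Kbar N m)
    (hT : tkrHeckeUnits N l (tkrSig N σ y) ∈ tWsub Kbar N m) :
    ∃ t : (↥(modularFunctionFieldBar N))ˣ,
      tkrSig N σ (tkrSig N σ y) * y ^ l = tkrHeckeUnits N l (tkrSig N σ y) * t ^ m := by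
  haveI : NeZero l := ⟨hl.ne_zero⟩
  haveI : Fact l.Prime := ⟨hl⟩
  haveI : CharP (IsLocalRing.ResidueField ↥A) l := tkr_charP_residue hl hA
  obtain ⟨hσD, hfrob⟩ := hσ
  set g : A.decompositionSubgroup ℚ := ⟨σ, hσD⟩ with hgdef
  have hgσ : (g : GQ) = σ := rfl
  have hgκ : MulSemiringAction.toRingHom (A.decompositionSubgroup ℚ)
      (IsLocalRing.ResidueField ↥A) g = frobenius (IsLocalRing.ResidueField ↥A) l := by
    ext x
    exact hfrob x
  -- the root of unity
  obtain ⟨ζ, hζ, -⟩ := tkr_exists_zeta l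
  have hζl : ζ ^ l = 1 := by
    apply Units.ext
    rw [Units.val_pow_eq_pow_val, Units.val_one]
    exact hζ.pow_eq_one
  obtain ⟨ζA, hζA'⟩ := tkr_exists_unit_of_pow_eq_one (A := A) hl.ne_zero hζl
  subst hζA'
  have hζA : IsPrimitiveRoot (ζA : ↥A) l :=
    IsPrimitiveRoot.of_map_of_injective (f := A.subtype) hζ A.subtype_injective
  -- the representations
  obtain ⟨c, hc, a, b, ha, hb, hrep⟩ := hnorm y
  have hσc : (σ : Kbar →+* Kbar) c ≠ 0 := (map_ne_zero _).mpr hc
  have hσσc : (σ : Kbar →+* Kbar) ((σ : Kbar →+* Kbar) c) ≠ 0 := (map_ne_zero _).mpr hσc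
  have hy0 : ((y : ↥(modularFunctionFieldBar N)) : LaurentSeries Kbar) ≠ 0 := by simp
  have rep1 := hrep.act g
  rw [hgσ, map_mul, coeffMap_algebraMap] at rep1
  have rep2 := rep1.act g
  rw [hgσ, map_mul, coeffMap_algebraMap] at rep2
  have repT := rep1.tilde l hζA hζ
  have hC : ∀ x : Kbar, algebraMap Kbar (LaurentSeries Kbar) x = HahnSeries.C x := fun x => by
    rw [algebraMap_laurentSeries_eq_single]; rfl
  rw [tkrTilde_mul, hC, tkrTilde_C, ← hC, ← tkrSig_coe,
    tkrTilde_eq_tkrHecke hl hlN hζ ((tkrSig N σ y : (↥(modularFunctionFieldBar N))ˣ) :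
      ↥(modularFunctionFieldBar N))] at repT
  have hT0 : ((tkrHecke N l ((tkrSig N σ y : (↥(modularFunctionFieldBar N))ˣ) :
      ↥(modularFunctionFieldBar N)) : ↥(modularFunctionFieldBar N)) : LaurentSeries Kbar) ≠ 0 := by
    have := (tkrHeckeUnits N l (tkrSig N σ y)).ne_zero
    rw [tkrHeckeUnits_coe] at this
    simp
  have hTne : algebraMap Kbar (LaurentSeries Kbar) ((σ : Kbar →+* Kbar) c ^ (l + 1))
      * ((tkrHecke N l ((tkrSig N σ y : (↥(modularFunctionFieldBar N))ˣ) :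
      ↥(modularFunctionFieldBar N)) : ↥(modularFunctionFieldBar N)) : LaurentSeries Kbar) ≠ 0 :=
    mul_ne_zero ((map_ne_zero _).mpr (pow_ne_zero _ hσc)) hT0
  have hrep' := (rep2.mul (hrep.pow l)).mul (repT.inv hTne)
  -- the element
  have hY0 : tkrSig N σ (tkrSig N σ y) * y ^ l * (tkrHeckeUnits N l (tkrSig N σ y))⁻¹
      ∈ tWsub Kbar N m :=
    (tWsub Kbar N m).mul_mem ((tWsub Kbar N m).mul_mem
      (tkrSig_mem_tWsub N m σ (tkrSig_mem_tWsub N m σ hy)) ((tWsub Kbar N m).pow_mem hy l))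
      ((tWsub Kbar N m).inv_mem hT)
  have hd : (σ : Kbar →+* Kbar) ((σ : Kbar →+* Kbar) c) * c ^ l
      / ((σ : Kbar →+* Kbar) c) ^ (l + 1) ≠ 0 :=
    div_ne_zero (mul_ne_zero hσσc (pow_ne_zero _ hc)) (pow_ne_zero _ hσc)
  -- reductions
  set φ := coeffMap (frobenius (IsLocalRing.ResidueField ↥A) l) with hφ
  set ab := coeffMap (IsLocalRing.residue ↥A) a with hab
  set bb := coeffMap (IsLocalRing.residue ↥A) b with hbb
  have hφinj : Function.Injective φ :=
    tkr_coeffMap_injective (frobenius (IsLocalRing.ResidueField ↥A) l).injective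
  have hredA : coeffMap (IsLocalRing.residue ↥A)
      (tkrActA g (tkrActA g a) * a ^ l * tkrTilde l hζA (tkrActA g b))
      = φ (φ ab) * qExpand _ l (φ ab) * (qExpand _ l (φ bb) * φ (φ bb)) := by
    rw [map_mul, map_mul, map_pow, tkr_red_tilde, tkr_red_actA, tkr_red_actA, tkr_red_actA, hgκ,
      tkr_pow_char l]
  have hredB : coeffMap (IsLocalRing.residue ↥A)
      (tkrActA g (tkrActA g b) * b ^ l * tkrTilde l hζA (tkrActA g a))
      = φ (φ bb) * qExpand _ l (φ bb) * (qExpand _ l (φ ab) * φ (φ ab)) := by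
    rw [map_mul, map_mul, map_pow, tkr_red_tilde, tkr_red_actA, tkr_red_actA, tkr_red_actA, hgκ,
      tkr_pow_char l]
  obtain ⟨t, ht⟩ := tkr_K3_core hK hm hY0 hd
    (a := tkrActA g (tkrActA g a) * a ^ l * tkrTilde l hζA (tkrActA g b))
    (b := tkrActA g (tkrActA g b) * b ^ l * tkrTilde l hζA (tkrActA g a))
    (by rw [hredA, hredB]; ring)
    (by
      rw [hredB]
      have h1 : φ bb ≠ 0 := fun h => hb (hφinj (by rw [h, map_zero]))
      have h2 : φ (φ bb) ≠ 0 := fun h => h1 (hφinj (by rw [h, map_zero]))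
      have h3 : φ ab ≠ 0 := fun h => ha (hφinj (by rw [h, map_zero]))
      have h4 : φ (φ ab) ≠ 0 := fun h => h3 (hφinj (by rw [h, map_zero]))
      have hq : ∀ x : LaurentSeries (IsLocalRing.ResidueField ↥A), x ≠ 0 →
          qExpand (IsLocalRing.ResidueField ↥A) l x ≠ 0 := fun x hx h =>
        hx (qExpand_injective (R := IsLocalRing.ResidueField ↥A) l (by rw [h, map_zero]))
      exact mul_ne_zero (mul_ne_zero h2 (hq _ h1)) (mul_ne_zero (hq _ h3) h4))
    (by
      convert hrep' using 1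
      rw [Units.val_mul, Units.val_mul, MulMemClass.coe_mul, MulMemClass.coe_mul, tkrSig_coe,
        tkrSig_coe, Units.val_inv_eq_inv_val, Units.val_pow_eq_pow_val, SubmonoidClass.coe_pow,
        tkrHeckeUnits_coe, map_div₀, map_mul, map_pow, map_pow, mul_inv, mul_pow]
      have : ((((tkrHecke N l ((tkrSig N σ y : (↥(modularFunctionFieldBar N))ˣ) :
          ↥(modularFunctionFieldBar N)))⁻¹ : ↥(modularFunctionFieldBar N))) :
          LaurentSeries Kbar) = ((tkrHecke N l ((tkrSig N σ y : (↥(modularFunctionFieldBar N))ˣ) :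
          ↥(modularFunctionFieldBar N)) : ↥(modularFunctionFieldBar N)) : LaurentSeries Kbar)⁻¹ :=
        rfl
      rw [this, div_eq_mul_inv]
      ring)
  refine ⟨t, ?_⟩
  rw [← ht, mul_comm _ (tkrSig N σ (tkrSig N σ y) * y ^ l * _), inv_mul_cancel_right]

end K3

end Fermat.Agent.T1
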