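/-
T1-K (helper7), (K2) part 1: **change of level** `N → N e` for the fields `ModField` of modular functions:
the embedding `tkrLevel : ModField N →ₐ ModField (N e)`, its compatibility with the `q`-expansions
(`q_N = q_{N e}^e`), with the action of `SL(2, ℤ)` and with `modIso`;
the action of `T^k` on `q_M`-expansions.
-/
import Fermat.Agent.Lib.T1.Kron.Exist

set_option autoImplicit false
set_option linter.unusedSectionVars false
set_option linter.style.haveILetI false

namespace Fermat.Agent.T1

open ModularCurve HahnSeries UpperHalfPlane Matrix MatrixGroups CongruenceSubgroup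
open Fermat.Agent.S24Lib
open Fermat.Agent.ES (IsQLaurentable qLaurent qH)

local notation "Kbar" => AlgebraicClosure ℚ

/-- an `N`-periodic function expanded in `q_{N e}`: the expansion is obtained by `q ↦ q^e` -/
theorem tkr_qLaurent_level (N e : ℕ) [NeZero N] [NeZero e] {g : ℍ → ℂ}
    (hg : IsQLaurentable N g) :
    IsQLaurentable (N * e) g ∧ qLaurent (N * e) g = qExpand ℂ e (qLaurent N g) := by
  have he : 0 < e := Nat.pos_of_ne_zero (NeZero.ne e)
  have hq : ∀ z, qH ((N : ℕ) : ℝ) z = 1 * qH ((N * e : ℕ) : ℝ) z ^ e := by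
    intro z
    rw [one_mul]
    simp only [qH, Function.Periodic.qParam]
    rw [← Complex.exp_nat_mul]
    congr 1
    have hN : (N : ℂ) ≠ 0 := by exact_mod_cast NeZero.ne N
    have he' : (e : ℂ) ≠ 0 := by exact_mod_cast NeZero.ne e
    push_cast
    field_simp
  obtain ⟨h1, h2⟩ := Fermat.Agent.ES.qLaurent_comp (h₁ := N) (h₂ := N * e) hg (fun z => z) hg.mdiff
    (ζ := 1) one_ne_zero he hq
  refine ⟨h1, ?_⟩
  ext m
  have := h2 m
  simp only [_root_.one_zpow, one_mul] at this
  rw [this]
  split_ifs with hdm
  · obtain ⟨k, rfl⟩ := hdm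
    have hne : ((e : ℕ) : ℤ) ≠ 0 := by exact_mod_cast he.ne'
    rw [Int.mul_ediv_cancel_left k hne, qExpand_coeff_mul]
  · rw [qExpand_coeff_of_not_dvd _ _ hdm]

section Level

variable (N e : ℕ) [NeZero N] [NeZero e]

theorem tkr_modRing_le : modRing N ≤ modRing (N * e) := by
  apply Algebra.adjoin_mono
  rintro f ⟨d, hd, γ, rfl⟩
  exact ⟨d, hd.mul_right e, γ, rfl⟩

/-- the inclusion `modRing N → modRing (N e)` -/
noncomputable def tkrLevelRing : modRing N →ₐ[Kbar] modRing (N * e) :=
  Subalgebra.inclusion (tkr_modRing_le N e)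

@[simp]
theorem coe_tkrLevelRing (f : modRing N) : ((tkrLevelRing N e f : modRing (N * e)) : ℍ → ℂ) = f :=
  Subalgebra.coe_inclusion _ _

theorem tkrLevelRing_injective : Function.Injective (tkrLevelRing N e) :=
  Subalgebra.inclusion_injective _

theorem modRingQL_tkrLevelRing (f : modRing N) :
    modRingQL (N * e) (tkrLevelRing N e f) = qExpand ℂ e (modRingQL N f) := by
  rw [modRingQL_apply, modRingQL_apply, coe_tkrLevelRing]
  exact (tkr_qLaurent_level N e (modRing_props N f.2).1).2

theorem modAct_tkrLevelRing (γ : SL(2, ℤ)) (f : modRing N) :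
    modAct (N * e) γ (tkrLevelRing N e f) = tkrLevelRing N e (modAct N γ f) :=
  Subtype.ext (by rw [coe_modAct, coe_tkrLevelRing, coe_tkrLevelRing, coe_modAct])

theorem tkrLevel_aux_injective : Function.Injective
    ((IsScalarTower.toAlgHom Kbar (modRing (N * e)) (ModField (N * e))).comp
      (tkrLevelRing N e)) := by
  intro a b hab
  apply tkrLevelRing_injective N e
  apply IsFractionRing.injective (modRing (N * e)) (ModField (N * e))
  exact hab

/-- the embedding `ModField N → ModField (N e)` -/
noncomputable def tkrLevel : ModField N →ₐ[Kbar] ModField (N * e) :=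
  IsFractionRing.liftAlgHom (K := ModField N) (tkrLevel_aux_injective N e)

@[simp]
theorem tkrLevel_algebraMap (f : modRing N) :
    tkrLevel N e (algebraMap (modRing N) (ModField N) f)
      = algebraMap (modRing (N * e)) (ModField (N * e)) (tkrLevelRing N e f) := by
  rw [tkrLevel, IsFractionRing.liftAlgHom_apply, IsFractionRing.lift_algebraMap]
  rfl

theorem tkrLevel_injective : Function.Injective (tkrLevel N e) := (tkrLevel N e).toRingHom.injective

/-- two ring homs out of `ModField N` agreeing on `modRing N` are equal -/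
theorem tkr_modField_hom_ext {T : Type*} [Semiring T] {φ ψ : ModField N →+* T}
    (h : ∀ f : modRing N, φ (algebraMap (modRing N) (ModField N) f)
      = ψ (algebraMap (modRing N) (ModField N) f)) (X : ModField N) : φ X = ψ X := by
  have : φ = ψ := IsLocalization.ringHom_ext (nonZeroDivisors (modRing N)) (RingHom.ext h)
  rw [this]

/-- `q_N = q_{N e}^e` -/
theorem modFieldQL_tkrLevel (X : ModField N) :
    modFieldQL (N * e) (tkrLevel N e X) = qExpand ℂ e (modFieldQL N X) := by
  refine tkr_modField_hom_ext N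
    (φ := (modFieldQL (N * e)).comp (tkrLevel N e).toRingHom)
    (ψ := (qExpand ℂ e).comp (modFieldQL N)) (fun f => ?_) X
  show modFieldQL (N * e) (tkrLevel N e (algebraMap (modRing N) (ModField N) f))
    = qExpand ℂ e (modFieldQL N (algebraMap (modRing N) (ModField N) f))
  rw [tkrLevel_algebraMap, modFieldQL_algebraMap, modFieldQL_algebraMap, modRingQL_tkrLevelRing]

/-- the level embedding is `SL(2, ℤ)`-equivariant -/
theorem modRep_tkrLevel (γ : SL(2, ℤ)) (X : ModField N) :
    modRep (N * e) γ (tkrLevel N e X) = tkrLevel N e (modRep N γ X) := by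
  refine tkr_modField_hom_ext N
    (φ := ((modRep (N * e) γ : ModField (N * e) ≃ₐ[Kbar] ModField (N * e)) :
        ModField (N * e) →+* ModField (N * e)).comp (tkrLevel N e).toRingHom)
    (ψ := (tkrLevel N e).toRingHom.comp
      ((modRep N γ : ModField N ≃ₐ[Kbar] ModField N) : ModField N →+* ModField N))
    (fun f => ?_) X
  show modRep (N * e) γ (tkrLevel N e (algebraMap (modRing N) (ModField N) f))
    = tkrLevel N e (modRep N γ (algebraMap (modRing N) (ModField N) f))
  rw [tkrLevel_algebraMap, modRep_algebraMap, modRep_algebraMap, tkrLevel_algebraMap,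
    modAct_tkrLevelRing]

/-- the function field of `X₀(N)` is contained in that of `X₀(N e)` -/
theorem tkr_bar_mono {y : LaurentSeries Kbar} (hy : y ∈ modularFunctionFieldBar N) :
    y ∈ modularFunctionFieldBar (N * e) := by
  have := (heckeAlphaBar Kbar N e ⟨y, hy⟩).2
  rwa [coe_heckeAlphaBar] at this

/-- `modIso` is compatible with the change of level -/
theorem modIso_tkrLevel {y : LaurentSeries Kbar} (hy : y ∈ modularFunctionFieldBar N) :
    ((modIso (N * e) ⟨y, tkr_bar_mono N e hy⟩ : anField (N * e)) : ModField (N * e))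
      = tkrLevel N e ((modIso N ⟨y, hy⟩ : anField N) : ModField N) := by
  apply modFieldQL_injective (N * e)
  rw [modFieldQL_tkrLevel, modFieldQL_modIso, modFieldQL_modIso]
  show qExpand ℂ (N * e) (coeffMap iotaC y) = qExpand ℂ e (qExpand ℂ N (coeffMap iotaC y))
  rw [qExpand_qExpand]
  exact qExpand_congr (mul_comm N e) _

end Level

/-! ### the action of `T^k` on `q_M`-expansions -/

section TAction

variable (M : ℕ) [NeZero M]

theorem tkr_modRingQL_modAct_T_zpow (k : ℤ) (f : modRing M) :
    modRingQL M (modAct M (ModularGroup.T ^ k) f)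
      = tkrTw (tkrExpUnit (-k) M) (modRingQL M f) := by
  rw [modRingQL_apply, modRingQL_apply]
  have hfun : ((modAct M (ModularGroup.T ^ k) f : modRing M) : ℍ → ℂ)
      = fun z => (f : ℍ → ℂ) (((-k : ℤ) : ℝ) +ᵥ z) := by
    funext z
    rw [modAct_apply_apply, ← _root_.zpow_neg, UpperHalfPlane.modular_T_zpow_smul]
  rw [hfun]
  ext m
  rw [(Fermat.Agent.ES.qLaurent_vadd (modRing_props M f.2).1 ((-k : ℤ) : ℝ)).2 m, tkrTw_coeff]
  congr 1
  rw [Units.val_zpow_eq_zpow_val, tkrExpUnit_val]
  congr 2

/-- `(T^k X)(q_M) = X(ζ q_M)`, `ζ = exp(-2πi k/M)` -/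
theorem tkr_modFieldQL_modRep_T_zpow (k : ℤ) (X : ModField M) :
    modFieldQL M (modRep M (ModularGroup.T ^ k) X)
      = tkrTw (tkrExpUnit (-k) M) (modFieldQL M X) := by
  refine tkr_modField_hom_ext M
    (φ := (modFieldQL M).comp ((modRep M (ModularGroup.T ^ k) : ModField M ≃ₐ[Kbar] ModField M) :
        ModField M →+* ModField M))
    (ψ := (tkrTw (tkrExpUnit (-k) M)).comp (modFieldQL M)) (fun f => ?_) X
  show modFieldQL M (modRep M (ModularGroup.T ^ k) (algebraMap (modRing M) (ModField M) f))
    = tkrTw (tkrExpUnit (-k) M) (modFieldQL M (algebraMap (modRing M) (ModField M) f))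
  rw [modRep_algebraMap, modFieldQL_algebraMap, modFieldQL_algebraMap,
    tkr_modRingQL_modAct_T_zpow]

end TAction

end Fermat.Agent.T1
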