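/-
T1-K (helper7), (K2): **level lowering of roots by monodromy at the cusp `0`**.
If `y` is in the function field of `X₀(N)`, `g` in that of `X₀(N r)` (`r` prime), `g^m = y` and `m` divides
the order of `y` at the cusp `0`, then `g` is in the function field of `X₀(N)`.
-/
import Fermat.Agent.Lib.T1.Kron.Level
import Fermat.Agent.Lib.S24.ModStab

set_option autoImplicit false
set_option linter.unusedSectionVars false
set_option linter.style.haveILetI false

namespace Fermat.Agent.T1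

open ModularCurve HahnSeries UpperHalfPlane Matrix MatrixGroups CongruenceSubgroup
open Fermat.Agent.S24Lib
open ModularGroup (S T)

local notation "Kbar" => AlgebraicClosure ℚ

/-! ### group theory: `Γ₀(N)` is generated by `Γ₀(N r)` and the stabiliser of the cusp `0` -/

/-- the element `(1 0; kN 1) = S T^{-kN} S⁻¹` of `Γ₀(N)` -/
def tkrU (N : ℕ) (k : ℤ) : SL(2, ℤ) :=
  ⟨!![1, 0; k * N, 1], by simp [Matrix.det_fin_two_of]⟩

theorem tkrU_eq (N : ℕ) (k : ℤ) : tkrU N k = S * T ^ (-(k * N)) * S⁻¹ := by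
  apply Subtype.ext
  rw [ModularGroup.S_inv]
  simp only [tkrU, Matrix.SpecialLinearGroup.coe_mul, Matrix.SpecialLinearGroup.coe_neg,
    ModularGroup.coe_S, ModularGroup.coe_T_zpow]
  ext i j
  fin_cases i <;> fin_cases j <;> simp [Matrix.mul_apply, Fin.sum_univ_two]

theorem tkrU_mem (N : ℕ) (k : ℤ) : tkrU N k ∈ Gamma0 N := by
  rw [Gamma0_mem]
  show (((k * N : ℤ)) : ZMod N) = 0
  push_cast
  simp

theorem tkr_S_inv_mul_U (N : ℕ) (k : ℤ) : S⁻¹ * tkrU N k = T ^ (-(k * N)) * S⁻¹ := by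
  rw [tkrU_eq]
  group

/-- every element of `Γ₀(N)` is in `Γ₀(N r) · U^k · T^{-j}` -/
theorem tkr_exists_mul_U_mem (N r : ℕ) (hr : r.Prime) {γ : SL(2, ℤ)} (hγ : γ ∈ Gamma0 N) :
    ∃ j k : ℤ, γ * T ^ j * tkrU N k ∈ Gamma0 (N * r) := by
  rw [Gamma0_mem, ZMod.intCast_zmod_eq_zero_iff_dvd] at hγ
  obtain ⟨c', hc'⟩ := hγ
  have hdet : γ 0 0 * γ 1 1 - γ 0 1 * γ 1 0 = 1 := by
    have := γ.2
    rwa [Matrix.det_fin_two] at this
  -- choose `j` with `r ∤ d' := c j + d`
  obtain ⟨j, hj⟩ : ∃ j : ℤ, ¬ (r : ℤ) ∣ γ 1 0 * j + γ 1 1 := by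
    by_cases h : (r : ℤ) ∣ γ 1 1
    · refine ⟨1, fun h' => ?_⟩
      have h1 : (r : ℤ) ∣ γ 1 0 := by
        have := dvd_sub h' h
        simpa using this
      have h2 : (r : ℤ) ∣ 1 := by
        rw [← hdet]
        exact dvd_sub (h.mul_left _) (h1.mul_left _)
      have h3 := Int.isUnit_iff_natAbs_eq.mp (isUnit_of_dvd_one h2)
      simp at h3
      exact hr.one_lt.ne' h3
    · exact ⟨0, by simpa using h⟩
  set d' : ℤ := γ 1 0 * j + γ 1 1 with hd'
  have hcop : IsCoprime d' (r : ℤ) := by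
    rw [isCoprime_comm]
    exact (Nat.prime_iff_prime_int.mp hr).coprime_iff_not_dvd.mpr hj
  obtain ⟨s, t, hst⟩ := hcop
  refine ⟨j, -(c' * s), ?_⟩
  rw [Gamma0_mem, ZMod.intCast_zmod_eq_zero_iff_dvd]
  have hentry : (γ * T ^ j * tkrU N (-(c' * s))) 1 0 = γ 1 0 + d' * (-(c' * s) * N) := by
    show (γ * T ^ j * tkrU N (-(c' * s))).1 1 0 = _
    rw [Matrix.SpecialLinearGroup.coe_mul, Matrix.SpecialLinearGroup.coe_mul,
      ModularGroup.coe_T_zpow, hd']
    simp [tkrU, Matrix.mul_apply, Fin.sum_univ_two]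
  rw [hentry, hc']
  refine ⟨c' * t, ?_⟩
  push_cast
  linear_combination (-(N : ℤ) * c') * hst

/-! ### roots of unity in an extension of an algebraically closed field are constants -/

theorem tkr_exists_algebraMap_of_pow_eq_one {k Ω : Type*} [Field k] [IsAlgClosed k] [Field Ω]
    [Algebra k Ω] {x : Ω} {m : ℕ} (hm : m ≠ 0) (hx : x ^ m = 1) :
    ∃ c : k, algebraMap k Ω c = x := by
  have hint : IsIntegral k x := by
    refine ⟨Polynomial.X ^ m - Polynomial.C 1, Polynomial.monic_X_pow_sub_C 1 hm, ?_⟩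
    simp [hx]
  have hdeg : (minpoly k x).degree = 1 :=
    IsAlgClosed.degree_eq_one_of_irreducible k (minpoly.irreducible hint)
  exact minpoly.mem_range_of_degree_eq_one k x hdeg

/-! ### the stabiliser of the cusp `0` fixes the root -/

section Fixed

variable (N r : ℕ) [NeZero N] [NeZero r]

/-- **monodromy at the cusp `0`**: if `G^m = Y` with `Y` of level `Γ₀(N)` and `m` divides the order of
`Y` at the cusp `0` (in the local parameter `q_N`), then `G` is fixed by `(1 0; kN 1)`. -/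
theorem tkr_U_fixed {G : ModField (N * r)} {Y : ModField N} (hY : Y ∈ anField N) {m : ℕ}
    (hm : m ≠ 0) (hGY : G ^ m = tkrLevel N r Y)
    (h0 : (m : ℤ) ∣ (modFieldQL N (modRep N S⁻¹ Y)).order) (k : ℤ) :
    modRep (N * r) (tkrU N k) G = G := by
  by_cases hG0 : G = 0
  · rw [hG0, map_zero]
  have hYfix : modRep N (tkrU N k) Y = Y := by
    rw [anField_eq_fixedField] at hY
    exact hY ⟨modRep N (tkrU N k), tkrU N k, tkrU_mem N k, rfl⟩
  have hG₂ : (modRep (N * r) (tkrU N k) G) ^ m = G ^ m := by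
    rw [← map_pow, hGY, modRep_tkrLevel, hYfix]
  set L : LaurentSeries ℂ := modFieldQL (N * r) (modRep (N * r) S⁻¹ G) with hLdef
  have hL0 : L ≠ 0 := by
    rw [hLdef]
    exact (map_ne_zero _).mpr ((map_ne_zero _).mpr hG0)
  have hL₂ : modFieldQL (N * r) (modRep (N * r) S⁻¹ (modRep (N * r) (tkrU N k) G))
      = tkrTw (tkrExpUnit (k * N) ((N * r : ℕ) : ℤ)) L := by
    rw [← AlgEquiv.mul_apply, ← map_mul, tkr_S_inv_mul_U, map_mul, AlgEquiv.mul_apply,
      tkr_modFieldQL_modRep_T_zpow, neg_neg]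
  have hpow : (tkrTw (tkrExpUnit (k * N) ((N * r : ℕ) : ℤ)) L) ^ m = L ^ m := by
    rw [← hL₂, ← map_pow, ← map_pow, hG₂, map_pow, map_pow]
  -- the ratio is a constant
  obtain ⟨c, hc⟩ := tkr_exists_algebraMap_of_pow_eq_one (k := ℂ) hm
    (x := tkrTw (tkrExpUnit (k * N) ((N * r : ℕ) : ℤ)) L / L)
    (by rw [div_pow, hpow, div_self (pow_ne_zero _ hL0)])
  have hcL : tkrTw (tkrExpUnit (k * N) ((N * r : ℕ) : ℤ)) L = HahnSeries.C c * L := by
    have hC : (HahnSeries.C c : LaurentSeries ℂ) = algebraMap ℂ (LaurentSeries ℂ) c := by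
      rw [algebraMap_laurentSeries_eq_single]
      rfl
    rw [hC, hc, div_mul_cancel₀ _ hL0]
  -- the order of `L`
  have hW : L ^ m = qExpand ℂ r (modFieldQL N (modRep N S⁻¹ Y)) := by
    rw [hLdef, ← map_pow, ← map_pow, hGY, modRep_tkrLevel, modFieldQL_tkrLevel]
  obtain ⟨k', hk'⟩ := h0
  have hW0 : modFieldQL N (modRep N S⁻¹ Y) ≠ 0 := by
    intro h
    rw [h, map_zero] at hW
    exact pow_ne_zero m hL0 hW
  have hord : (m : ℤ) * L.order = r * (m * k') := by
    have := congrArg HahnSeries.order hW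
    rw [HahnSeries.order_pow, order_qExpand r hW0, hk'] at this
    simpa [nsmul_eq_mul] using this
  have hn : L.order = r * k' := by
    have hm' : (m : ℤ) ≠ 0 := by exact_mod_cast hm
    apply mul_left_cancel₀ hm'
    rw [hord]
    ring
  -- compare the coefficients at the order
  have hcoef : (tkrTw (tkrExpUnit (k * N) ((N * r : ℕ) : ℤ)) L).coeff L.order
      = (HahnSeries.C c * L).coeff L.order := by rw [hcL]
  rw [tkrTw_coeff, HahnSeries.C_mul_eq_smul, HahnSeries.coeff_smul, smul_eq_mul] at hcoef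
  have hLn : L.coeff L.order ≠ 0 := fun h => hL0 (HahnSeries.coeff_order_eq_zero.mp h)
  have hc1 : c = (((tkrExpUnit (k * N) ((N * r : ℕ) : ℤ)) ^ L.order : ℂˣ) : ℂ) :=
    (mul_right_cancel₀ hLn hcoef).symm
  have hc2 : c = 1 := by
    rw [hc1, hn, Units.val_zpow_eq_zpow_val, tkrExpUnit_val, ← Complex.exp_int_mul]
    have hN : (N : ℂ) ≠ 0 := by exact_mod_cast NeZero.ne N
    have hr : (r : ℂ) ≠ 0 := by exact_mod_cast NeZero.ne r
    have : ((((r : ℤ) * k' : ℤ)) : ℂ) * (2 * Real.pi * Complex.I * ((k * N : ℤ) : ℂ)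
        / (((N * r : ℕ) : ℤ) : ℂ)) = ((k' * k : ℤ) : ℂ) * (2 * Real.pi * Complex.I) := by
      push_cast
      field_simp
    rw [this, Complex.exp_int_mul_two_pi_mul_I]
  rw [hc2, map_one, one_mul] at hcL
  have h3 : modRep (N * r) S⁻¹ (modRep (N * r) (tkrU N k) G) = modRep (N * r) S⁻¹ G :=
    modFieldQL_injective (N * r) (hL₂.trans hcL)
  exact (modRep (N * r) S⁻¹).injective h3

/-- an element of `anField M` is fixed by `Γ₀(M)` -/
theorem tkr_anField_fixed (M : ℕ) [NeZero M] {G : ModField M} (hG : G ∈ anField M)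
    {γ : SL(2, ℤ)} (hγ : γ ∈ Gamma0 M) : modRep M γ G = G := by
  rw [anField_eq_fixedField] at hG
  exact hG ⟨modRep M γ, γ, hγ, rfl⟩

/-- **(K2) LEVEL LOWERING OF ROOTS.**  `y ∈ F_N`, `g ∈ F_{N r}` (`r` prime), `g^m = y`, and `m` divides the
order of `y` at the cusp `0` (= the order of the `q_N`-expansion of `y ∘ S`): then `g ∈ F_N`. -/
theorem tkr_root_descend (hr : r.Prime) {y g : LaurentSeries Kbar}
    (hy : y ∈ modularFunctionFieldBar N) (hg : g ∈ modularFunctionFieldBar (N * r)) {m : ℕ}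
    (hm : m ≠ 0) (hgy : g ^ m = y)
    (h0 : (m : ℤ) ∣
      (modFieldQL N (modRep N S ((modIso N ⟨y, hy⟩ : anField N) : ModField N))).order) :
    g ∈ modularFunctionFieldBar N := by
  set G : ModField (N * r) := ((modIso (N * r) ⟨g, hg⟩ : anField (N * r)) : ModField (N * r))
    with hGdef
  set Y : ModField N := ((modIso N ⟨y, hy⟩ : anField N) : ModField N) with hYdef
  have hGmem : G ∈ anField (N * r) := SetLike.coe_mem _
  have hYmem : Y ∈ anField N := SetLike.coe_mem _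
  have hGY : G ^ m = tkrLevel N r Y := by
    rw [hYdef, ← modIso_tkrLevel N r hy, hGdef]
    have h1 : (⟨g, hg⟩ : modularFunctionFieldBar (N * r)) ^ m = ⟨y, tkr_bar_mono N r hy⟩ :=
      Subtype.ext hgy
    rw [← h1, map_pow]
    rfl
  have h0' : (m : ℤ) ∣ (modFieldQL N (modRep N S⁻¹ Y)).order := by
    rw [ModularGroup.S_inv, modRep_neg]
    exact h0
  have hU : ∀ k : ℤ, modRep (N * r) (tkrU N k) G = G :=
    fun k => tkr_U_fixed N r hYmem hm hGY h0' k
  have hfix : ∀ γ ∈ Gamma0 N, modRep (N * r) γ G = G := by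
    intro γ hγ
    obtain ⟨j, k, hjk⟩ := tkr_exists_mul_U_mem N r hr hγ
    have hT : modRep (N * r) (T ^ j) G = G := by
      apply tkr_anField_fixed (N * r) hGmem
      rw [Gamma0_mem]
      show (((T ^ j : SL(2, ℤ)).1 1 0 : ℤ) : ZMod (N * r)) = 0
      rw [ModularGroup.coe_T_zpow]
      simp
    have hδ := tkr_anField_fixed (N * r) hGmem hjk
    rw [map_mul, map_mul, AlgEquiv.mul_apply, AlgEquiv.mul_apply, hU k, hT] at hδ
    exact hδ
  obtain ⟨z, hz, hzG⟩ := tkr_exists_of_fixed N (N * r) (dvd_mul_right N r) G hfix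
  have : z = g := by
    apply barQLHom_injective (N * r)
    rw [hzG, hGdef, modFieldQL_modIso, barQLHom_apply]
  rw [← this]
  exact hz

end Fixed

end Fermat.Agent.T1
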