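/-
T1-K (helper7), (K3) part 4: **pull-back of `tWsub` to a higher level** (`ord_{P'} = e(P'|P) · ord_P`),
the iterated level lowering of roots (K2 for `N e → N`), and `TkrK12` from K1 at level `N e`.
-/
import Fermat.Agent.Lib.T1.Kron.Assembly
import Fermat.Agent.Lib.T1.Kron.Lower
import Fermat.Agent.Lib.S24.Count
import Fermat.Prelude.Def_AlgebraicCurve_DivisorPushPull

set_option autoImplicit false
set_option linter.unusedSectionVars false
set_option linter.style.haveILetI false

namespace Fermat.Agent.T1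

open ModularCurve HahnSeries AlgebraicCurve
open Fermat.Agent.S24Lib
open ModularGroup (S T)

local notation "Kbar" => AlgebraicClosure ℚ

section Pull

variable (N e : ℕ) [NeZero N] [NeZero e]

/-- the function field of `X₀(N e)` is algebraic over that of `X₀(N)` -/
theorem tkr_isAlgebraic_level :
    letI : Algebra ↥(modularFunctionFieldBar N) ↥(modularFunctionFieldBar (N * e)) :=
      (heckeAlphaBar Kbar N e).toRingHom.toAlgebra
    Algebra.IsAlgebraic ↥(modularFunctionFieldBar N) ↥(modularFunctionFieldBar (N * e)) := by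
  letI : Algebra ↥(modularFunctionFieldBar N) ↥(modularFunctionFieldBar (N * e)) :=
    (heckeAlphaBar Kbar N e).toRingHom.toAlgebra
  set α := heckeAlphaBar Kbar N e with hα
  have hgen := Fermat.Agent.S24Lib.isFunctionFieldGen_jBar (N * e)
  haveI := hgen.finite
  -- `j` at level `N e` is the image of `j` at level `N`
  have hj : α (jBar N) = jBar (N * e) := Subtype.ext (by rw [coe_heckeAlphaBar]; rfl)
  have hle : IntermediateField.adjoin Kbar {jBar (N * e)} ≤ α.fieldRange := by
    rw [IntermediateField.adjoin_le_iff, Set.singleton_subset_iff]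
    exact ⟨jBar N, hj⟩
  refine ⟨fun x => ?_⟩
  have hx : IsAlgebraic ↥(IntermediateField.adjoin Kbar {jBar (N * e)}) x :=
    (Algebra.IsAlgebraic.of_finite ↥(IntermediateField.adjoin Kbar {jBar (N * e)})
      ↥(modularFunctionFieldBar (N * e))).isAlgebraic x
  have hle' : (IntermediateField.adjoin Kbar {jBar (N * e)}).toSubalgebra ≤ α.range := by
    intro z hz
    exact hle hz
  have hx' : IsAlgebraic ↥α.range x :=
    IsAlgebraic.tower_top_of_subalgebra_le hle' hx
  exact hx'.of_ringHom_of_comp_eq α.rangeRestrict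
    (RingHom.id ↥(modularFunctionFieldBar (N * e))) α.rangeRestrict_surjective
    Function.injective_id (RingHom.ext fun z => rfl)

/-- **pull-back of `tWsub`**: divisibility of all orders by `m` is inherited by higher levels -/
theorem tkr_pull_tWsub (m : ℕ) {y : (↥(modularFunctionFieldBar N))ˣ} (hy : y ∈ tWsub Kbar N m) :
    Units.map ((heckeAlphaBar Kbar N e : ↥(modularFunctionFieldBar N) →+*
      ↥(modularFunctionFieldBar (N * e))) : ↥(modularFunctionFieldBar N) →*
      ↥(modularFunctionFieldBar (N * e))) y ∈ tWsub Kbar (N * e) m := by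
  letI : Algebra ↥(modularFunctionFieldBar N) ↥(modularFunctionFieldBar (N * e)) :=
    (heckeAlphaBar Kbar N e).toRingHom.toAlgebra
  haveI : IsScalarTower Kbar ↥(modularFunctionFieldBar N) ↥(modularFunctionFieldBar (N * e)) :=
    IsScalarTower.of_algebraMap_eq (fun c => ((heckeAlphaBar Kbar N e).commutes c).symm)
  haveI : Algebra.IsAlgebraic ↥(modularFunctionFieldBar N) ↥(modularFunctionFieldBar (N * e)) :=
    tkr_isAlgebraic_level N e
  haveI : Algebra.IsIntegral ↥(modularFunctionFieldBar N) ↥(modularFunctionFieldBar (N * e)) :=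
    Algebra.IsAlgebraic.isIntegral
  intro P'
  have h := P'.ord_restrict (F := ↥(modularFunctionFieldBar N))
    ((y : (↥(modularFunctionFieldBar N))ˣ) : ↥(modularFunctionFieldBar N))
  have h2 : ((Units.map ((heckeAlphaBar Kbar N e : ↥(modularFunctionFieldBar N) →+*
      ↥(modularFunctionFieldBar (N * e))) : ↥(modularFunctionFieldBar N) →*
      ↥(modularFunctionFieldBar (N * e))) y : (↥(modularFunctionFieldBar (N * e)))ˣ) :
      ↥(modularFunctionFieldBar (N * e)))
      = algebraMap ↥(modularFunctionFieldBar N) ↥(modularFunctionFieldBar (N * e))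
        ((y : (↥(modularFunctionFieldBar N))ˣ) : ↥(modularFunctionFieldBar N)) := rfl
  rw [h2, h]
  exact Dvd.dvd.mul_left (hy _) _

/-- the order at the cusp `0`, in the local parameter `q_N = q^{1/N}` -/
noncomputable def tkrOrd0 (y : ↥(modularFunctionFieldBar N)) : ℤ :=
  (modFieldQL N (modRep N S ((modIso N y : anField N) : ModField N))).order

theorem tkr_dvd_ord0_level {y : LaurentSeries Kbar} (hy : y ∈ modularFunctionFieldBar N) {m : ℤ}
    (h : m ∣ tkrOrd0 N ⟨y, hy⟩) : m ∣ tkrOrd0 (N * e) ⟨y, tkr_bar_mono N e hy⟩ := by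
  unfold tkrOrd0 at *
  rw [modIso_tkrLevel N e hy, modRep_tkrLevel, modFieldQL_tkrLevel]
  by_cases hW : modFieldQL N (modRep N S ((modIso N ⟨y, hy⟩ : anField N) : ModField N)) = 0
  · rw [hW, map_zero, HahnSeries.order_zero]
    exact dvd_zero _
  · rw [order_qExpand e hW]
    exact Dvd.dvd.mul_left h _

end Pull

/-- **(K2), iterated**: level lowering of roots from `N e` to `N` -/
theorem tkr_root_descend_mul {m : ℕ} (hm : m ≠ 0) :
    ∀ e : ℕ, e ≠ 0 → ∀ (N : ℕ) [NeZero N] {y g : LaurentSeries Kbar}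
      (hy : y ∈ modularFunctionFieldBar N), g ∈ modularFunctionFieldBar (N * e) → g ^ m = y →
      (m : ℤ) ∣ tkrOrd0 N ⟨y, hy⟩ → g ∈ modularFunctionFieldBar N := by
  intro e
  induction e using Nat.strong_induction_on with
  | _ e ih =>
    intro he N _ y g hy hg hgy h0
    by_cases he1 : e = 1
    · subst he1
      rwa [mul_one] at hg
    · obtain ⟨r, hr, e', rfl⟩ := Nat.exists_prime_and_dvd he1
      have he' : e' ≠ 0 := fun h => he (by rw [h, mul_zero])
      have hlt : e' < r * e' := by
        have := hr.one_lt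
        have h0' : 0 < e' := Nat.pos_of_ne_zero he'
        nlinarith
      haveI : NeZero r := ⟨hr.ne_zero⟩
      have hg' : g ∈ modularFunctionFieldBar (N * r * e') := by
        rwa [mul_assoc]
      have hgr : g ∈ modularFunctionFieldBar (N * r) :=
        ih e' hlt he' (N * r) (tkr_bar_mono N r hy) hg' hgy (tkr_dvd_ord0_level N r hy h0)
      exact tkr_root_descend N r hr hy hgr hm hgy h0

section K12

variable (N e : ℕ) [NeZero N] [NeZero e]

/-- **`TkrK12` from K1 at the level `N e`** (+ K2 + the order at the cusp `0`) -/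
theorem tkr_K12_of {m : ℕ} (hm : m ≠ 0) (A : ValuationSubring Kbar)
    (hK1 : ∀ (Y : LaurentSeries Kbar) (hY : Y ∈ modularFunctionFieldBar (N * e)), Y ≠ 0 →
      (∀ P : Place Kbar ↥(modularFunctionFieldBar (N * e)),
        (m : ℤ) ∣ P.ord (⟨Y, hY⟩ : ↥(modularFunctionFieldBar (N * e)))) →
      (∃ a b : LaurentSeries ↥A,
        coeffMap (IsLocalRing.residue ↥A) a = coeffMap (IsLocalRing.residue ↥A) b ∧
        coeffMap (IsLocalRing.residue ↥A) b ≠ 0 ∧ TkrRep A Y a b) →
      ∃ g ∈ modularFunctionFieldBar (N * e), g ^ m = Y)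
    (h0 : ∀ Y : (↥(modularFunctionFieldBar N))ˣ, Y ∈ tWsub Kbar N m →
      (m : ℤ) ∣ tkrOrd0 N (Y : ↥(modularFunctionFieldBar N))) :
    TkrK12 N m A := by
  intro Y hY hab
  have hYne : (((Y : (↥(modularFunctionFieldBar N))ˣ) : ↥(modularFunctionFieldBar N)) :
      LaurentSeries Kbar) ≠ 0 := by simp
  obtain ⟨g, hg, hgm⟩ := hK1 _ (tkr_bar_mono N e (Y : ↥(modularFunctionFieldBar N)).2) hYne
    (fun P => tkr_pull_tWsub N e m hY P) hab
  have hgN : g ∈ modularFunctionFieldBar N :=
    tkr_root_descend_mul hm e (NeZero.ne e) N (Y : ↥(modularFunctionFieldBar N)).2 hg hgm (h0 Y hY)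
  have hg0 : (⟨g, hgN⟩ : ↥(modularFunctionFieldBar N)) ≠ 0 := by
    intro h
    have h1 : g = 0 := congrArg Subtype.val h
    rw [h1, zero_pow hm] at hgm
    exact hYne hgm.symm
  refine ⟨Units.mk0 ⟨g, hgN⟩ hg0, ?_⟩
  apply Units.ext
  apply Subtype.ext
  rw [Units.val_pow_eq_pow_val, Units.val_mk0, SubmonoidClass.coe_pow]
  exact hgm.symm

end K12

end Fermat.Agent.T1
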