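/-
T1-K (helper7), (K3) part 5: `TkrK12 N m A` from K1 at the level `N e` alone
(cusp divisibility: helper3's `tdd_cusp_dvd`).
-/
import Fermat.Agent.Lib.T1.Kron.Pull
import Fermat.Agent.Lib.T1.Dict.CuspDvd

set_option autoImplicit false
set_option linter.unusedSectionVars false

namespace Fermat.Agent.T1

open ModularCurve HahnSeries AlgebraicCurve
open ModularGroup (S T)

local notation "Kbar" => AlgebraicClosure ℚ

/-- **`TkrK12` from K1 at the level `N e`**: if every Gauss unit `Y` with reduction `1` of the function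
field of `X₀(N e)` all of whose orders are divisible by `m` is an `m`-th power there, then the same holds
at the level `N`. -/
theorem tkr_K12_of_K1 (N e : ℕ) [NeZero N] [NeZero e] {m : ℕ} (hm : m ≠ 0)
    (A : ValuationSubring Kbar)
    (hK1 : ∀ (Y : LaurentSeries Kbar) (hY : Y ∈ modularFunctionFieldBar (N * e)), Y ≠ 0 →
      (∀ P : Place Kbar ↥(modularFunctionFieldBar (N * e)),
        (m : ℤ) ∣ P.ord (⟨Y, hY⟩ : ↥(modularFunctionFieldBar (N * e)))) →
      (∃ a b : LaurentSeries ↥A,
        coeffMap (IsLocalRing.residue ↥A) a = coeffMap (IsLocalRing.residue ↥A) b ∧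
        coeffMap (IsLocalRing.residue ↥A) b ≠ 0 ∧ TkrRep A Y a b) →
      ∃ g ∈ modularFunctionFieldBar (N * e), g ^ m = Y) :
    TkrK12 N m A :=
  tkr_K12_of N e hm A hK1 (fun Y hY => tdd_cusp_dvd N m Y hY S)

end Fermat.Agent.T1
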