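/-
T1-K (helper7), (K3) final assembly: the two K3 statements from helper9's finite-level interface
`TbLevelOK` (T1-B; = the output of T1-A (A1)–(A4)) at the levels `N` and `N e`, and the `F̄`-side
inputs (T1-A (A5) + BarField) at the level `N e`.
-/
import Fermat.Agent.Lib.T1.Kron.K12
import Fermat.Agent.Lib.T1.Inst.BaseQ
import Fermat.Agent.Lib.S24.Count

set_option autoImplicit false
set_option linter.unusedSectionVars false
set_option linter.style.haveILetI false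
set_option synthInstance.maxHeartbeats 400000

namespace Fermat.Agent.T1

open ModularCurve HahnSeries AlgebraicCurve Fermat.Agent.TW IntermediateField Fermat.Agent.Curve

local notation "Kbar" => AlgebraicClosure ℚ
local notation "GQ" => (AlgebraicClosure ℚ ≃ₐ[ℚ] AlgebraicClosure ℚ)

/-- the `F̄`-side inputs of K1 at the level `N` (T1-A (A5) + BarField): `F̄_N / κ(j̄)` is a separable
function field of the same degree as `F_N / ℚ̄(j)`, and `genus F_N ≤ genus F̄_N` -/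
structure TkrBarOK (𝔓 : FFPlace) (N : ℕ) [NeZero N] : Prop where
  gen : IsFunctionFieldGen (IsLocalRing.ResidueField ↥𝔓.P) ↥(tbBarF 𝔓 N) (tbBarJ 𝔓 N)
  sep : Algebra.IsSeparable ↥((IsLocalRing.ResidueField ↥𝔓.P)⟮tbBarJ 𝔓 N⟯) ↥(tbBarF 𝔓 N)
  deg : Module.finrank ↥(Kbar⟮tbJ N⟯) ↥(modularFunctionFieldBar N) =
    Module.finrank ↥((IsLocalRing.ResidueField ↥𝔓.P)⟮tbBarJ 𝔓 N⟯) ↥(tbBarF 𝔓 N)
  genus : CurveP.genusR Kbar ↥(modularFunctionFieldBar N) ≤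
    CurveP.genusR (IsLocalRing.ResidueField ↥𝔓.P) ↥(tbBarF 𝔓 N)

variable {𝔓 : FFPlace} {N : ℕ} [NeZero N]

/-- the Gauss normal form, in the shape consumed by K3 -/
theorem tkr_normal_of_levelOK (hOK : ∀ H : Subgroup 𝔓.I, H.FiniteIndex → TbLevelOK 𝔓 N H) :
    TkrNormal N 𝔓.P := by
  intro y
  obtain ⟨c, a, b, hc, -, -, -, -, ha, hb, hrel⟩ := tbq_normalForm hOK (y : ↥(modularFunctionFieldBar N))
    y.ne_zero
  refine ⟨c⁻¹, inv_ne_zero hc, a, b, ha, hb, ?_⟩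
  show algebraMap Kbar (LaurentSeries Kbar) c⁻¹
      * ((y : ↥(modularFunctionFieldBar N)) : LaurentSeries Kbar) * coeffMap 𝔓.P.subtype b
    = coeffMap 𝔓.P.subtype a
  rw [mul_assoc, hrel, ← mul_assoc, ← map_mul, inv_mul_cancel₀ hc, map_one, one_mul]

/-- **K1 + K2** from the finite-level interface at the level `N e` -/
theorem tkr_K12_of_levelOK (e : ℕ) [NeZero e]
    (hOK : ∀ H : Subgroup 𝔓.I, H.FiniteIndex → TbLevelOK 𝔓 (N * e) H)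
    (hbar : TkrBarOK 𝔓 (N * e)) {m : ℕ} (hm : Nat.Coprime m 𝔓.p) (hm0 : m ≠ 0) :
    TkrK12 N m 𝔓.P := by
  refine tkr_K12_of_K1 N e hm0 𝔓.P ?_
  intro Y hY _ hdiv hrep
  obtain ⟨a, b, hab, hb, hrel⟩ := hrep
  haveI := hbar.sep
  obtain ⟨g, hg⟩ := tb_K1 hOK hm (Fermat.Agent.S24Lib.isFunctionFieldGen_jBar (N * e)) hbar.gen
    hbar.deg hbar.genus (y := ⟨Y, hY⟩) hdiv hb hab hrel
  exact ⟨g, g.2, congrArg Subtype.val hg⟩

/-- **K3 (i)**: inertia at `𝔓` acts trivially on `tWsub` modulo `m`-th powers (`m` prime to the residue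
characteristic) -/
theorem tkr_K3_inertia_final (e : ℕ) [NeZero e]
    (hOKN : ∀ H : Subgroup 𝔓.I, H.FiniteIndex → TbLevelOK 𝔓 N H)
    (hOK : ∀ H : Subgroup 𝔓.I, H.FiniteIndex → TbLevelOK 𝔓 (N * e) H)
    (hbar : TkrBarOK 𝔓 (N * e)) {m : ℕ} (hm : Nat.Coprime m 𝔓.p) (hm0 : m ≠ 0) {σ : GQ}
    (hσ : σ ∈ 𝔓.P.inertiaSubgroupIn ℚ) {y : (↥(modularFunctionFieldBar N))ˣ}
    (hy : y ∈ tWsub Kbar N m) :
    ∃ t : (↥(modularFunctionFieldBar N))ˣ, tkrSig N σ y = y * t ^ m :=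
  tkr_K3_inertia (tkr_K12_of_levelOK e hOK hbar hm hm0) (tkr_normal_of_levelOK hOKN) hm0 hσ hy

/-- **K3 (ii)**: the Eichler–Shimura relation on functions for a Frobenius element at `𝔓 | l`, `l ∤ N` -/
theorem tkr_K3_frob_final (e : ℕ) [NeZero e]
    (hOKN : ∀ H : Subgroup 𝔓.I, H.FiniteIndex → TbLevelOK 𝔓 N H)
    (hOK : ∀ H : Subgroup 𝔓.I, H.FiniteIndex → TbLevelOK 𝔓 (N * e) H)
    (hbar : TkrBarOK 𝔓 (N * e)) {m : ℕ} (hm : Nat.Coprime m 𝔓.p) (hm0 : m ≠ 0)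
    (hlN : ¬ 𝔓.p ∣ N) {σ : GQ} (hσ : 𝔓.P.IsFrobeniusAt σ 𝔓.p)
    {y : (↥(modularFunctionFieldBar N))ˣ} (hy : y ∈ tWsub Kbar N m)
    (hT : tkrHeckeUnits N 𝔓.p (tkrSig N σ y) ∈ tWsub Kbar N m) :
    ∃ t : (↥(modularFunctionFieldBar N))ˣ,
      tkrSig N σ (tkrSig N σ y) * y ^ 𝔓.p = tkrHeckeUnits N 𝔓.p (tkrSig N σ y) * t ^ m :=
  tkr_K3_frob (tkr_K12_of_levelOK e hOK hbar hm hm0) (tkr_normal_of_levelOK hOKN) hm0 𝔓.hp hlN
    𝔓.hP hσ hy hT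

end Fermat.Agent.T1
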