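/-
T1-K (helper7), (K3) bridge: the hypothesis `hK3` of helper1's `tdm_package_of_dict` from the two
families of T1-A outputs (`TbLevelOK` at every level prime to the residue characteristic, `TkrBarOK`
at every such level divisible by `4` or `9`).
-/
import Fermat.Agent.Lib.T1.Kron.K3Final

set_option autoImplicit false
set_option linter.unusedSectionVars false
set_option linter.style.haveILetI false
set_option synthInstance.maxHeartbeats 400000

namespace Fermat.Agent.T1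

open ModularCurve HahnSeries AlgebraicCurve Fermat.Agent.TW IntermediateField Fermat.Agent.Curve

local notation "Kbar" => AlgebraicClosure ℚ

/-- **K3 for all places**: `TkrK12 N (p^k) A ∧ TkrNormal N A` for every valuation subring `A` of `ℚ̄`
over a prime `q ∤ N`, `q ≠ p`. -/
theorem tkr_hK3_of_inputs (N : ℕ) [NeZero N]
    (hLevel : ∀ (𝔓 : FFPlace) (M : ℕ) [NeZero M], ¬ 𝔓.p ∣ M →
      ∀ H : Subgroup 𝔓.I, H.FiniteIndex → TbLevelOK 𝔓 M H)
    (hBar : ∀ (𝔓 : FFPlace) (M : ℕ) [NeZero M], ¬ 𝔓.p ∣ M → (4 ∣ M ∨ 9 ∣ M) → TkrBarOK 𝔓 M)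
    (p : ℕ) (hp : p.Prime) :
    ∀ q : ℕ, q.Prime → ¬ q ∣ N → q ≠ p → ∀ A : ValuationSubring Kbar, A.LiesOverPrime q →
      ∀ k : ℕ, TkrK12 N (p ^ k) A ∧ TkrNormal N A := by
  intro q hq hqN hqp A hA k
  set 𝔓 : FFPlace := ⟨A, q, hq, hA⟩ with h𝔓
  have hcop : Nat.Coprime (p ^ k) 𝔓.p := by
    apply Nat.Coprime.pow_left
    exact (Nat.coprime_primes hp hq).mpr (Ne.symm hqp)
  have hm0 : p ^ k ≠ 0 := pow_ne_zero _ hp.ne_zero
  refine ⟨?_, tkr_normal_of_levelOK (𝔓 := 𝔓) (hLevel 𝔓 N hqN)⟩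
  by_cases h2 : q = 2
  · -- `e = 9`
    haveI : NeZero 9 := ⟨by norm_num⟩
    have hq9 : ¬ 𝔓.p ∣ N * 9 := by
      show ¬ q ∣ N * 9
      intro h
      rcases (Nat.Prime.dvd_mul hq).mp h with h | h
      · exact hqN h
      · rw [h2] at h
        omega
    exact tkr_K12_of_levelOK (𝔓 := 𝔓) 9 (hLevel 𝔓 (N * 9) hq9)
      (hBar 𝔓 (N * 9) hq9 (Or.inr (dvd_mul_left 9 N))) hcop hm0
  · -- `e = 4`
    haveI : NeZero 4 := ⟨by norm_num⟩
    have hq4 : ¬ 𝔓.p ∣ N * 4 := by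
      show ¬ q ∣ N * 4
      intro h
      rcases (Nat.Prime.dvd_mul hq).mp h with h | h
      · exact hqN h
      · have h4 : q ∣ 2 ^ 2 := by norm_num; exact h
        have := (Nat.prime_dvd_prime_iff_eq hq Nat.prime_two).mp (hq.dvd_of_dvd_pow h4)
        exact h2 this
    exact tkr_K12_of_levelOK (𝔓 := 𝔓) 4 (hLevel 𝔓 (N * 4) hq4)
      (hBar 𝔓 (N * 4) hq4 (Or.inl (dvd_mul_left 4 N))) hcop hm0

end Fermat.Agent.T1
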