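/-
T1-K (helper7), (K-I) part 6: **the functional operator `U_r`** for a prime `r ∣ N`:
for `y` in the function field of `X₀(N)` over `ℚ̄` there is `z` in the same field with
`z(q^r) = ∏_{b<r} y(ζ^b q)`, i.e. `z(τ) = ∏_b y((τ+b)/r)`.
-/
import Fermat.Agent.Lib.T1.Kron.Level
import Fermat.Agent.Lib.T1.Kron.Hecke

set_option autoImplicit false
set_option linter.unusedSectionVars false
set_option linter.style.haveILetI false

namespace Fermat.Agent.T1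

open ModularCurve HahnSeries UpperHalfPlane Matrix MatrixGroups CongruenceSubgroup
open Fermat.Agent.S24Lib
open Fermat.Agent.S22Lib (intGL)
open Fermat.Agent.ES (IsQLaurentable qLaurent)
open ModularGroup (S T)

local notation "Kbar" => AlgebraicClosure ℚ

/-! ### group theory: `Γ₀(N) ∩ Γ⁰(r)` and the cosets `T^b` -/

theorem tkr_SL_mul_apply (γ γ' : SL(2, ℤ)) (i j : Fin 2) :
    (γ * γ') i j = γ i 0 * γ' 0 j + γ i 1 * γ' 1 j := by
  show (γ * γ').1 i j = _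
  rw [Matrix.SpecialLinearGroup.coe_mul, Matrix.mul_apply, Fin.sum_univ_two]

/-- `Γ₀(N) ∩ Γ⁰(r)` -/
def tkrH (N r : ℕ) : Subgroup SL(2, ℤ) where
  carrier := {γ | (N : ℤ) ∣ γ 1 0 ∧ (r : ℤ) ∣ γ 0 1}
  one_mem' := by
    constructor <;> simp
  mul_mem' := by
    rintro γ γ' ⟨h1, h2⟩ ⟨h1', h2'⟩
    constructor
    · show (N : ℤ) ∣ (γ * γ') 1 0
      rw [tkr_SL_mul_apply]
      exact dvd_add (h1.mul_right _) (h1'.mul_left _)
    · show (r : ℤ) ∣ (γ * γ') 0 1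
      rw [tkr_SL_mul_apply]
      exact dvd_add (h2'.mul_left _) (h2.mul_right _)
  inv_mem' := by
    rintro γ ⟨h1, h2⟩
    constructor
    · show (N : ℤ) ∣ (γ⁻¹) 1 0
      rw [Matrix.SpecialLinearGroup.SL2_inv_expl]
      simpa using h1
    · show (r : ℤ) ∣ (γ⁻¹) 0 1
      rw [Matrix.SpecialLinearGroup.SL2_inv_expl]
      simpa using h2

theorem mem_tkrH {N r : ℕ} {γ : SL(2, ℤ)} :
    γ ∈ tkrH N r ↔ (N : ℤ) ∣ γ 1 0 ∧ (r : ℤ) ∣ γ 0 1 := Iff.rfl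

theorem tkr_T_zpow_apply (k : ℤ) (i j : Fin 2) :
    (T ^ k : SL(2, ℤ)) i j = (!![1, k; 0, 1] : Matrix (Fin 2) (Fin 2) ℤ) i j := by
  show (T ^ k).1 i j = _
  rw [ModularGroup.coe_T_zpow]

theorem tkr_T_zpow_mem_H {N r : ℕ} {k : ℤ} (h : T ^ k ∈ tkrH N r) : (r : ℤ) ∣ k := by
  have := h.2
  rw [tkr_T_zpow_apply] at this
  simpa using this

/-- entries of `T^{b'} δ T^{-b}` -/
theorem tkr_conj_T_apply (δ : SL(2, ℤ)) (b' b : ℤ) :
    (T ^ b' * δ * T ^ (-b)) 1 0 = δ 1 0 ∧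
    (T ^ b' * δ * T ^ (-b)) 0 1 = (δ 0 1 + b' * δ 1 1) - b * (δ 0 0 + b' * δ 1 0) := by
  constructor
  · rw [tkr_SL_mul_apply, tkr_SL_mul_apply, tkr_SL_mul_apply, tkr_T_zpow_apply, tkr_T_zpow_apply,
      tkr_T_zpow_apply, tkr_T_zpow_apply]
    simp
  · rw [tkr_SL_mul_apply, tkr_SL_mul_apply, tkr_SL_mul_apply, tkr_T_zpow_apply, tkr_T_zpow_apply,
      tkr_T_zpow_apply, tkr_T_zpow_apply]
    simp
    ring

/-- the cosets of `Γ₀(N) ∩ Γ⁰(r)` in `Γ₀(N)` are represented by the `T^b` -/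
theorem tkr_exists_T_mul_mem {N r : ℕ} [NeZero r] (hrN : r ∣ N) {δ : SL(2, ℤ)}
    (hδ : δ ∈ Gamma0 N) (b : ℤ) : ∃ b' : Fin r, T ^ ((b' : ℕ) : ℤ) * δ * T ^ (-b) ∈ tkrH N r := by
  rw [Gamma0_mem, ZMod.intCast_zmod_eq_zero_iff_dvd] at hδ
  have hr0 : (0 : ℤ) < r := by exact_mod_cast Nat.pos_of_ne_zero (NeZero.ne r)
  have hrc : (r : ℤ) ∣ δ 1 0 := dvd_trans (by exact_mod_cast hrN) hδ
  have hdet : δ 0 0 * δ 1 1 - δ 0 1 * δ 1 0 = 1 := by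
    have := δ.2
    rwa [Matrix.det_fin_two] at this
  set v : ℤ := ((b * δ 0 0 - δ 0 1) * δ 0 0) % r with hv
  have hv0 : 0 ≤ v := Int.emod_nonneg _ hr0.ne'
  have hvr : v < r := Int.emod_lt_of_pos _ hr0
  refine ⟨⟨v.toNat, by omega⟩, ?_⟩
  have hcast : ((v.toNat : ℕ) : ℤ) = v := Int.toNat_of_nonneg hv0
  show T ^ ((v.toNat : ℕ) : ℤ) * δ * T ^ (-b) ∈ tkrH N r
  rw [hcast, mem_tkrH, (tkr_conj_T_apply δ v b).1, (tkr_conj_T_apply δ v b).2]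
  refine ⟨hδ, ?_⟩
  obtain ⟨c', hc'⟩ := hrc
  have hvmod : (r : ℤ) ∣ v - (b * δ 0 0 - δ 0 1) * δ 0 0 := by
    rw [hv]
    exact (Int.ModEq.dvd (Int.mod_modEq _ _).symm)
  obtain ⟨w, hw⟩ := hvmod
  have hv' : v = (b * δ 0 0 - δ 0 1) * δ 0 0 + r * w := by linarith
  have h11 : δ 0 0 * δ 1 1 = 1 + δ 0 1 * (r * c') := by rw [← hc']; linarith
  refine ⟨w * δ 1 1 - b * v * c' + c' * δ 0 1 * (b * δ 0 0 - δ 0 1), ?_⟩
  rw [hc']
  linear_combination (δ 1 1) * hv' + (b * δ 0 0 - δ 0 1) * h11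

/-! ### the lifts of the generators `j(dτ/r)` -/

section Lift

variable (N₁ r : ℕ) [NeZero N₁] [NeZero r]

theorem tkr_jGenL_congr {M : ℕ} [NeZero M] {d : ℕ+} (hd : (d : ℕ) ∣ M) {γ γ' : SL(2, ℤ)}
    (h : Fermat.Agent.S24Lib.jGen d γ = Fermat.Agent.S24Lib.jGen d γ') :
    jGenL M hd γ = jGenL M hd γ' := by
  have h' : jGenR M hd γ = jGenR M hd γ' := Subtype.ext h
  show algebraMap (modRing M) (ModField M) (jGenR M hd γ)
    = algebraMap (modRing M) (ModField M) (jGenR M hd γ')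
  rw [h']

/-- case `r ∣ d`: `j(d'τ)`, `d = r d'` -/
theorem tkr_liftU_gen_dvd {d' : ℕ+} (hd' : (d' : ℕ) ∣ N₁) {η : SL(2, ℤ)}
    (hη : η ∈ tkrH (N₁ * r) r) :
    modFieldQL (N₁ * r) (modRep (N₁ * r) η (jGenL (N₁ * r) (hd'.mul_right r) 1))
      = qExpand ℂ N₁ (qExpand ℂ (r * d') (jqModC ℂ)) := by
  have hinv : η⁻¹ ∈ Gamma0 (d' : ℕ) := by
    have h1 : η⁻¹ ∈ tkrH (N₁ * r) r := (tkrH (N₁ * r) r).inv_mem hη
    rw [Gamma0_mem, ZMod.intCast_zmod_eq_zero_iff_dvd]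
    exact dvd_trans (by exact_mod_cast hd'.mul_right r) h1.1
  have h2 : jGenL (N₁ * r) (hd'.mul_right r) (1 * η⁻¹) = jGenL (N₁ * r) (hd'.mul_right r) 1 := by
    apply tkr_jGenL_congr
    have := jGen_Gamma0_mul d' hinv 1
    rw [mul_one] at this
    rw [one_mul]
    exact this
  rw [modRep_jGenL, h2, modFieldQL_jGenL_one, qExpand_qExpand, qExpand_qExpand]
  exact qExpand_congr (by ring) _

/-- case `r ∤ d`: `j(dτ/r) = j ∘ (d r 0; 0 1) γ`, `γ = (p q; d r)` -/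
theorem tkr_liftU_gen_coprime {d : ℕ+} (hd : (d : ℕ) ∣ N₁) {p q : ℤ}
    (hpq : (r : ℤ) * p - (d : ℕ) * q = 1) {η : SL(2, ℤ)} (hη : η ∈ tkrH (N₁ * r) r) :
    modFieldQL (N₁ * r) (modRep (N₁ * r) η (jGenL (N₁ * r) (tkr_mul_dvd N₁ r hd)
      ⟨!![p, q; ((d : ℕ) : ℤ), (r : ℤ)], by rw [Matrix.det_fin_two_of]; linarith⟩))
      = qExpand ℂ N₁ (qExpand ℂ d (jqModC ℂ)) := by
  set γd : SL(2, ℤ) := ⟨!![p, q; ((d : ℕ) : ℤ), (r : ℤ)], by
    rw [Matrix.det_fin_two_of]; linarith⟩ with hγd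
  have hd0 : (0 : ℤ) < (d : ℕ) := by exact_mod_cast d.pos
  have hr0 : (0 : ℤ) < (r : ℤ) := by exact_mod_cast Nat.pos_of_ne_zero (NeZero.ne r)
  have hdr : ((d * tkrPNat r : ℕ+) : ℕ) = (d : ℕ) * r := by rw [PNat.mul_coe]; rfl
  -- invariance
  have hinv : γd * η⁻¹ * γd⁻¹ ∈ Gamma0 ((d * tkrPNat r : ℕ+) : ℕ) := by
    have h1 : η⁻¹ ∈ tkrH (N₁ * r) r := (tkrH (N₁ * r) r).inv_mem hη
    obtain ⟨⟨c', hc'⟩, ⟨b', hb'⟩⟩ := h1
    obtain ⟨k, hk⟩ := hd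
    rw [Gamma0_mem, ZMod.intCast_zmod_eq_zero_iff_dvd, hdr]
    have hentry : (γd * η⁻¹ * γd⁻¹) 1 0
        = ((d : ℕ) * (η⁻¹) 0 0 + r * (η⁻¹) 1 0) * r - ((d : ℕ) * (η⁻¹) 0 1 + r * (η⁻¹) 1 1) * (d : ℕ) := by
      rw [tkr_SL_mul_apply, tkr_SL_mul_apply, tkr_SL_mul_apply,
        Matrix.SpecialLinearGroup.SL2_inv_expl γd]
      simp [hγd]
      ring
    rw [hentry, hc', hb']
    refine ⟨(η⁻¹) 0 0 + r * r * k * c' - (d : ℕ) * b' - (η⁻¹) 1 1, ?_⟩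
    have hN : ((N₁ * r : ℕ) : ℤ) = (d : ℕ) * k * r := by
      push_cast
      rw [hk]
      push_cast
      ring
    rw [hN]
    push_cast
    ring
  have h2 : jGenL (N₁ * r) (tkr_mul_dvd N₁ r hd) (γd * η⁻¹)
      = jGenL (N₁ * r) (tkr_mul_dvd N₁ r hd) γd := by
    apply tkr_jGenL_congr
    have := jGen_Gamma0_mul (d * tkrPNat r) hinv γd
    rwa [inv_mul_cancel_right] at this
  rw [modRep_jGenL, h2]
  -- the expansion
  have hU : 0 < (!![((d : ℕ) : ℤ), 0; 0, (r : ℤ)] : Matrix (Fin 2) (Fin 2) ℤ).det := by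
    rw [Fermat.Agent.S22Lib.upper_det]; exact mul_pos hd0 hr0
  let ε : SL(2, ℤ) := ⟨!![(r : ℤ) * p, (d : ℕ) * q; 1, 1], by
    rw [Matrix.det_fin_two_of]; linarith⟩
  have hmat : diagMat ((d * tkrPNat r : ℕ+) : ℕ) * ((γd : SL(2, ℤ)) : Matrix (Fin 2) (Fin 2) ℤ)
      = (ε : Matrix (Fin 2) (Fin 2) ℤ) * !![((d : ℕ) : ℤ), 0; 0, (r : ℤ)] := by
    ext i j
    fin_cases i <;> fin_cases j <;>
      simp [diagMat, ε, hγd, hdr, Matrix.mul_apply, Fin.sum_univ_two] <;> ring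
  rw [jGenL, modFieldQL_algebraMap, modRingQL_apply]
  show qLaurent (N₁ * r) (Fermat.Agent.S24Lib.jGen (d * tkrPNat r) γd) = _
  rw [Fermat.Agent.S24Lib.jGen, jMat_congr hmat _ (det_SL_mul_pos ε hU), jMat_SL_mul]
  have he : (((N₁ * (d : ℕ) : ℕ)) : ℤ) * (r : ℤ) = ((N₁ * r : ℕ) : ℤ) * ((d : ℕ) : ℤ) := by
    push_cast; ring
  haveI : NeZero (N₁ * (d : ℕ)) := ⟨Nat.mul_ne_zero (NeZero.ne N₁) d.pos.ne'⟩
  haveI : NeZero (d : ℕ) := ⟨d.pos.ne'⟩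
  have h3 := tkr_qLaurent_upper ((d : ℕ) : ℤ) 0 (r : ℤ) hd0 hr0 hU (N₁ * r) (N₁ * (d : ℕ)) he
  have h4 : tkrExpUnit 0 (r : ℤ) = 1 := by
    apply Units.ext
    simp
  rw [h4, tkrTw_one_apply] at h3
  rw [qExpand_qExpand]
  exact h3

/-- **every element of the function field of `X₀(N₁ r)` has a lift `y(τ/r)`** of level `N₁ r`, invariant
under `Γ₀(N₁ r) ∩ Γ⁰(r)` -/
theorem tkr_exists_liftU (hr : r.Prime) {y : LaurentSeries Kbar}
    (hy : y ∈ modularFunctionFieldBar (N₁ * r)) :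
    ∃ Y : ModField (N₁ * r), ∀ η : tkrH (N₁ * r) r,
      modFieldQL (N₁ * r) (modRep (N₁ * r) (η : SL(2, ℤ)) Y)
        = qExpand ℂ N₁ (coeffMap iotaC y) := by
  have key := tkr_bar_le (N₁ * r)
    (tkrLiftSubfield (ι := tkrH (N₁ * r) r) (K := LaurentSeries Kbar) (Ω := ModField (N₁ * r))
      (T := LaurentSeries ℂ)
      (fun η => (modFieldQL (N₁ * r)).comp
        ((modRep (N₁ * r) (η : SL(2, ℤ)) : ModField (N₁ * r) ≃ₐ[Kbar] ModField (N₁ * r)) :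
          ModField (N₁ * r) →+* ModField (N₁ * r)))
      (fun _ => (qExpand ℂ N₁).comp (coeffMap iotaC))) ?_ ?_ hy
  · exact key
  · intro c
    refine ⟨algebraMap Kbar (ModField (N₁ * r)) c, fun η => ?_⟩
    show modFieldQL (N₁ * r) (modRep (N₁ * r) (η : SL(2, ℤ)) (algebraMap Kbar _ c))
      = qExpand ℂ N₁ (coeffMap iotaC (algebraMap Kbar (LaurentSeries Kbar) c))
    rw [AlgEquiv.commutes, modFieldQL_algebraMap_Kbar, algebraMap_laurentSeries_eq_single,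
      coeffMap_single]
    have h : (HahnSeries.single (0 : ℤ) (iotaC c) : LaurentSeries ℂ) = HahnSeries.C (iotaC c) :=
      rfl
    rw [h, qExpand_C]
  · intro d _ hd
    have hd0 : 0 < d := Nat.pos_of_ne_zero (NeZero.ne d)
    have hr0 : 0 < r := Nat.pos_of_ne_zero (NeZero.ne r)
    by_cases hrd : r ∣ d
    · obtain ⟨d', rfl⟩ := hrd
      have hd'0 : 0 < d' := Nat.pos_of_ne_zero (fun h => by rw [h, mul_zero] at hd0; exact lt_irrefl _ hd0)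
      have hd' : d' ∣ N₁ := by
        rw [mul_comm N₁ r] at hd
        exact Nat.dvd_of_mul_dvd_mul_left hr0 hd
      refine ⟨jGenL (N₁ * r) (d := ⟨d', hd'0⟩) (hd'.mul_right r) 1, fun η => ?_⟩
      show modFieldQL (N₁ * r) (modRep (N₁ * r) (η : SL(2, ℤ)) _)
        = qExpand ℂ N₁ (coeffMap iotaC (coeffEmb Kbar (qExpand ℚ (r * d') jq)))
      rw [tkr_coeffMap_coeffEmb_jqd]
      exact tkr_liftU_gen_dvd N₁ r (d' := ⟨d', hd'0⟩) hd' η.2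
    · have hcop : Nat.Coprime d r := ((Nat.Prime.coprime_iff_not_dvd hr).mpr hrd).symm
      have hdN : d ∣ N₁ := hcop.dvd_of_dvd_mul_right hd
      have hbez := Nat.gcd_eq_gcd_ab r d
      rw [hcop.symm] at hbez
      have hpq : (r : ℤ) * r.gcdA d - ((⟨d, hd0⟩ : ℕ+) : ℕ) * (-(r.gcdB d)) = 1 := by
        push_cast at hbez
        show (r : ℤ) * r.gcdA d - (d : ℤ) * (-(r.gcdB d)) = 1
        linarith
      refine ⟨jGenL (N₁ * r) (tkr_mul_dvd N₁ r (d := ⟨d, hd0⟩) hdN)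
        ⟨!![r.gcdA d, -(r.gcdB d); (((⟨d, hd0⟩ : ℕ+) : ℕ) : ℤ), (r : ℤ)], by
          rw [Matrix.det_fin_two_of]; linarith⟩, fun η => ?_⟩
      show modFieldQL (N₁ * r) (modRep (N₁ * r) (η : SL(2, ℤ)) _)
        = qExpand ℂ N₁ (coeffMap iotaC (coeffEmb Kbar (qExpand ℚ d jq)))
      rw [tkr_coeffMap_coeffEmb_jqd]
      exact tkr_liftU_gen_coprime N₁ r (d := ⟨d, hd0⟩) hdN hpq η.2

/-- `exp(2πi b/(N₁ r))^{N₁} = exp(2πi/r)^b` -/
theorem tkrExpUnit_pow_level (b : ℕ) :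
    tkrExpUnit (b : ℤ) ((N₁ * r : ℕ) : ℤ) ^ N₁ = tkrExpUnit 1 (r : ℤ) ^ b := by
  apply Units.ext
  rw [Units.val_pow_eq_pow_val, Units.val_pow_eq_pow_val, tkrExpUnit_val, tkrExpUnit_val,
    ← Complex.exp_nat_mul, ← Complex.exp_nat_mul]
  congr 1
  have hN : (N₁ : ℂ) ≠ 0 := by exact_mod_cast NeZero.ne N₁
  have hr : (r : ℂ) ≠ 0 := by exact_mod_cast NeZero.ne r
  push_cast
  field_simp

/-- **existence of `U_r^fun y`**, complex form -/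
theorem tkr_exists_heckeU_aux (hr : r.Prime) {y : LaurentSeries Kbar}
    (hy : y ∈ modularFunctionFieldBar (N₁ * r)) :
    ∃ z ∈ modularFunctionFieldBar (N₁ * r),
      barQLHom (N₁ * r) z
        = qExpand ℂ N₁ (∏ b : Fin r, tkrTw (tkrExpUnit 1 (r : ℤ) ^ (b : ℕ)) (coeffMap iotaC y)) := by
  classical
  obtain ⟨Y, hY⟩ := tkr_exists_liftU N₁ r hr hy
  have hY1 : modFieldQL (N₁ * r) Y = qExpand ℂ N₁ (coeffMap iotaC y) := by
    have := hY 1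
    rwa [Subgroup.coe_one, map_one, AlgEquiv.one_apply] at this
  have hYfix : ∀ η ∈ tkrH (N₁ * r) r, modRep (N₁ * r) η Y = Y := by
    intro η hη
    apply modFieldQL_injective (N₁ * r)
    rw [hY ⟨η, hη⟩, hY1]
  set Z : ModField (N₁ * r) := ∏ b : Fin r, modRep (N₁ * r) (T ^ (-((b : ℕ) : ℤ))) Y with hZdef
  have hZ : ∀ δ ∈ Gamma0 (N₁ * r), modRep (N₁ * r) δ Z = Z := by
    intro δ hδ
    have hex : ∀ b : Fin r, ∃ b' : Fin r,
        T ^ ((b' : ℕ) : ℤ) * δ * T ^ (-((b : ℕ) : ℤ)) ∈ tkrH (N₁ * r) r :=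
      fun b => tkr_exists_T_mul_mem (dvd_mul_left r N₁) hδ _
    choose π hπ using hex
    have hinj : Function.Injective π := by
      intro b1 b2 h12
      have h1 := hπ b1
      have h2 := hπ b2
      rw [h12] at h1
      have h3 := (tkrH (N₁ * r) r).mul_mem ((tkrH (N₁ * r) r).inv_mem h1) h2
      have h4 : (T ^ ((π b2 : ℕ) : ℤ) * δ * T ^ (-((b1 : ℕ) : ℤ)))⁻¹
          * (T ^ ((π b2 : ℕ) : ℤ) * δ * T ^ (-((b2 : ℕ) : ℤ)))
          = T ^ (((b1 : ℕ) : ℤ) - ((b2 : ℕ) : ℤ)) := by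
        rw [sub_eq_add_neg, _root_.zpow_add]
        group
      rw [h4] at h3
      have h5 := tkr_T_zpow_mem_H h3
      apply Fin.ext
      have hb1 := b1.2
      have hb2 := b2.2
      obtain ⟨k, hk⟩ := h5
      have hr0 : (0 : ℤ) < (r : ℤ) := by exact_mod_cast Nat.pos_of_ne_zero (NeZero.ne r)
      have hb1' : ((b1 : ℕ) : ℤ) < r := by exact_mod_cast hb1
      have hb2' : ((b2 : ℕ) : ℤ) < r := by exact_mod_cast hb2
      have hb1'' : (0 : ℤ) ≤ ((b1 : ℕ) : ℤ) := Int.natCast_nonneg _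
      have hb2'' : (0 : ℤ) ≤ ((b2 : ℕ) : ℤ) := Int.natCast_nonneg _
      have hk0 : k = 0 := by
        rcases lt_trichotomy k 0 with h | h | h
        · exfalso
          have : (r : ℤ) * k ≤ -(r : ℤ) := by nlinarith
          linarith
        · exact h
        · exfalso
          have : (r : ℤ) ≤ (r : ℤ) * k := by nlinarith
          linarith
      rw [hk0, mul_zero] at hk
      omega
    have hbij : Function.Bijective π := Finite.injective_iff_bijective.mp hinj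
    have hterm : ∀ b : Fin r, modRep (N₁ * r) δ (modRep (N₁ * r) (T ^ (-((b : ℕ) : ℤ))) Y)
        = modRep (N₁ * r) (T ^ (-((π b : ℕ) : ℤ))) Y := by
      intro b
      have e1 : δ * T ^ (-((b : ℕ) : ℤ))
          = T ^ (-((π b : ℕ) : ℤ)) * (T ^ ((π b : ℕ) : ℤ) * δ * T ^ (-((b : ℕ) : ℤ))) := by
        rw [_root_.zpow_neg]
        group
      rw [← AlgEquiv.mul_apply, ← map_mul, e1, map_mul, AlgEquiv.mul_apply, hYfix _ (hπ b)]
    rw [hZdef, map_prod, Finset.prod_congr rfl (fun b _ => hterm b)]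
    exact hbij.prod_comp (fun t => modRep (N₁ * r) (T ^ (-((t : ℕ) : ℤ))) Y)
  obtain ⟨z, hz, hzZ⟩ := tkr_exists_of_fixed (N₁ * r) (N₁ * r) dvd_rfl Z hZ
  refine ⟨z, hz, ?_⟩
  rw [hzZ, hZdef, map_prod, map_prod]
  refine Finset.prod_congr rfl (fun b _ => ?_)
  rw [tkr_modFieldQL_modRep_T_zpow, neg_neg, hY1, tkrTw_qExpand, tkrExpUnit_pow_level]

end Lift

/-- **EXISTENCE OF THE FUNCTIONAL OPERATOR** `U_r^fun`, `r ∣ N` prime: there is a primitive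
`r`-th root of unity `ζ ∈ ℚ̄` such that for every `y` in the function field of `X₀(N)` over `ℚ̄`
there is `z` in the same field with `z(q^r) = ∏_{b<r} y(ζ^b q)`. -/
theorem tkr_exists_heckeU_zeta (N r : ℕ) [NeZero N] [NeZero r] (hr : r.Prime) (hrN : r ∣ N) :
    ∃ ζ : Kbarˣ, IsPrimitiveRoot (ζ : Kbar) r ∧ ∀ y ∈ modularFunctionFieldBar N,
      ∃ z ∈ modularFunctionFieldBar N,
        qExpand Kbar r z = ∏ b : Fin r, tkrTw (ζ ^ (b : ℕ)) y := by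
  obtain ⟨ζ, hζ, hζC⟩ := tkr_exists_zeta r
  refine ⟨ζ, hζ, ?_⟩
  obtain ⟨N₁, rfl⟩ := hrN
  rw [mul_comm r N₁]
  haveI : NeZero N₁ := ⟨fun h => by
    have := NeZero.ne (r * N₁)
    rw [h, mul_zero] at this
    exact this rfl⟩
  intro y hy
  obtain ⟨z, hz, hzP⟩ := tkr_exists_heckeU_aux N₁ r hr hy
  refine ⟨z, hz, ?_⟩
  apply tkr_coeffMap_injective iotaC_injective
  apply qExpand_injective (R := ℂ) N₁
  rw [barQLHom_apply] at hzP
  rw [coeffMap_qExpand, qExpand_qExpand, hzP, map_prod (coeffMap iotaC)]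
  refine congrArg (qExpand ℂ N₁) (Finset.prod_congr rfl (fun b _ => ?_))
  rw [coeffMap_tkrTw, map_pow, hζC]

end Fermat.Agent.T1
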