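/-
T1-K (helper7), (K-I) part 7: **the functional operator** `tkrHeckeU N r` (`U_r^fun`) on the function
field of `X₀(N)` over `ℚ̄` (`r ∣ N` prime), as a monoid-with-zero hom, characterised by its
`q`-expansion `(U y)(q^r) = ∏_{b<r} y(ζ^b q)` (any primitive `r`-th root of unity `ζ`); uniqueness,
independence of `ζ`, Galois equivariance.
-/
import Fermat.Agent.Lib.T1.Kron.ExistU

set_option autoImplicit false
set_option linter.unusedSectionVars false
set_option linter.style.haveILetI false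

namespace Fermat.Agent.T1

open ModularCurve HahnSeries

local notation "Kbar" => AlgebraicClosure ℚ

/-- **existence of `U_r^fun y`** for an arbitrary primitive `r`-th root of unity -/
theorem tkr_exists_heckeU (N r : ℕ) [NeZero N] [NeZero r] (hr : r.Prime) (hrN : r ∣ N)
    {ζ : Kbarˣ} (hζ : IsPrimitiveRoot (ζ : Kbar) r) {y : LaurentSeries Kbar}
    (hy : y ∈ modularFunctionFieldBar N) :
    ∃ z ∈ modularFunctionFieldBar N,
      qExpand Kbar r z = ∏ b : Fin r, tkrTw (ζ ^ (b : ℕ)) y := by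
  obtain ⟨ζ₀, hζ₀, h⟩ := tkr_exists_heckeU_zeta N r hr hrN
  obtain ⟨z, hz, hzy⟩ := h y hy
  refine ⟨z, hz, ?_⟩
  rw [hzy, tkr_prod_pow_eq hζ₀ hζ (fun c => tkrTw c y)]

/-- uniqueness of the solution of the defining equation -/
theorem tkr_heckeU_unique (r : ℕ) [NeZero r] {ζ ζ' : Kbarˣ} (hζ : IsPrimitiveRoot (ζ : Kbar) r)
    (hζ' : IsPrimitiveRoot (ζ' : Kbar) r) {y z z' : LaurentSeries Kbar}
    (hz : qExpand Kbar r z = ∏ b : Fin r, tkrTw (ζ ^ (b : ℕ)) y)
    (hz' : qExpand Kbar r z' = ∏ b : Fin r, tkrTw (ζ' ^ (b : ℕ)) y) :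
    z = z' := by
  apply qExpand_injective (R := Kbar) r
  rw [hz, hz', tkr_prod_pow_eq hζ hζ' (fun c => tkrTw c y)]

section Def

variable (N r : ℕ) [NeZero N]

open Classical in
/-- the underlying function of `tkrHeckeU` (identity unless `r` is a prime dividing `N`) -/
noncomputable def tkrHeckeUFun (y : modularFunctionFieldBar N) : modularFunctionFieldBar N :=
  if h : r.Prime ∧ r ∣ N then
    haveI : NeZero r := ⟨h.1.ne_zero⟩
    ⟨(tkr_exists_heckeU N r h.1 h.2 (tkr_exists_zeta r).choose_spec.1 y.2).choose,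
      (tkr_exists_heckeU N r h.1 h.2 (tkr_exists_zeta r).choose_spec.1 y.2).choose_spec.1⟩
  else y

variable {N r}

theorem tkrHeckeUFun_spec [NeZero r] (hr : r.Prime) (hrN : r ∣ N) {ζ : Kbarˣ}
    (hζ : IsPrimitiveRoot (ζ : Kbar) r) (y : modularFunctionFieldBar N) :
    qExpand Kbar r (tkrHeckeUFun N r y : LaurentSeries Kbar)
      = ∏ b : Fin r, tkrTw (ζ ^ (b : ℕ)) (y : LaurentSeries Kbar) := by
  have h : r.Prime ∧ r ∣ N := ⟨hr, hrN⟩
  rw [tkrHeckeUFun, dif_pos h]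
  have hi : (⟨h.1.ne_zero⟩ : NeZero r) = ‹NeZero r› := Subsingleton.elim _ _
  have := (tkr_exists_heckeU N r h.1 h.2 (tkr_exists_zeta r).choose_spec.1 y.2).choose_spec.2
  rw [this, tkr_prod_pow_eq (tkr_exists_zeta r).choose_spec.1 hζ (fun c => tkrTw c _)]

theorem tkrHeckeUFun_eq_of_spec [NeZero r] (hr : r.Prime) (hrN : r ∣ N) {ζ : Kbarˣ}
    (hζ : IsPrimitiveRoot (ζ : Kbar) r) (y z : modularFunctionFieldBar N)
    (hz : qExpand Kbar r (z : LaurentSeries Kbar)
      = ∏ b : Fin r, tkrTw (ζ ^ (b : ℕ)) (y : LaurentSeries Kbar)) :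
    tkrHeckeUFun N r y = z :=
  Subtype.ext (tkr_heckeU_unique r hζ hζ (tkrHeckeUFun_spec hr hrN hζ y) hz)

theorem tkrHeckeUFun_of_not (h : ¬ (r.Prime ∧ r ∣ N)) (y : modularFunctionFieldBar N) :
    tkrHeckeUFun N r y = y := by
  rw [tkrHeckeUFun, dif_neg h]

variable (N r)

/-- **the functional operator** `U_r^fun` on the function field of `X₀(N)` over `ℚ̄`
(`r ∣ N` prime; the identity otherwise): multiplicative, `0 ↦ 0`. -/
noncomputable def tkrHeckeU : modularFunctionFieldBar N →*₀ modularFunctionFieldBar N where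
  toFun := tkrHeckeUFun N r
  map_zero' := by
    by_cases h : r.Prime ∧ r ∣ N
    · haveI : NeZero r := ⟨h.1.ne_zero⟩
      obtain ⟨ζ, hζ, -⟩ := tkr_exists_zeta r
      refine tkrHeckeUFun_eq_of_spec h.1 h.2 hζ 0 0 ?_
      simp [zero_pow (NeZero.ne r)]
    · exact tkrHeckeUFun_of_not h 0
  map_one' := by
    by_cases h : r.Prime ∧ r ∣ N
    · haveI : NeZero r := ⟨h.1.ne_zero⟩
      obtain ⟨ζ, hζ, -⟩ := tkr_exists_zeta r
      refine tkrHeckeUFun_eq_of_spec h.1 h.2 hζ 1 1 ?_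
      simp
    · exact tkrHeckeUFun_of_not h 1
  map_mul' y y' := by
    by_cases h : r.Prime ∧ r ∣ N
    · haveI : NeZero r := ⟨h.1.ne_zero⟩
      obtain ⟨ζ, hζ, -⟩ := tkr_exists_zeta r
      refine tkrHeckeUFun_eq_of_spec h.1 h.2 hζ (y * y') (tkrHeckeUFun N r y * tkrHeckeUFun N r y') ?_
      push_cast
      rw [map_mul, tkrHeckeUFun_spec h.1 h.2 hζ y, tkrHeckeUFun_spec h.1 h.2 hζ y']
      simp only [map_mul, Finset.prod_mul_distrib]
    · rw [tkrHeckeUFun_of_not h, tkrHeckeUFun_of_not h, tkrHeckeUFun_of_not h]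

variable {N r}

/-- the defining `q`-expansion identity `(U y)(q^r) = ∏_{b<r} y(ζ^b q)` -/
theorem tkrHeckeU_spec [NeZero r] (hr : r.Prime) (hrN : r ∣ N) {ζ : Kbarˣ}
    (hζ : IsPrimitiveRoot (ζ : Kbar) r) (y : modularFunctionFieldBar N) :
    qExpand Kbar r (tkrHeckeU N r y : LaurentSeries Kbar)
      = ∏ b : Fin r, tkrTw (ζ ^ (b : ℕ)) (y : LaurentSeries Kbar) :=
  tkrHeckeUFun_spec hr hrN hζ y

/-- the same with `Finset.range` -/
theorem tkrHeckeU_spec_range [NeZero r] (hr : r.Prime) (hrN : r ∣ N) {ζ : Kbarˣ}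
    (hζ : IsPrimitiveRoot (ζ : Kbar) r) (y : modularFunctionFieldBar N) :
    qExpand Kbar r (tkrHeckeU N r y : LaurentSeries Kbar)
      = ∏ b ∈ Finset.range r, tkrTw (ζ ^ b) (y : LaurentSeries Kbar) := by
  rw [tkrHeckeU_spec hr hrN hζ y, Finset.prod_range (fun b => tkrTw (ζ ^ b) (y : LaurentSeries Kbar))]

theorem tkrHeckeU_eq_of_spec [NeZero r] (hr : r.Prime) (hrN : r ∣ N) {ζ : Kbarˣ}
    (hζ : IsPrimitiveRoot (ζ : Kbar) r) (y z : modularFunctionFieldBar N)
    (hz : qExpand Kbar r (z : LaurentSeries Kbar)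
      = ∏ b : Fin r, tkrTw (ζ ^ (b : ℕ)) (y : LaurentSeries Kbar)) :
    tkrHeckeU N r y = z :=
  tkrHeckeUFun_eq_of_spec hr hrN hζ y z hz

theorem tkrHeckeU_of_not (h : ¬ (r.Prime ∧ r ∣ N)) (y : modularFunctionFieldBar N) :
    tkrHeckeU N r y = y :=
  tkrHeckeUFun_of_not h y

/-- **Galois equivariance**: `U_r^fun` commutes with the coefficientwise action of `G_ℚ`. -/
theorem tkrHeckeU_galois (σ : Kbar ≃ₐ[ℚ] Kbar) (y : modularFunctionFieldBar N) :
    arithmeticRingAut (modularFunctionFieldFull N) σ (tkrHeckeU N r y)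
      = tkrHeckeU N r (arithmeticRingAut (modularFunctionFieldFull N) σ y) := by
  by_cases h : r.Prime ∧ r ∣ N
  · haveI : NeZero r := ⟨h.1.ne_zero⟩
    obtain ⟨ζ, hζ, -⟩ := tkr_exists_zeta r
    have hσζ : IsPrimitiveRoot ((Units.map (σ : Kbar →* Kbar) ζ : Kbarˣ) : Kbar) r := by
      show IsPrimitiveRoot (σ (ζ : Kbar)) r
      exact hζ.map_of_injective σ.injective
    symm
    refine tkrHeckeU_eq_of_spec h.1 h.2 hσζ _ _ ?_
    rw [coe_arithmeticRingAut_apply, coe_arithmeticRingAut_apply, ← coeffMap_qExpand,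
      tkrHeckeU_spec h.1 h.2 hζ y, map_prod]
    refine Finset.prod_congr rfl (fun b _ => ?_)
    rw [coeffMap_tkrTw, map_pow]
    rfl
  · rw [tkrHeckeU_of_not h, tkrHeckeU_of_not h]

/-- `U_r^fun` on units -/
noncomputable def tkrHeckeUUnits (N r : ℕ) [NeZero N] :
    (modularFunctionFieldBar N)ˣ →* (modularFunctionFieldBar N)ˣ :=
  Units.map (tkrHeckeU N r : modularFunctionFieldBar N →* modularFunctionFieldBar N)

@[simp]
theorem tkrHeckeUUnits_coe (y : (modularFunctionFieldBar N)ˣ) :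
    ((tkrHeckeUUnits N r y : (modularFunctionFieldBar N)ˣ) : modularFunctionFieldBar N)
      = tkrHeckeU N r (y : modularFunctionFieldBar N) := rfl

end Def

end Fermat.Agent.T1
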