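/-
T1-K (helper7), (U2) part 1: **the analytic principle**: a modular function `X'` (level `M'`) whose
`q`-expansion is obtained from that of `X` (level `M`) by `q_M ↦ ω q_{M'}^e`, `ω = exp(2πi b/(d M))`,
`e d M = a M'`, is `X ∘ U`, `U = (a b; 0 d)` upper triangular — as meromorphic functions on `ℍ`
(`KMod.toMer`).  Generic coefficient field `𝕜 ⊆ ℂ`.
-/
import Fermat.Agent.Lib.T1.Kron.Upper
import Fermat.Agent.Lib.T1.Dict.ToMer
import Fermat.Agent.Lib.T1.Dict.KMod.Iso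
import Fermat.Agent.Lib.T1.Dict.KMod.Infty
import Fermat.Agent.Lib.T1.Mono.Char

set_option autoImplicit false
set_option linter.unusedSectionVars false
set_option linter.style.haveILetI false

namespace Fermat.Agent.T1

open ModularCurve HahnSeries UpperHalfPlane Matrix MatrixGroups CongruenceSubgroup
open scoped Manifold
open Fermat.Agent.S24Lib (holH)
open Fermat.Agent.S22Lib (intGL intGL_det_pos)
open Fermat.Agent.ES (IsQLaurentable qLaurent qH)

/-! ### the `q`-expansion of `g ∘ U` -/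

/-- `q_M((a z + b)/d) = exp(2πi b/(d M)) q_{M'}(z)^e` when `e d M = a M'` -/
theorem tkr_qH_upper (a b d : ℤ) (hd : 0 < d)
    (hdet : 0 < (!![a, b; 0, d] : Matrix (Fin 2) (Fin 2) ℤ).det)
    (M M' : ℕ) [NeZero M] [NeZero M'] (e : ℕ) (he : (e : ℤ) * (d * M) = a * M') (z : ℍ) :
    qH ((M : ℕ) : ℝ) (intGL !![a, b; 0, d] hdet • z)
      = ((tkrExpUnit b (d * M) : ℂˣ) : ℂ) * qH ((M' : ℕ) : ℝ) z ^ e := by
  have hdc : (d : ℂ) ≠ 0 := by exact_mod_cast hd.ne'
  have hMc : (M : ℂ) ≠ 0 := by exact_mod_cast NeZero.ne M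
  have hM'c : (M' : ℂ) ≠ 0 := by exact_mod_cast NeZero.ne M'
  have hec : (e : ℂ) * ((d : ℂ) * (M : ℂ)) = (a : ℂ) * (M' : ℂ) := by exact_mod_cast he
  simp only [qH, Function.Periodic.qParam, tkrExpUnit_val]
  rw [Fermat.Agent.S22Lib.coe_intGL_upper_smul, ← Complex.exp_nat_mul, ← Complex.exp_add]
  congr 1
  have he' : (e : ℂ) = a * M' / (d * M) := by
    rw [eq_div_iff (mul_ne_zero hdc hMc)]
    exact hec
  push_cast
  rw [he']
  field_simp
  ring

/-- **the `q_{M'}`-expansion of `g ∘ U`**, `U = (a b; 0 d)`, `e d M = a M'`, for a `q_M`-Laurentable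
function `g`: substitute `q_M ↦ ω q_{M'}^e`, `ω = exp(2πi b/(d M))` -/
theorem tkr_qLaurent_comp_upper (a b d : ℤ) (hd : 0 < d)
    (hdet : 0 < (!![a, b; 0, d] : Matrix (Fin 2) (Fin 2) ℤ).det)
    (M M' : ℕ) [NeZero M] [NeZero M'] (e : ℕ) [NeZero e] (he : (e : ℤ) * (d * M) = a * M')
    {g : ℍ → ℂ} (hg : IsQLaurentable M g) :
    IsQLaurentable M' (fun τ => g (intGL !![a, b; 0, d] hdet • τ)) ∧
      qLaurent M' (fun τ => g (intGL !![a, b; 0, d] hdet • τ))
        = qExpand ℂ e (tkrTw (tkrExpUnit b (d * M)) (qLaurent M g)) := by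
  have hepos : 0 < e := Nat.pos_of_ne_zero (NeZero.ne e)
  have hmd : MDiff (fun τ => g (intGL !![a, b; 0, d] hdet • τ)) :=
    Fermat.Agent.ES.mdiff_comp_of_coe hg.mdiff (fun τ => intGL !![a, b; 0, d] hdet • τ)
      (fun w => ((a : ℂ) * w + b) / d)
      ((((differentiable_const _).mul differentiable_id).add (differentiable_const _)).div_const _)
      (fun z => Fermat.Agent.S22Lib.coe_intGL_upper_smul a b d hdet z)
  obtain ⟨h1, h2⟩ := Fermat.Agent.ES.qLaurent_comp (h₁ := M) (h₂ := M') hg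
    (fun τ => intGL !![a, b; 0, d] hdet • τ) hmd
    (ζ := ((tkrExpUnit b (d * M) : ℂˣ) : ℂ)) (Units.ne_zero _) hepos
    (tkr_qH_upper a b d hd hdet M M' e he)
  refine ⟨h1, ?_⟩
  ext m
  rw [h2 m]
  split_ifs with hm
  · obtain ⟨k, rfl⟩ := hm
    have he0 : (e : ℤ) ≠ 0 := by exact_mod_cast NeZero.ne e
    rw [qExpand_coeff_mul, tkrTw_coeff, Int.mul_ediv_cancel_left k he0,
      Units.val_zpow_eq_zpow_val]
  · rw [qExpand_coeff_of_not_dvd e _ hm]

/-! ### the principle -/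

section Principle

open Fermat.Agent.T1.KMod

variable (𝕜 : Type) [Field 𝕜] [IsAlgClosed 𝕜] [Algebra 𝕜 ℂ]

/-- **a modular function with the `q`-expansion of `X ∘ U` is `X ∘ U`** -/
theorem tkr_toMer_comp_upper (a b d : ℤ) (hd : 0 < d)
    (hdet : 0 < (!![a, b; 0, d] : Matrix (Fin 2) (Fin 2) ℤ).det)
    (M M' : ℕ) [NeZero M] [NeZero M'] (e : ℕ) [NeZero e] (he : (e : ℤ) * (d * M) = a * M')
    (X : KMod.ModField 𝕜 M) (X' : KMod.ModField 𝕜 M')
    (h : KMod.modFieldQL 𝕜 M' X'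
      = qExpand ℂ e (tkrTw (tkrExpUnit b (d * M)) (KMod.modFieldQL 𝕜 M X))) :
    KMod.toMer 𝕜 M' X' = tdmCompInt !![a, b; 0, d] hdet (KMod.toMer 𝕜 M X) := by
  obtain ⟨f, g, hg, rfl⟩ := IsFractionRing.div_surjective (A := KMod.modRing 𝕜 M) X
  obtain ⟨f', g', hg', rfl⟩ := IsFractionRing.div_surjective (A := KMod.modRing 𝕜 M') X'
  have hg0 : g ≠ 0 := nonZeroDivisors.ne_zero hg
  have hg'0 : g' ≠ 0 := nonZeroDivisors.ne_zero hg'
  have hQL : ∀ (L : ℕ) [NeZero L] (u : KMod.modRing 𝕜 L),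
      KMod.modFieldQL 𝕜 L (algebraMap (KMod.modRing 𝕜 L) (KMod.ModField 𝕜 L) u)
        = qLaurent L (u : ℍ → ℂ) := by
    intro L _ u
    rw [KMod.modFieldQL, IsFractionRing.lift_algebraMap, KMod.modRingQL_apply]
  rw [map_div₀, map_div₀, map_div₀, map_div₀, hQL, hQL, hQL, hQL] at h
  have hf := (KMod.modRing_props 𝕜 M f.2).1
  have hgq := (KMod.modRing_props 𝕜 M g.2).1
  have hf' := (KMod.modRing_props 𝕜 M' f'.2).1
  have hgq' := (KMod.modRing_props 𝕜 M' g'.2).1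
  obtain ⟨hfU, hfUq⟩ := tkr_qLaurent_comp_upper a b d hd hdet M M' e he hf
  obtain ⟨hgU, hgUq⟩ := tkr_qLaurent_comp_upper a b d hd hdet M M' e he hgq
  rw [← hfUq, ← hgUq] at h
  -- nonvanishing of the denominators
  have hgq0 : qLaurent M' (g' : ℍ → ℂ) ≠ 0 := by
    rw [← KMod.modRingQL_apply]
    exact fun h0 => hg'0 ((KMod.modRingQL_eq_zero_iff 𝕜 M').mp h0)
  have hgU0 : (fun τ => (g : ℍ → ℂ) (intGL !![a, b; 0, d] hdet • τ)) ≠ 0 := by
    intro h0
    apply hg0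
    apply Subtype.ext
    funext τ
    have := congrFun h0 ((intGL !![a, b; 0, d] hdet)⁻¹ • τ)
    simpa [smul_smul] using this
  have hgUq0 : qLaurent M' (fun τ => (g : ℍ → ℂ) (intGL !![a, b; 0, d] hdet • τ)) ≠ 0 :=
    fun h0 => hgU0 ((Fermat.Agent.ES.qLaurent_eq_zero_iff hgU).mp h0)
  rw [div_eq_div_iff hgq0 hgUq0] at h
  -- the identity of functions
  have hfun : (fun τ => (f' : ℍ → ℂ) τ * (g : ℍ → ℂ) (intGL !![a, b; 0, d] hdet • τ))
      = (fun τ => (f : ℍ → ℂ) (intGL !![a, b; 0, d] hdet • τ) * (g' : ℍ → ℂ) τ) := by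
    have h1 : IsQLaurentable M' (fun τ => (f' : ℍ → ℂ) τ
        * (g : ℍ → ℂ) (intGL !![a, b; 0, d] hdet • τ)) := hf'.mul hgU
    have h2 : IsQLaurentable M' (fun τ => (f : ℍ → ℂ) (intGL !![a, b; 0, d] hdet • τ)
        * (g' : ℍ → ℂ) τ) := hfU.mul hgq'
    have h3 := (Fermat.Agent.ES.qLaurent_eq_zero_iff (h1.sub h2)).mp (by
      rw [Fermat.Agent.ES.qLaurent_sub h1 h2, Fermat.Agent.ES.qLaurent_mul hf' hgU,
        Fermat.Agent.ES.qLaurent_mul hfU hgq', h, sub_self])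
    funext τ
    have := congrFun h3 τ
    exact sub_eq_zero.mp this
  -- conclusion
  rw [map_div₀, map_div₀, map_div₀, KMod.toMer_algebraMap, KMod.toMer_algebraMap,
    KMod.toMer_algebraMap, KMod.toMer_algebraMap, tdmCompInt, tdmComp_ofHol, tdmComp_ofHol]
  have hgH : tdmOfHol (tdmHolComp (intGL !![a, b; 0, d] hdet) (intGL_det_pos _ hdet)
      (KMod.modRingToHol 𝕜 M g)) ≠ 0 := by
    intro h0
    have h1 := tdmOfHol_injective (h0.trans (map_zero _).symm)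
    apply hgU0
    funext τ
    exact congrFun (congrArg (fun x : holH => (x : ℍ → ℂ)) h1) τ
  have hg'H : tdmOfHol (KMod.modRingToHol 𝕜 M' g') ≠ 0 := by
    intro h0
    have h1 := tdmOfHol_injective (h0.trans (map_zero _).symm)
    exact hg'0 (KMod.modRingToHol_injective 𝕜 M' (h1.trans (map_zero _).symm))
  rw [div_eq_div_iff hg'H hgH, ← map_mul, ← map_mul]
  congr 1
  apply Subtype.ext
  funext τ
  exact congrFun hfun τ

end Principle

end Fermat.Agent.T1
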