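/-
T1-K (helper7), (U2) part 2: **the analytic form of the functional Hecke operators**: the meromorphic
function on `ℍ` attached to `T_r^fun y` (`r ∤ N`) is `∏_s Y ∘ A_s`, `A_none = (r 0; 0 1)`,
`A_b = (1 b; 0 r)`, and that of `U_r^fun y` (`r ∣ N`) is `∏_b Y ∘ (1 b; 0 r)`.
-/
import Fermat.Agent.Lib.T1.Kron.HeckeU
import Fermat.Agent.Lib.T1.Kron.AnalyticPrinciple

set_option autoImplicit false
set_option linter.unusedSectionVars false
set_option linter.style.haveILetI false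

namespace Fermat.Agent.T1

open ModularCurve HahnSeries UpperHalfPlane Matrix MatrixGroups CongruenceSubgroup
open Fermat.Agent.S24Lib
open Fermat.Agent.S22Lib (intGL intGL_det_pos)
open ModularGroup (S T)

local notation "Kbar" => AlgebraicClosure ℚ

/-- the meromorphic function on `ℍ` attached to a modular function of level `N` over `ℚ̄`
(helper3's `KMod.toMer`, in S24's model) -/
noncomputable def tkrMer (N : ℕ) [NeZero N] : ModField N →+* tdmMer := KMod.toMer Kbar N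

theorem tkrMer_eq (N : ℕ) [NeZero N] (X : ModField N) : tkrMer N X = KMod.toMer Kbar N X := rfl

/-- the principle in S24's model -/
theorem tkrMer_comp_upper (a b d : ℤ) (hd : 0 < d)
    (hdet : 0 < (!![a, b; 0, d] : Matrix (Fin 2) (Fin 2) ℤ).det)
    (M M' : ℕ) [NeZero M] [NeZero M'] (e : ℕ) [NeZero e] (he : (e : ℤ) * (d * M) = a * M')
    (X : ModField M) (X' : ModField M')
    (h : modFieldQL M' X' = qExpand ℂ e (tkrTw (tkrExpUnit b (d * M)) (modFieldQL M X))) :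
    tkrMer M' X' = tdmCompInt !![a, b; 0, d] hdet (tkrMer M X) :=
  tkr_toMer_comp_upper Kbar a b d hd hdet M M' e he X X' h

theorem tkrExpUnit_zero (d : ℤ) : tkrExpUnit 0 d = 1 := by
  apply Units.ext
  simp

/-- precomposition with the identity matrix -/
theorem tdmCompInt_one (h1 : 0 < (!![1, 0; 0, 1] : Matrix (Fin 2) (Fin 2) ℤ).det) (X : tdmMer) :
    tdmCompInt !![1, 0; 0, 1] h1 X = X := by
  have h : intGL !![1, 0; 0, 1] h1 = 1 := by
    apply Units.ext
    rw [Fermat.Agent.S22Lib.intGL_val]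
    ext i j
    fin_cases i <;> fin_cases j <;> simp
  rw [tdmCompInt, tdmComp_congr h _ tdm_det_one_pos, tdmComp_one, AlgHom.id_apply]

/-- **level change**: a modular function of level `M e` with the `q`-expansion of `X` (level `M`) is
`X` -/
theorem tkrMer_level (M e : ℕ) [NeZero M] [NeZero e] (X : ModField M) (X' : ModField (M * e))
    (h : modFieldQL (M * e) X' = qExpand ℂ e (modFieldQL M X)) : tkrMer (M * e) X' = tkrMer M X := by
  have h1 : 0 < (!![1, 0; 0, 1] : Matrix (Fin 2) (Fin 2) ℤ).det := by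
    rw [Matrix.det_fin_two_of]; norm_num
  rw [tkrMer_comp_upper 1 0 1 one_pos h1 M (M * e) e (by push_cast; ring) X X'
    (by rw [tkrExpUnit_zero, tkrTw_one_apply, h]), tdmCompInt_one]

/-! ### the Hecke operator `T_r`, `r ∤ N` -/

section HeckeCase

variable (N r : ℕ) [NeZero N] [NeZero r]

/-- `exp(2πi b/(r N))^N = exp(2πi/r)^b` -/
theorem tkrExpUnit_pow_mul (b : ℕ) :
    tkrExpUnit ((b : ℕ) : ℤ) ((r : ℤ) * (N : ℤ)) ^ N = tkrExpUnit 1 (r : ℤ) ^ b := by
  apply Units.ext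
  rw [Units.val_pow_eq_pow_val, Units.val_pow_eq_pow_val, tkrExpUnit_val, tkrExpUnit_val,
    ← Complex.exp_nat_mul, ← Complex.exp_nat_mul]
  congr 1
  have hN : (N : ℂ) ≠ 0 := by exact_mod_cast NeZero.ne N
  have hr : (r : ℂ) ≠ 0 := by exact_mod_cast NeZero.ne r
  push_cast
  field_simp

theorem tkr_det_hecke_none : 0 < (!![(r : ℤ), 0; 0, 1] : Matrix (Fin 2) (Fin 2) ℤ).det := by
  rw [Matrix.det_fin_two_of]
  have : (0 : ℤ) < r := by exact_mod_cast Nat.pos_of_ne_zero (NeZero.ne r)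
  linarith

theorem tkr_det_hecke_some (b : ℤ) :
    0 < (!![1, b; 0, (r : ℤ)] : Matrix (Fin 2) (Fin 2) ℤ).det := by
  rw [Matrix.det_fin_two_of]
  have : (0 : ℤ) < r := by exact_mod_cast Nat.pos_of_ne_zero (NeZero.ne r)
  linarith

/-- the lift of `y(q^r)` is `Y ∘ (r 0; 0 1)` -/
theorem tkrMer_lift_none {yy : LaurentSeries Kbar} (Y : ModField N)
    (hY : modFieldQL N Y = qExpand ℂ N (coeffMap iotaC yy)) (X' : ModField (N * r))
    (hX' : modFieldQL (N * r) X' = tkrPhi N r none yy)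
    (h0 : 0 < (!![(r : ℤ), 0; 0, 1] : Matrix (Fin 2) (Fin 2) ℤ).det) :
    tkrMer (N * r) X' = tdmCompInt !![(r : ℤ), 0; 0, 1] h0 (tkrMer N Y) := by
  refine tkrMer_comp_upper (r : ℤ) 0 1 one_pos h0 N (N * r) (r * r) (by push_cast; ring) Y X' ?_
  rw [tkrExpUnit_zero, tkrTw_one_apply, hX', tkrPhi_none, barQLHom_apply, coeffMap_qExpand, hY,
    qExpand_qExpand, qExpand_qExpand]
  exact qExpand_congr (by ring) _

/-- the conjugates of the lift are `Y ∘ (1 b; 0 r)` -/
theorem tkrMer_lift_some (b : Fin r) {yy : LaurentSeries Kbar} (Y : ModField N)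
    (hY : modFieldQL N Y = qExpand ℂ N (coeffMap iotaC yy)) (X' : ModField (N * r))
    (hX' : modFieldQL (N * r) X' = tkrPhi N r (some b) yy)
    (hb : 0 < (!![1, ((b : ℕ) : ℤ); 0, (r : ℤ)] : Matrix (Fin 2) (Fin 2) ℤ).det) :
    tkrMer (N * r) X' = tdmCompInt !![1, ((b : ℕ) : ℤ); 0, (r : ℤ)] hb (tkrMer N Y) := by
  have hr0 : (0 : ℤ) < r := by exact_mod_cast Nat.pos_of_ne_zero (NeZero.ne r)
  refine tkrMer_comp_upper 1 ((b : ℕ) : ℤ) (r : ℤ) hr0 hb N (N * r) 1 (by push_cast; ring) Y X' ?_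
  rw [qExpand_one_apply, hX', tkrPhi_some, hY, tkrTw_qExpand, tkrExpUnit_pow_mul]

/-- **the analytic form of `T_r^fun`**: `(T_r y)(τ) = y(r τ) ∏_{b<r} y((τ+b)/r)` -/
theorem tkr_toMer_hecke (hr : r.Prime) (hrN : ¬ r ∣ N) (y : ↥(modularFunctionFieldBar N))
    (h0 : 0 < (!![(r : ℤ), 0; 0, 1] : Matrix (Fin 2) (Fin 2) ℤ).det)
    (hb : ∀ b : Fin r, 0 < (!![1, ((b : ℕ) : ℤ); 0, (r : ℤ)] : Matrix (Fin 2) (Fin 2) ℤ).det) :
    tkrMer N ((modIso N (tkrHecke N r y) : anField N) : ModField N)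
      = tdmCompInt !![(r : ℤ), 0; 0, 1] h0 (tkrMer N ((modIso N y : anField N) : ModField N))
        * ∏ b : Fin r, tdmCompInt !![1, ((b : ℕ) : ℤ); 0, (r : ℤ)] (hb b)
            (tkrMer N ((modIso N y : anField N) : ModField N)) := by
  classical
  obtain ⟨ζ, hζ, hζC⟩ := tkr_exists_zeta r
  -- Bezout
  have hcop : Nat.Coprime r N := (Nat.Prime.coprime_iff_not_dvd hr).mpr hrN
  have hbez := Nat.gcd_eq_gcd_ab r N
  rw [hcop] at hbez
  have hxy : (r : ℤ) * r.gcdA N - N * (-(r.gcdB N)) = 1 := by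
    push_cast at hbez
    linarith
  obtain ⟨Y', hY'⟩ := tkr_exists_lift N r hxy y.2
  have hY : modFieldQL N ((modIso N y : anField N) : ModField N)
      = qExpand ℂ N (coeffMap iotaC (y : LaurentSeries Kbar)) := modFieldQL_modIso N y
  set Z : ModField (N * r) := ∏ s : Option (Fin r), modRep (N * r) (tkrG hxy s)⁻¹ Y' with hZdef
  -- the `q`-expansion of `Z`
  have hspec := tkrHecke_spec hr hrN hζ y
  have hZ : modFieldQL (N * r) Z
      = qExpand ℂ r (modFieldQL N ((modIso N (tkrHecke N r y) : anField N) : ModField N)) := by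
    have hR : qExpand ℂ r (modFieldQL N ((modIso N (tkrHecke N r y) : anField N) : ModField N))
        = qExpand ℂ N (qExpand ℂ (r * r) (coeffMap iotaC (y : LaurentSeries Kbar)))
          * ∏ b : Fin r, qExpand ℂ N (tkrTw (tkrExpUnit 1 (r : ℤ) ^ (b : ℕ))
              (coeffMap iotaC (y : LaurentSeries Kbar))) := by
      rw [modFieldQL_modIso, qExpand_qExpand, qExpand_congr (mul_comm r N), ← qExpand_qExpand,
        ← coeffMap_qExpand, hspec, map_mul, map_mul, map_prod (coeffMap iotaC),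
        map_prod (qExpand ℂ N), coeffMap_qExpand]
      congr 1
      refine Finset.prod_congr rfl (fun b _ => ?_)
      rw [coeffMap_tkrTw, map_pow, hζC]
    have hL : modFieldQL (N * r) Z = ∏ s : Option (Fin r), tkrPhi N r s (y : LaurentSeries Kbar) := by
      rw [hZdef, map_prod]
      exact Finset.prod_congr rfl (fun s _ => by rw [← tkrA_apply, hY' s])
    rw [hL, hR, Fintype.prod_option]
    congr 1
    rw [tkrPhi_none, barQLHom_apply, coeffMap_qExpand, qExpand_qExpand, qExpand_qExpand]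
    exact qExpand_congr (by ring) _
  rw [← tkrMer_level N r _ Z hZ, hZdef, map_prod, Fintype.prod_option]
  congr 1
  · exact tkrMer_lift_none N r _ hY _ (by rw [← tkrA_apply, hY' none]) h0
  · refine Finset.prod_congr rfl (fun b _ => ?_)
    exact tkrMer_lift_some N r b _ hY _ (by rw [← tkrA_apply, hY' (some b)]) (hb b)

/-- the coset representatives of `T_r`: `(r 0; 0 1)` and `(1 b; 0 r)`, `b < r` -/
def tkrHeckeMat (r : ℕ) : Option (Fin r) → Matrix (Fin 2) (Fin 2) ℤ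
  | none => !![(r : ℤ), 0; 0, 1]
  | some b => !![1, ((b : ℕ) : ℤ); 0, (r : ℤ)]

theorem tkrHeckeMat_det_pos (s : Option (Fin r)) : 0 < (tkrHeckeMat r s).det := by
  cases s with
  | none => exact tkr_det_hecke_none r
  | some b => exact tkr_det_hecke_some r _

/-- **the analytic form of `T_r^fun`**, as a product over the coset representatives -/
theorem tkr_toMer_hecke' (hr : r.Prime) (hrN : ¬ r ∣ N) (y : ↥(modularFunctionFieldBar N)) :
    tkrMer N ((modIso N (tkrHecke N r y) : anField N) : ModField N)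
      = ∏ s : Option (Fin r), tdmCompInt (tkrHeckeMat r s) (tkrHeckeMat_det_pos r s)
            (tkrMer N ((modIso N y : anField N) : ModField N)) := by
  rw [Fintype.prod_option]
  exact tkr_toMer_hecke N r hr hrN y _ _

end HeckeCase

/-! ### the operator `U_r`, `r ∣ N` -/

/-- the principle with a change of level on the left: `e d M = a M' e'` -/
theorem tkrMer_comp_upper' (a b d : ℤ) (hd : 0 < d)
    (hdet : 0 < (!![a, b; 0, d] : Matrix (Fin 2) (Fin 2) ℤ).det)
    (M M' : ℕ) [NeZero M] [NeZero M'] (e e' : ℕ) [NeZero e] [NeZero e']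
    (he : (e : ℤ) * (d * M) = a * ((M' * e' : ℕ) : ℤ))
    (X : ModField M) (X' : ModField M')
    (h : qExpand ℂ e' (modFieldQL M' X')
      = qExpand ℂ e (tkrTw (tkrExpUnit b (d * M)) (modFieldQL M X))) :
    tkrMer M' X' = tdmCompInt !![a, b; 0, d] hdet (tkrMer M X) := by
  rw [← tkrMer_level M' e' X' (tkrLevel M' e' X') (modFieldQL_tkrLevel M' e' X')]
  exact tkrMer_comp_upper a b d hd hdet M (M' * e') e he X (tkrLevel M' e' X')
    (by rw [modFieldQL_tkrLevel, h])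

section UCase

variable (N₁ r : ℕ) [NeZero N₁] [NeZero r]

/-- `exp(2πi b/(r M))^r = exp(2πi b/M)` -/
theorem tkrExpUnit_pow_den (b : ℤ) (M : ℕ) [NeZero M] :
    tkrExpUnit b ((r : ℤ) * (M : ℤ)) ^ r = tkrExpUnit b (M : ℤ) := by
  apply Units.ext
  rw [Units.val_pow_eq_pow_val, tkrExpUnit_val, tkrExpUnit_val, ← Complex.exp_nat_mul]
  congr 1
  have hM : (M : ℂ) ≠ 0 := by exact_mod_cast NeZero.ne M
  have hr : (r : ℂ) ≠ 0 := by exact_mod_cast NeZero.ne r
  push_cast
  field_simp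

/-- **the analytic form of `U_r^fun`** at the level `N₁ r`: `(U_r y)(τ) = ∏_{b<r} y((τ+b)/r)` -/
theorem tkr_toMer_heckeU_aux (hr : r.Prime) (y : ↥(modularFunctionFieldBar (N₁ * r)))
    (hb : ∀ b : Fin r, 0 < (!![1, ((b : ℕ) : ℤ); 0, (r : ℤ)] : Matrix (Fin 2) (Fin 2) ℤ).det) :
    tkrMer (N₁ * r) ((modIso (N₁ * r) (tkrHeckeU (N₁ * r) r y) : anField (N₁ * r)) :
        ModField (N₁ * r))
      = ∏ b : Fin r, tdmCompInt !![1, ((b : ℕ) : ℤ); 0, (r : ℤ)] (hb b)
            (tkrMer (N₁ * r) ((modIso (N₁ * r) y : anField (N₁ * r)) : ModField (N₁ * r))) := by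
  classical
  obtain ⟨ζ, hζ, hζC⟩ := tkr_exists_zeta r
  have hr0 : (0 : ℤ) < r := by exact_mod_cast Nat.pos_of_ne_zero (NeZero.ne r)
  obtain ⟨Y', hY'⟩ := tkr_exists_liftU N₁ r hr y.2
  have hY1 : modFieldQL (N₁ * r) Y' = qExpand ℂ N₁ (coeffMap iotaC (y : LaurentSeries Kbar)) := by
    have := hY' 1
    rwa [Subgroup.coe_one, map_one, AlgEquiv.one_apply] at this
  have hY : modFieldQL (N₁ * r) ((modIso (N₁ * r) y : anField (N₁ * r)) : ModField (N₁ * r))
      = qExpand ℂ (N₁ * r) (coeffMap iotaC (y : LaurentSeries Kbar)) := modFieldQL_modIso (N₁ * r) y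
  have hX : ∀ b : Fin r, modFieldQL (N₁ * r) (modRep (N₁ * r) (T ^ (-((b : ℕ) : ℤ))) Y')
      = tkrTw (tkrExpUnit ((b : ℕ) : ℤ) ((N₁ * r : ℕ) : ℤ))
          (qExpand ℂ N₁ (coeffMap iotaC (y : LaurentSeries Kbar))) := by
    intro b
    rw [tkr_modFieldQL_modRep_T_zpow, neg_neg, hY1]
  -- the element `Z`
  have hspec := tkrHeckeU_spec hr (dvd_mul_left r N₁) hζ y
  have hZ : ((modIso (N₁ * r) (tkrHeckeU (N₁ * r) r y) : anField (N₁ * r)) : ModField (N₁ * r))
      = ∏ b : Fin r, modRep (N₁ * r) (T ^ (-((b : ℕ) : ℤ))) Y' := by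
    apply modFieldQL_injective (N₁ * r)
    rw [modFieldQL_modIso, ← qExpand_qExpand, ← coeffMap_qExpand, hspec, map_prod (coeffMap iotaC),
      map_prod (qExpand ℂ N₁), map_prod (modFieldQL (N₁ * r))]
    refine Finset.prod_congr rfl (fun b _ => ?_)
    rw [hX b, tkrTw_qExpand, tkrExpUnit_pow_level, coeffMap_tkrTw, map_pow, hζC]
  rw [hZ, map_prod]
  refine Finset.prod_congr rfl (fun b _ => ?_)
  refine tkrMer_comp_upper' 1 ((b : ℕ) : ℤ) (r : ℤ) hr0 (hb b) (N₁ * r) (N₁ * r) 1 r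
    (by push_cast; ring) _ _ ?_
  rw [qExpand_one_apply, hX b, hY, qExpand_congr (mul_comm N₁ r), ← qExpand_qExpand,
    tkrTw_qExpand (tkrExpUnit ((b : ℕ) : ℤ) ((r : ℤ) * ((N₁ * r : ℕ) : ℤ))) r, tkrExpUnit_pow_den]

end UCase

/-- **the analytic form of `U_r^fun`**, `r ∣ N` prime: `(U_r y)(τ) = ∏_{b<r} y((τ+b)/r)` -/
theorem tkr_toMer_heckeU (N r : ℕ) [NeZero N] [NeZero r] (hr : r.Prime) (hrN : r ∣ N)
    (y : ↥(modularFunctionFieldBar N))
    (hb : ∀ b : Fin r, 0 < (!![1, ((b : ℕ) : ℤ); 0, (r : ℤ)] : Matrix (Fin 2) (Fin 2) ℤ).det) :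
    tkrMer N ((modIso N (tkrHeckeU N r y) : anField N) : ModField N)
      = ∏ b : Fin r, tdmCompInt !![1, ((b : ℕ) : ℤ); 0, (r : ℤ)] (hb b)
            (tkrMer N ((modIso N y : anField N) : ModField N)) := by
  obtain ⟨N₁, hN⟩ := hrN
  have hN' : N = N₁ * r := by rw [hN, mul_comm]
  haveI : NeZero N₁ := ⟨fun h => by
    have := NeZero.ne N
    rw [hN', h, zero_mul] at this
    exact this rfl⟩
  clear hN
  subst hN'
  exact tkr_toMer_heckeU_aux N₁ r hr y hb

end Fermat.Agent.T1
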