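/-
T1-K (helper7), (U2) part 3: the analytic forms of `T_r^fun`, `U_r^fun` in terms of helper2's coset
systems `tdmSysT`, `tdmSysU` (Mono/Coset.lean).
-/
import Fermat.Agent.Lib.T1.Kron.Analytic
import Fermat.Agent.Lib.T1.Mono.Coset

set_option autoImplicit false
set_option linter.unusedSectionVars false

namespace Fermat.Agent.T1

open ModularCurve Matrix MatrixGroups CongruenceSubgroup
open Fermat.Agent.S24Lib

local notation "Kbar" => AlgebraicClosure ℚ

/-- **the analytic form of `T_r^fun`** over the coset system `tdmSysT N r` -/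
theorem tkr_toMer_hecke_sys (N r : ℕ) [NeZero N] (hr : r.Prime) (hrN : ¬ r ∣ N)
    (y : ↥(modularFunctionFieldBar N)) :
    tkrMer N ((modIso N (tkrHecke N r y) : anField N) : ModField N)
      = ∏ s : Option (Fin r), tdmCompInt ((tdmSysT N r hr hrN).rep s)
            ((tdmSysT N r hr hrN).det_pos s)
            (tkrMer N ((modIso N y : anField N) : ModField N)) := by
  haveI : NeZero r := ⟨hr.ne_zero⟩
  rw [Fintype.prod_option]
  exact tkr_toMer_hecke N r hr hrN y _ _

/-- **the analytic form of `U_r^fun`** over the coset system `tdmSysU N r` -/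
theorem tkr_toMer_heckeU_sys (N r : ℕ) [NeZero N] (hr : r.Prime) (hrN : r ∣ N)
    (y : ↥(modularFunctionFieldBar N)) :
    tkrMer N ((modIso N (tkrHeckeU N r y) : anField N) : ModField N)
      = ∏ b : Fin r, tdmCompInt ((tdmSysU N r hrN hr.ne_zero).rep b)
            ((tdmSysU N r hrN hr.ne_zero).det_pos b)
            (tkrMer N ((modIso N y : anField N) : ModField N)) := by
  haveI : NeZero r := ⟨hr.ne_zero⟩
  exact tkr_toMer_heckeU N r hr hrN y _

end Fermat.Agent.T1
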