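/-
T1-K (helper7): `TkrBarOK 𝔓 M` (the `F̄`-side inputs of K1) assembled from the landed T1-A pieces
(BarField / BarDegree / BarUpper: helper5; GenusQ: helper9; S24) and the finite-level interface
`TbLevelOK` at the base levels `4`, `9`.  Consequently `hK3` from the family `TbLevelOK` alone.
-/
import Fermat.Agent.Lib.T1.Kron.K3Bridge
import Fermat.Agent.Lib.T1.Inst.GenusQ
import Fermat.Agent.Lib.T1.GoodRed.BarUpper
import Fermat.Agent.Lib.T1.GoodRed.BarDegree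

set_option autoImplicit false
set_option linter.unusedSectionVars false
set_option linter.style.haveILetI false
set_option synthInstance.maxHeartbeats 400000

namespace Fermat.Agent.T1

open ModularCurve HahnSeries AlgebraicCurve Fermat.Agent.TW IntermediateField Fermat.Agent.Curve

local notation "Kbar" => AlgebraicClosure ℚ

theorem tkr_natCast_residue_ne_zero (𝔓 : FFPlace) {M : ℕ} (hM : ¬ 𝔓.p ∣ M) :
    ((M : ℕ) : IsLocalRing.ResidueField ↥𝔓.P) ≠ 0 := by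
  haveI : CharP (IsLocalRing.ResidueField ↥𝔓.P) 𝔓.p := tkr_charP_residue 𝔓.hp 𝔓.hP
  intro h
  exact hM ((CharP.cast_eq_zero_iff (IsLocalRing.ResidueField ↥𝔓.P) 𝔓.p M).mp h)

/-- the genus of `F̄_e` is `0` for `e = 4, 9` -/
theorem tkr_genus_base_eq_zero (𝔓 : FFPlace) (e : ℕ) [NeZero e] (he : genusFormula e = 0)
    (hpe : ¬ 𝔓.p ∣ e) (hOK : ∀ H : Subgroup 𝔓.I, H.FiniteIndex → TbLevelOK 𝔓 e H) :
    CurveP.genusR (IsLocalRing.ResidueField ↥𝔓.P) (TaBar (IsLocalRing.ResidueField ↥𝔓.P) e) = 0 := by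
  haveI : IsAlgClosed (IsLocalRing.ResidueField ↥𝔓.P) := tb_isAlgClosed_residueField 𝔓.P
  have he' := tkr_natCast_residue_ne_zero 𝔓 hpe
  haveI : Algebra.IsSeparable ↥((IsLocalRing.ResidueField ↥𝔓.P)⟮tbBarJ 𝔓 e⟯) ↥(tbBarF 𝔓 e) :=
    ta_bar_isSeparable (IsLocalRing.ResidueField ↥𝔓.P) e he'
  have h := tbq_genusR_le (𝔓 := 𝔓) (N := e) hOK
    (ta_bar_isFunctionFieldGen (IsLocalRing.ResidueField ↥𝔓.P) e)
    (ta_bar_finrank (IsLocalRing.ResidueField ↥𝔓.P) e he')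
  rw [he] at h
  have h2 : (CurveP.genusR (IsLocalRing.ResidueField ↥𝔓.P) ↥(tbBarF 𝔓 e) : ℚ) = 0 :=
    le_antisymm h (Nat.cast_nonneg _)
  exact_mod_cast h2

/-- **`TkrBarOK`** at every level `M` prime to the residue characteristic and divisible by `4` or `9` -/
theorem tkr_barOK_of_level (𝔓 : FFPlace)
    (hL4 : ¬ 𝔓.p ∣ 4 → ∀ H : Subgroup 𝔓.I, H.FiniteIndex → TbLevelOK 𝔓 4 H)
    (hL9 : ¬ 𝔓.p ∣ 9 → ∀ H : Subgroup 𝔓.I, H.FiniteIndex → TbLevelOK 𝔓 9 H)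
    (M : ℕ) [NeZero M] (hM : ¬ 𝔓.p ∣ M) (h49 : 4 ∣ M ∨ 9 ∣ M) : TkrBarOK 𝔓 M := by
  haveI : IsAlgClosed (IsLocalRing.ResidueField ↥𝔓.P) := tb_isAlgClosed_residueField 𝔓.P
  have hM' := tkr_natCast_residue_ne_zero 𝔓 hM
  have hdegQ : Module.finrank ↥(Kbar⟮tbJ M⟯) ↥(modularFunctionFieldBar M) = dedekindPsi M :=
    Fermat.Agent.S24Lib.finrank_jBar M
  have hdegK := ta_bar_finrank (IsLocalRing.ResidueField ↥𝔓.P) M hM'
  have hgen : genusFormula M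
      ≤ (CurveP.genusR (IsLocalRing.ResidueField ↥𝔓.P) ↥(tbBarF 𝔓 M) : ℚ) := by
    rcases h49 with h4 | h9
    · have hp4 : ¬ 𝔓.p ∣ 4 := fun h => hM (h.trans h4)
      haveI : NeZero 4 := ⟨by norm_num⟩
      exact ta_genusR_ge_of_four (IsLocalRing.ResidueField ↥𝔓.P) M h4 hM'
        (tkr_genus_base_eq_zero 𝔓 4 ta_genusFormula_four hp4 (hL4 hp4))
    · have hp9 : ¬ 𝔓.p ∣ 9 := fun h => hM (h.trans h9)
      haveI : NeZero 9 := ⟨by norm_num⟩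
      exact ta_genusR_ge_of_nine (IsLocalRing.ResidueField ↥𝔓.P) M h9 hM'
        (tkr_genus_base_eq_zero 𝔓 9 ta_genusFormula_nine hp9 (hL9 hp9))
  refine ⟨ta_bar_isFunctionFieldGen (IsLocalRing.ResidueField ↥𝔓.P) M,
    ta_bar_isSeparable (IsLocalRing.ResidueField ↥𝔓.P) M hM', hdegQ.trans hdegK.symm, ?_⟩
  have h1 := tbq_genusR_bar_eq (N := M)
  have h2 : (CurveP.genusR Kbar ↥(modularFunctionFieldBar M) : ℚ)
      ≤ (CurveP.genusR (IsLocalRing.ResidueField ↥𝔓.P) ↥(tbBarF 𝔓 M) : ℚ) := h1 ▸ hgen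
  exact_mod_cast h2

/-- **`hK3` from the family `TbLevelOK` alone** -/
theorem tkr_hK3_of_level (N : ℕ) [NeZero N]
    (hLevel : ∀ (𝔓 : FFPlace) (M : ℕ) [NeZero M], ¬ 𝔓.p ∣ M →
      ∀ H : Subgroup 𝔓.I, H.FiniteIndex → TbLevelOK 𝔓 M H)
    (p : ℕ) (hp : p.Prime) :
    ∀ q : ℕ, q.Prime → ¬ q ∣ N → q ≠ p → ∀ A : ValuationSubring Kbar, A.LiesOverPrime q →
      ∀ k : ℕ, TkrK12 N (p ^ k) A ∧ TkrNormal N A :=
  tkr_hK3_of_inputs N hLevel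
    (fun 𝔓 M _ hM h49 =>
      haveI : NeZero 4 := ⟨by norm_num⟩
      haveI : NeZero 9 := ⟨by norm_num⟩
      tkr_barOK_of_level 𝔓 (fun h4 => hLevel 𝔓 4 h4) (fun h9 => hLevel 𝔓 9 h9) M hM h49) p hp

end Fermat.Agent.T1
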